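/-
S58 (helper4): **Chebotarev, existence form** — every value of a finite-level representation of
`G_ℚ` is the value at a Frobenius element of a prime outside any given finite set (from the cover
form `dsx_chebCover_final` of `Lib/DS/Cheb`).
-/
import Fermat.Agent.Lib.DS.Cheb.Cross.Final

set_option autoImplicit false
set_option linter.style.haveILetI false

namespace Fermat.Agent.S58

open Fermat.Agent.DS

local notation "Qbar" => AlgebraicClosure ℚ
local notation "GQ" => (AlgebraicClosure ℚ ≃ₐ[ℚ] AlgebraicClosure ℚ)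

/-- the image of a finite-level representation is finite -/
theorem s58c_finite_range {Q : Type} [Group Q] (ρ : GQ →* Q)
    (hρ : GaloisFactorsThroughFiniteLevel ρ) : (Set.range ρ).Finite := by
  classical
  obtain ⟨L, hL, hlev⟩ := hρ
  haveI := hL
  have hlev' : DsfLevel ρ L := hlev
  let r : GQ → (↥L →ₐ[ℚ] Qbar) := fun σ => (σ : Qbar →ₐ[ℚ] Qbar).comp L.val
  let g : (↥L →ₐ[ℚ] Qbar) → Q := fun e => if h : ∃ σ, r σ = e then ρ h.choose else 1
  refine Set.Finite.subset (Set.finite_range g) ?_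
  rintro q ⟨σ, rfl⟩
  refine ⟨r σ, ?_⟩
  have hex : ∃ τ, r τ = r σ := ⟨σ, rfl⟩
  simp only [g, dif_pos hex]
  refine hlev'.apply_eq _ _ fun x hx => ?_
  have := congrArg (fun e : ↥L →ₐ[ℚ] Qbar => e ⟨x, hx⟩) hex.choose_spec
  exact this

/-- the upper density of the empty set is `0` -/
theorem s58c_density_empty : DsfDensityLe (∅ : Set ℕ) 0 := by
  refine ⟨0, fun s _ _ P hP => ?_⟩
  have hP' : P = ∅ := by
    rw [Finset.eq_empty_iff_forall_notMem]
    intro p hp
    exact (hP p hp).2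
  rw [hP']
  simp

/-- **Chebotarev, existence form** -/
theorem s58c_exists_frob {Q : Type} [Group Q] (ρ : GQ →* Q)
    (hρ : GaloisFactorsThroughFiniteLevel ρ) (T : Finset ℕ) (σ : GQ) :
    ∃ p : ℕ, p.Prime ∧ p ∉ T ∧ ∃ (A : ValuationSubring Qbar) (φ : GQ),
      A.LiesOverPrime p ∧ A.IsFrobeniusAt φ p ∧ ρ φ = ρ σ := by
  classical
  have hcov := dsx_chebCover_final ρ hρ T ∅ 0 s58c_density_empty
  rw [sub_zero, one_mul] at hcov
  have hfin : (Set.range ρ).Finite := s58c_finite_range ρ hρ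
  have hsub : dsfFrobValues ρ T ∅ ⊆ Set.range ρ := by
    rintro q ⟨p, -, -, -, A, φ, -, -, rfl⟩
    exact ⟨φ, rfl⟩
  have hcard : Nat.card ρ.range = (Set.range ρ).ncard := by
    rw [← Nat.card_coe_set_eq]
    rfl
  have hle : (Set.range ρ).ncard ≤ (dsfFrobValues ρ T ∅).ncard := by
    rw [← hcard]
    exact_mod_cast hcov
  have heq : dsfFrobValues ρ T ∅ = Set.range ρ := Set.eq_of_subset_of_ncard_le hsub hle hfin
  have hσ : ρ σ ∈ dsfFrobValues ρ T ∅ := heq ▸ ⟨σ, rfl⟩
  obtain ⟨p, hp, hpT, -, A, φ, hA, hφ, h⟩ := hσ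
  exact ⟨p, hp, hpT, A, φ, hA, hφ, h⟩

end Fermat.Agent.S58
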