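/-
S58 (helper8, architect): **shared definitions of the Galois side of S58** (conductor-level matching).

* `s58E W`, `S58Tors W n`, `s58Gal W n` : the generic fibre of `W / ℤ`, its `n`-torsion over `ℚ̄` in the
  Prelude's form and the Galois action on it as `ZMod n`-linear endomorphisms;
* `S58ET W` : the Frobenius-trace statement (ET) in the form consumed by S58;
* `S58Match W lam ρ` : the `lam`-adic representation `ρ` has the same traces and determinants as
  the `lam`-power torsion of `W`, at every element of `G_ℚ` and every finite level.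
-/
import Mathlib
import Fermat.Prelude.Def_FLTPrelim_ModularRep
import Fermat.Prelude.Def_GaloisRep_LocalConditions

set_option autoImplicit false

namespace Fermat.Agent.S58

open WeierstrassCurve WeierstrassCurve.Affine.Point
open scoped WeierstrassCurve.Affine

local notation "Qb" => AlgebraicClosure ℚ
local notation "GQ" => (AlgebraicClosure ℚ ≃ₐ[ℚ] AlgebraicClosure ℚ)

/-- the generic fibre of an integral Weierstrass model -/
abbrev s58E (W : WeierstrassCurve ℤ) : WeierstrassCurve ℚ := W.map (Int.castRingHom ℚ)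

/-- the `n`-torsion of `W(ℚ̄)`, in the Prelude's form -/
noncomputable abbrev S58Tors (W : WeierstrassCurve ℤ) (n : ℕ) :=
  Submodule.torsionBy ℤ ((s58E W)⁄Qb).Point n

/-- the Galois action on the `n`-torsion, as `ZMod n`-linear endomorphisms (Prelude) -/
noncomputable abbrev s58Gal (W : WeierstrassCurve ℤ) (n : ℕ) :
    GQ →* Module.End (ZMod n) (S58Tors W n) :=
  galoisRepModuleEnd (K := Qb) ℚ (s58E W) n

/-- **(ET)**: at a prime `ℓ` of good reduction, a Frobenius element at `ℓ` acts on the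
`lam ^ m`-torsion (`lam ≠ ℓ`) with trace `a_ℓ(W)` and determinant `ℓ`. -/
def S58ET (W : WeierstrassCurve ℤ) : Prop :=
  ∀ (ℓ lam m n : ℕ), ℓ.Prime → ¬ (ℓ : ℤ) ∣ W.Δ → lam.Prime → lam ≠ ℓ → n = lam ^ m →
    ∀ A : ValuationSubring Qb, A.LiesOverPrime ℓ → ∀ σ : GQ, A.IsFrobeniusAt σ ℓ →
      LinearMap.trace (ZMod n) (S58Tors W n) (s58Gal W n σ) = ((W.apOfModel ℓ : ℤ) : ZMod n) ∧
      LinearMap.det (s58Gal W n σ) = ((ℓ : ℕ) : ZMod n)

/-- `ρ` **matches** `W` `lam`-adically: at every `σ ∈ G_ℚ` and every level `n = lam ^ m` the trace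
and the determinant of `ρ σ` are congruent modulo `n` to those of `σ` on `W[n]`. -/
def S58Match (W : WeierstrassCurve ℤ) (lam : ℕ) {A : Type} [CommRing A] [IsLocalRing A]
    (ρ : GaloisRepAdic A) : Prop :=
  ∀ (σ : GQ) (m n : ℕ), n = lam ^ m → ∃ t d : ℤ,
    LinearMap.trace (ZMod n) (S58Tors W n) (s58Gal W n σ) = (t : ZMod n) ∧
    LinearMap.det (s58Gal W n σ) = (d : ZMod n) ∧
    LinearMap.trace A ρ.V (ρ.ρ σ) - (t : A) ∈ Ideal.span {((n : ℕ) : A)} ∧
    LinearMap.det (ρ.ρ σ) - (d : A) ∈ Ideal.span {((n : ℕ) : A)}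

end Fermat.Agent.S58
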