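/-
S58-D (helper7), part 1: **involutions of an algebraically closed field invert the roots of unity of
odd order** (elementary Artin–Schreier), and complex conjugation on `ℚ̄`.

* `s58d_inv_rootOfUnity` : `F` a field in which every element is a square, `2 ≠ 0`, `c` an
  involutive ring automorphism `≠ id`, `ζ ^ n = 1` with `n` odd ⟹ `c ζ = ζ⁻¹`;
* `s58d_involution_rootOfUnity` : the same for `c ∈ G_ℚ` on `ℚ̄`;
* `s58d_exists_involution : ∃ c : G_ℚ, c * c = 1 ∧ c ≠ 1` (complex conjugation).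
-/
import Mathlib

set_option autoImplicit false
set_option linter.unusedSectionVars false
set_option linter.unusedVariables false

namespace Fermat.Agent.S58

local notation "Qb" => AlgebraicClosure ℚ
local notation "GQ" => (AlgebraicClosure ℚ ≃ₐ[ℚ] AlgebraicClosure ℚ)

section Abstract

variable {F : Type*} [Field F] (hsq : ∀ a : F, ∃ b : F, b * b = a) (h2 : (2 : F) ≠ 0)
  (c : F ≃+* F) (hc : ∀ x, c (c x) = x)

include hsq h2 hc

/-- a square root of `-1` is moved by a nontrivial involution -/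
theorem s58d_inv_I {i : F} (hi : i * i = -1) (hc1 : ∃ x, c x ≠ x) : c i = -i := by
  have hci : c i * c i = -1 := by rw [← map_mul, hi, map_neg, map_one]
  have h : (c i - i) * (c i + i) = 0 := by linear_combination hci - hi
  rcases mul_eq_zero.mp h with h | h
  · -- `c i = i`: contradiction
    exfalso
    have hfix : c i = i := sub_eq_zero.mp h
    obtain ⟨α, hα⟩ := hc1
    set δ := α - c α with hδ
    have hδ0 : δ ≠ 0 := fun h0 => hα (sub_eq_zero.mp h0).symm
    have hcδ : c δ = -δ := by rw [hδ, map_sub, hc]; ring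
    obtain ⟨β, hβ⟩ := hsq δ
    set N := β * c β with hN
    have hcN : c N = N := by rw [hN, map_mul, hc]; ring
    have hN2 : N * N = (i * δ) * (i * δ) := by
      have : N * N = (β * β) * c (β * β) := by rw [hN, map_mul]; ring
      rw [this, hβ, hcδ]
      linear_combination (-δ * δ) * hi
    have h' : (N - i * δ) * (N + i * δ) = 0 := by linear_combination hN2
    have hi0 : i ≠ 0 := by
      intro h0
      rw [h0, mul_zero] at hi
      exact one_ne_zero (neg_eq_zero.mp hi.symm)
    have hcid : c (i * δ) = -(i * δ) := by rw [map_mul, hfix, hcδ]; ring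
    have h2δ : (2 : F) * (i * δ) ≠ 0 := mul_ne_zero h2 (mul_ne_zero hi0 hδ0)
    rcases mul_eq_zero.mp h' with h'' | h''
    · have e : N = i * δ := sub_eq_zero.mp h''
      rw [e, hcid] at hcN
      exact h2δ (by linear_combination -hcN)
    · have e : N = -(i * δ) := eq_neg_of_add_eq_zero_left h''
      rw [e, map_neg, hcid] at hcN
      exact h2δ (by linear_combination hcN)
  · exact eq_neg_of_add_eq_zero_left h

/-- sums of two squares of fixed elements are squares of fixed elements -/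
theorem s58d_inv_sum_sq (hc1 : ∃ x, c x ≠ x) {a b : F} (ha : c a = a) (hb : c b = b) :
    ∃ e : F, c e = e ∧ a * a + b * b = e * e := by
  obtain ⟨i, hi⟩ := hsq (-1)
  have hci := s58d_inv_I hsq h2 c hc hi hc1
  obtain ⟨γ, hγ⟩ := hsq (a + b * i)
  refine ⟨γ * c γ, by rw [map_mul, hc]; ring, ?_⟩
  have : γ * c γ * (γ * c γ) = (γ * γ) * c (γ * γ) := by rw [map_mul]; ring
  rw [this, hγ, map_add, map_mul, ha, hb, hci]
  linear_combination (b * b) * hi

/-- `-1` is not the square of a fixed element -/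
theorem s58d_inv_neg_one (hc1 : ∃ x, c x ≠ x) {r : F} (hr : c r = r) : r * r ≠ -1 := by
  intro h
  have h1 := s58d_inv_I hsq h2 c hc h hc1
  rw [hr] at h1
  have hr0 : r ≠ 0 := by
    intro h0
    rw [h0, mul_zero] at h
    exact one_ne_zero (neg_eq_zero.mp h.symm)
  exact mul_ne_zero h2 hr0 (by linear_combination h1)

/-- the nonzero squares of fixed elements are closed under addition -/
theorem s58d_inv_add_sq (hc1 : ∃ x, c x ≠ x) {x y : F}
    (hx : ∃ r : F, c r = r ∧ r ≠ 0 ∧ x = r * r) (hy : ∃ r : F, c r = r ∧ r ≠ 0 ∧ y = r * r) :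
    ∃ r : F, c r = r ∧ r ≠ 0 ∧ x + y = r * r := by
  obtain ⟨a, ha, ha0, rfl⟩ := hx
  obtain ⟨b, hb, hb0, rfl⟩ := hy
  obtain ⟨e, he, hab⟩ := s58d_inv_sum_sq hsq h2 c hc hc1 ha hb
  refine ⟨e, he, ?_, hab⟩
  intro he0
  rw [he0, mul_zero] at hab
  have hq : c (a / b) = a / b := by rw [map_div₀, ha, hb]
  refine s58d_inv_neg_one hsq h2 c hc hc1 hq ?_
  field_simp
  linear_combination hab

/-- nonempty sums of nonzero squares of fixed elements are such squares -/
theorem s58d_inv_sum_range (hc1 : ∃ x, c x ≠ x) (f : ℕ → F)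
    (hf : ∀ t, ∃ r : F, c r = r ∧ r ≠ 0 ∧ f t = r * r) (n : ℕ) :
    ∃ r : F, c r = r ∧ r ≠ 0 ∧ ∑ t ∈ Finset.range (n + 1), f t = r * r := by
  induction n with
  | zero => simpa using hf 0
  | succ n ih =>
    rw [Finset.sum_range_succ]
    exact s58d_inv_add_sq hsq h2 c hc hc1 ih (hf (n + 1))

/-- **involutions invert the roots of unity of odd order** -/
theorem s58d_inv_rootOfUnity (hc1 : ∃ x, c x ≠ x) {n : ℕ} (hn : Odd n) {ζ : F}
    (hζ : ζ ^ n = 1) : c ζ = ζ⁻¹ := by
  obtain ⟨j, rfl⟩ := hn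
  have hζ0 : ζ ≠ 0 := by
    intro h0
    rw [h0, zero_pow (by omega)] at hζ
    exact zero_ne_one hζ
  set u := ζ * c ζ with hu
  have hcu : c u = u := by rw [hu, map_mul, hc]; ring
  have hun : u ^ (2 * j + 1) = 1 := by
    rw [hu, mul_pow, ← map_pow, hζ, map_one, mul_one]
  have hu0 : u ≠ 0 := by
    intro h0
    rw [h0, zero_pow (by omega)] at hun
    exact zero_ne_one hun
  have hf : ∀ t : ℕ, ∃ r : F, c r = r ∧ r ≠ 0 ∧ u ^ t = r * r := by
    intro t
    refine ⟨(u ^ t) ^ (j + 1), by rw [map_pow, map_pow, hcu], pow_ne_zero _ (pow_ne_zero _ hu0), ?_⟩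
    have : (u ^ t) ^ (j + 1) * (u ^ t) ^ (j + 1) = (u ^ (2 * j + 1)) ^ t * u ^ t := by ring
    rw [this, hun, one_pow, one_mul]
  obtain ⟨r, -, hr0, hsum⟩ := s58d_inv_sum_range hsq h2 c hc hc1 (fun t => u ^ t) hf (2 * j)
  have hgeom : (u - 1) * ∑ t ∈ Finset.range (2 * j + 1), u ^ t = 0 := by
    rw [mul_geom_sum, hun, sub_self]
  rw [hsum] at hgeom
  have hu1 : u = 1 := by
    rcases mul_eq_zero.mp hgeom with h | h
    · exact sub_eq_zero.mp h
    · exact absurd h (mul_ne_zero hr0 hr0)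
  rw [hu] at hu1
  exact eq_inv_of_mul_eq_one_right hu1

end Abstract

/-! ### The case of `ℚ̄` -/

/-- `ℚ̄ / ℚ` is algebraic, for the `ℚ`-algebra structure found by instance search -/
theorem s58d_isAlgebraic : Algebra.IsAlgebraic ℚ Qb := by
  have h : (DivisionRing.toRatAlgebra : Algebra ℚ Qb) = AlgebraicClosure.instAlgebra ℚ :=
    Subsingleton.elim _ _
  rw [h]
  exact AlgebraicClosure.isAlgebraic ℚ

/-- `ℚ̄ / ℚ` is normal, for the `ℚ`-algebra structure found by instance search -/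
theorem s58d_normal : Normal ℚ Qb := by
  have h : (DivisionRing.toRatAlgebra : Algebra ℚ Qb) = AlgebraicClosure.instAlgebra ℚ :=
    Subsingleton.elim _ _
  rw [h]
  let _ : Algebra ℚ Qb := AlgebraicClosure.instAlgebra ℚ
  exact IsAlgClosure.normal ℚ Qb

/-- **any involution `c ≠ 1` of `ℚ̄` inverts the roots of unity of odd order** -/
theorem s58d_involution_rootOfUnity (c : GQ) (hc : c * c = 1) (hc1 : c ≠ 1) {n : ℕ} (hn : Odd n)
    {ζ : Qb} (hζ : ζ ^ n = 1) : c ζ = ζ⁻¹ := by
  have hsq : ∀ a : Qb, ∃ b : Qb, b * b = a := fun a => by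
    obtain ⟨z, hz⟩ := IsAlgClosed.exists_eq_mul_self a
    exact ⟨z, hz.symm⟩
  have h2 : (2 : Qb) ≠ 0 := two_ne_zero
  have hcc : ∀ x, (c : Qb ≃+* Qb) ((c : Qb ≃+* Qb) x) = x := by
    intro x
    have := congrArg (fun τ : GQ => τ x) hc
    simpa [AlgEquiv.mul_apply] using this
  have hne : ∃ x, (c : Qb ≃+* Qb) x ≠ x := by
    by_contra h
    push Not at h
    exact hc1 (AlgEquiv.ext h)
  exact s58d_inv_rootOfUnity hsq h2 (c : Qb ≃+* Qb) hcc hne hn hζ

/-- **complex conjugation on `ℚ̄`**: there is an involution `c ≠ 1` in `G_ℚ` -/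
theorem s58d_exists_involution : ∃ c : GQ, c * c = 1 ∧ c ≠ 1 := by
  have := s58d_isAlgebraic
  have := s58d_normal
  let ι : Qb →ₐ[ℚ] ℂ := IsAlgClosed.lift
  let _ : Algebra Qb ℂ := ι.toRingHom.toAlgebra
  have : IsScalarTower ℚ Qb ℂ := IsScalarTower.of_algebraMap_eq fun q => (ι.commutes q).symm
  let conj : ℂ ≃ₐ[ℚ] ℂ := Complex.conjAe.restrictScalars ℚ
  let c : GQ := conj.restrictNormal Qb
  have hcomm : ∀ x : Qb, ι (c x) = (starRingEnd ℂ) (ι x) := fun x =>
    AlgEquiv.restrictNormal_commutes conj Qb x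
  refine ⟨c, ?_, ?_⟩
  · ext x
    apply ι.injective
    show ι ((c * c) x) = ι ((1 : GQ) x)
    rw [AlgEquiv.mul_apply, hcomm, hcomm, Complex.conj_conj]
    rfl
  · intro h1
    obtain ⟨i, hi⟩ := IsAlgClosed.exists_eq_mul_self (-1 : Qb)
    have hci := hcomm i
    rw [h1] at hci
    have hi' : ι i * ι i = -1 := by rw [← map_mul, ← hi, map_neg, map_one]
    -- `ι i` is real, so its square is nonnegative
    have hreal : (ι i).im = 0 := by
      have := congrArg Complex.im hci
      simp only [AlgEquiv.one_apply, Complex.conj_im] at this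
      linarith
    have := congrArg Complex.re hi'
    simp only [Complex.mul_re, hreal, mul_zero, sub_zero, Complex.neg_re, Complex.one_re] at this
    nlinarith [mul_self_nonneg (ι i).re]

end Fermat.Agent.S58
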