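/-
S58-D (helper7), part 2: **the determinant of `W[lam ^ m]` is the cyclotomic character.**

* `s58dRho W n : G_ℚ →* (End W[n])ˣ × (ZMod n)ˣ` (action on `W[n]` and on `μ_n`), of finite level;
* `s58d_det_cyclo` : `det (σ | W[n]) = d` ⟹ `σ ζ = ζ ^ d` on `μ_n` (`n = lam ^ m`; Chebotarev + (ET));
* `s58d_det_inertia` : inertia at `r ≠ lam` has determinant `1`;
* `s58d_det_involution` : an involution `c ≠ 1` of `ℚ̄` has determinant `-1` on `W[p]`, `p` odd
  (`s58d_det_involution_pow` on `W[lam ^ m]`).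
-/
import Fermat.Agent.Lib.S58.Defs
import Fermat.Agent.Lib.S58.Cheb
import Fermat.Agent.Lib.S58.DetInv
import Fermat.Agent.Lib.TW.TWPrimes.Cyclo
import Fermat.Agent.Lib.LR.E.Main
import Fermat.Agent.Lib.S05.QValQbar

set_option autoImplicit false
set_option linter.unusedSectionVars false
set_option linter.unusedVariables false
set_option linter.style.haveILetI false

namespace Fermat.Agent.S58

open WeierstrassCurve WeierstrassCurve.Affine.Point Fermat.Agent.TW Fermat.Agent.CFT.Pinf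
open scoped WeierstrassCurve.Affine

local notation "Qb" => AlgebraicClosure ℚ
local notation "GQ" => (AlgebraicClosure ℚ ≃ₐ[ℚ] AlgebraicClosure ℚ)

variable (W : WeierstrassCurve ℤ)

/-- the discriminant of the generic fibre -/
theorem s58d_Δ_ne_zero (hΔ : W.Δ ≠ 0) : (s58E W).Δ ≠ 0 := by
  rw [WeierstrassCurve.map_Δ, eq_intCast]
  exact_mod_cast hΔ

/-- the torsion is finite -/
theorem s58d_finite_tors (hΔ : W.Δ ≠ 0) {n : ℕ} (hn : 0 < n) : Finite (S58Tors W n) := by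
  have hcard := Fermat.Agent.LR.lre_natCard_torsionBy (s58E W) (s58d_Δ_ne_zero W hΔ) hn
  exact Nat.finite_of_card_ne_zero (by rw [hcard]; exact pow_ne_zero 2 hn.ne')

/-- the action of `G_ℚ` on `W[n]` and on `μ_n` -/
noncomputable def s58dRho (n : ℕ) [NeZero n] :
    GQ →* (Module.End (ZMod n) (S58Tors W n))ˣ × (ZMod n)ˣ :=
  ((s58Gal W n).toHomUnits).prod (twpChi n)

theorem s58dRho_fst (n : ℕ) [NeZero n] (σ : GQ) :
    (((s58dRho W n σ).1 : (Module.End (ZMod n) (S58Tors W n))ˣ) :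
      Module.End (ZMod n) (S58Tors W n)) = s58Gal W n σ := rfl

theorem s58dRho_snd (n : ℕ) [NeZero n] (σ : GQ) : (s58dRho W n σ).2 = twpChi n σ := rfl

/-- `twpChi` is trivial on the automorphisms fixing `ζ_n` -/
theorem s58d_chi_eq_one (n : ℕ) [NeZero n] {σ : GQ} (hσ : σ (zetaQbar n) = zetaQbar n) :
    twpChi n σ = 1 := by
  rcases Nat.lt_or_ge 1 n with h1 | h1
  · haveI : Fact (1 < n) := ⟨h1⟩
    exact (twpChi_eq_one_iff n σ).mpr hσ
  · have hn1 : n = 1 := le_antisymm h1 (NeZero.pos n)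
    subst hn1
    exact Subsingleton.elim _ _

/-- the action on `W[n] × μ_n` has finite level -/
theorem s58d_level (hΔ : W.Δ ≠ 0) (n : ℕ) [NeZero n] :
    GaloisFactorsThroughFiniteLevel (s58dRho W n) := by
  haveI : Finite (S58Tors W n) := s58d_finite_tors W hΔ (NeZero.pos n)
  obtain ⟨L₁, hL₁fin, -, hL₁⟩ := Fermat.Agent.LR.lre_exists_level (s58E W) n
  haveI := hL₁fin
  haveI := Fermat.Agent.Lib.Helper6.isGalois_rat_algebraicClosure
  haveI : FiniteDimensional ℚ ↥(IntermediateField.adjoin ℚ {zetaQbar n}) :=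
    (finiteDimensional_isGalois_adjoin_primitiveRoot (zetaQbar_spec n)).1
  refine ⟨L₁ ⊔ IntermediateField.adjoin ℚ {zetaQbar n}, IntermediateField.finiteDimensional_sup _ _,
    fun σ hσ => ?_⟩
  have h1 : ∀ x ∈ L₁, σ x = x := fun x hx => hσ x ((le_sup_left : L₁ ≤ _) hx)
  have h2 : σ (zetaQbar n) = zetaQbar n :=
    hσ _ ((le_sup_right : IntermediateField.adjoin ℚ {zetaQbar n} ≤ L₁ ⊔ _)
      (IntermediateField.mem_adjoin_simple_self ℚ _))
  refine Prod.ext ?_ ?_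
  · apply Units.ext
    rw [s58dRho_fst]
    refine LinearMap.ext (fun P => ?_)
    exact hL₁ σ h1 P
  · rw [s58dRho_snd]
    exact s58d_chi_eq_one n h2

/-- `w ^ a = w ^ b` for an `n`-th root of unity `w` and `a ≡ b mod n` -/
theorem s58d_pow_eq_of_cast_eq {n a b : ℕ} (h : (a : ZMod n) = (b : ZMod n)) {w : Qb}
    (hw : w ^ n = 1) : w ^ a = w ^ b := by
  have hmod : a ≡ b [MOD n] := (ZMod.natCast_eq_natCast_iff a b n).mp h
  exact pow_eq_pow_of_modEq hmod hw

/-- **the determinant of `W[lam ^ m]` is the cyclotomic character** -/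
theorem s58d_det_cyclo (hΔ : W.Δ ≠ 0) (het : S58ET W) {lam m n : ℕ} (hlam : lam.Prime)
    (hn : n = lam ^ m) (σ : GQ) (d : ℕ)
    (hd : LinearMap.det (s58Gal W n σ) = (d : ZMod n)) :
    ∀ ζ : Qb, ζ ^ n = 1 → σ ζ = ζ ^ d := by
  intro ζ hζ
  have hnpos : 0 < n := by rw [hn]; exact pow_pos hlam.pos m
  haveI : NeZero n := ⟨hnpos.ne'⟩
  obtain ⟨p, hp, hpT, A, φ, hA, hφ, hρ⟩ := s58c_exists_frob (s58dRho W n) (s58d_level W hΔ n)
    (insert lam W.Δ.natAbs.primeFactors) σ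
  rw [Finset.mem_insert, not_or] at hpT
  obtain ⟨hplam, hpΔ⟩ := hpT
  have hgood : ¬ (p : ℤ) ∣ W.Δ := by
    intro h
    apply hpΔ
    rw [Nat.mem_primeFactors]
    exact ⟨hp, Int.natCast_dvd.mp h, Int.natAbs_ne_zero.mpr hΔ⟩
  have hG : s58Gal W n φ = s58Gal W n σ := by
    rw [← s58dRho_fst, ← s58dRho_fst, hρ]
  have hχ : twpChi n φ = twpChi n σ := by
    rw [← s58dRho_snd W, ← s58dRho_snd W, hρ]
  obtain ⟨-, hdet⟩ := het p lam m n hp hgood hlam (Ne.symm hplam) hn A hA φ hφ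
  rw [hG, hd] at hdet
  have hcop : Nat.Coprime n p := by
    rw [hn]
    exact Nat.Coprime.pow_left m ((Nat.coprime_primes hlam hp).mpr (Ne.symm hplam))
  -- `σ` and `φ` agree on `μ_n`
  have hz : σ (zetaQbar n) = φ (zetaQbar n) := by
    rw [← twpChi_spec n σ, ← twpChi_spec n φ, hχ]
  obtain ⟨i, -, rfl⟩ := (zetaQbar_spec n).eq_pow_of_pow_eq_one hζ
  rw [map_pow, hz, ← map_pow, twp_frobenius_rootOfUnity hA hφ hnpos hcop hζ]
  exact (s58d_pow_eq_of_cast_eq hdet hζ).symm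

/-- a natural number representing the determinant -/
theorem s58d_exists_det {n : ℕ} (hn : 0 < n) (σ : GQ) :
    ∃ d : ℕ, d < n ∧ LinearMap.det (s58Gal W n σ) = (d : ZMod n) := by
  haveI : NeZero n := ⟨hn.ne'⟩
  exact ⟨(LinearMap.det (s58Gal W n σ)).val, ZMod.val_lt _, (ZMod.natCast_zmod_val _).symm⟩

/-- **inertia at `r ≠ lam` acts with determinant `1` on `W[lam ^ m]`** -/
theorem s58d_det_inertia (hΔ : W.Δ ≠ 0) (het : S58ET W) {lam m n : ℕ} (hlam : lam.Prime)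
    (hn : n = lam ^ m) {r : ℕ} (hr : r.Prime) (hrl : r ≠ lam) (P : ValuationSubring Qb)
    (hP : P.LiesOverPrime r) (σ : GQ) (hσ : σ ∈ P.inertiaSubgroupIn ℚ) :
    LinearMap.det (s58Gal W n σ) = 1 := by
  have hnpos : 0 < n := by rw [hn]; exact pow_pos hlam.pos m
  haveI : NeZero n := ⟨hnpos.ne'⟩
  rcases Nat.lt_or_ge 1 n with h1 | h1
  · obtain ⟨d, hdn, hd⟩ := s58d_exists_det W hnpos σ
    have hcyc := s58d_det_cyclo W hΔ het hlam hn σ d hd
    have hz := (zetaQbar_spec n).pow_eq_one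
    have hcop : Nat.Coprime n r := by
      rw [hn]
      exact Nat.Coprime.pow_left m ((Nat.coprime_primes hlam hr).mpr (Ne.symm hrl))
    have hzP : zetaQbar n ∈ P := Fermat.Agent.CFT.Bridge.mem_valuationSubring_of_pow_eq_one P hnpos hz
    have hlt := (Fermat.Agent.S05Lib.qv_mem_inertiaSubgroupIn P hσ).2 (zetaQbar n) hzP
    have hfix : σ (zetaQbar n) = zetaQbar n :=
      twp_rootOfUnity_eq_of_valuation_lt P hnpos hcop hP (by rw [← map_pow, hz, map_one]) hz hlt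
    rw [hcyc _ hz] at hfix
    have hd1 : d = 1 := (zetaQbar_spec n).pow_inj hdn h1 (by rw [hfix, pow_one])
    rw [hd, hd1, Nat.cast_one]
  · have hn1 : n = 1 := le_antisymm h1 hnpos
    subst hn1
    exact Subsingleton.elim _ _

/-- **an involution `c ≠ 1` of `ℚ̄` acts with determinant `-1` on `W[lam ^ m]`, `lam` odd** -/
theorem s58d_det_involution_pow (hΔ : W.Δ ≠ 0) (het : S58ET W) {lam m n : ℕ} (hlam : lam.Prime)
    (hlam2 : lam ≠ 2) (hn : n = lam ^ m) (c : GQ) (hc : c * c = 1) (hc1 : c ≠ 1) :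
    LinearMap.det (s58Gal W n c) = -1 := by
  have hnpos : 0 < n := by rw [hn]; exact pow_pos hlam.pos m
  haveI : NeZero n := ⟨hnpos.ne'⟩
  have hodd : Odd n := by
    rw [hn]
    exact (hlam.odd_of_ne_two hlam2).pow
  obtain ⟨d, -, hd⟩ := s58d_exists_det W hnpos c
  have hcyc := s58d_det_cyclo W hΔ het hlam hn c d hd
  have hz := (zetaQbar_spec n).pow_eq_one
  have h1 : zetaQbar n ^ d = (zetaQbar n)⁻¹ := by
    rw [← hcyc _ hz]
    exact s58d_involution_rootOfUnity c hc hc1 hodd hz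
  have hz0 : zetaQbar n ≠ 0 := (zetaQbar_spec n).ne_zero hnpos.ne'
  have h2 : zetaQbar n ^ (d + 1) = 1 := by
    rw [pow_succ, h1, inv_mul_cancel₀ hz0]
  have h3 : n ∣ d + 1 := (zetaQbar_spec n).dvd_of_pow_eq_one _ h2
  have h4 : ((d + 1 : ℕ) : ZMod n) = 0 := (ZMod.natCast_eq_zero_iff _ _).mpr h3
  rw [hd]
  push_cast at h4
  exact eq_neg_of_add_eq_zero_left h4

/-- **an involution `c ≠ 1` of `ℚ̄` acts with determinant `-1` on `W[p]`, `p` odd** -/
theorem s58d_det_involution (hΔ : W.Δ ≠ 0) (het : S58ET W) {p : ℕ} (hp : p.Prime) (hp2 : p ≠ 2)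
    (c : GQ) (hc : c * c = 1) (hc1 : c ≠ 1) : LinearMap.det (s58Gal W p c) = -1 :=
  s58d_det_involution_pow W hΔ het hp hp2 (pow_one p).symm c hc hc1

end Fermat.Agent.S58
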