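/-
S58 (helper4): **Chebotarev + adic continuity**: every `σ ∈ G_ℚ` is approximated, simultaneously for
a `λ`-adic representation modulo `𝔪^k` and for a finite-level representation, by a Frobenius
element at a prime outside any given finite set; congruent endomorphisms have congruent traces and
determinants.
-/
import Fermat.Agent.Lib.S58.Cheb
import Fermat.Prelude.Def_GaloisRep_Adic

set_option autoImplicit false
set_option linter.style.haveILetI false

namespace Fermat.Agent.S58

open Fermat.Agent.DS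

local notation "Qbar" => AlgebraicClosure ℚ
local notation "GQ" => (AlgebraicClosure ℚ ≃ₐ[ℚ] AlgebraicClosure ℚ)

/-- the restriction to a finite normal level, as a finite-level representation -/
theorem s58c_restrict_level (L : IntermediateField ℚ Qbar) [Normal ℚ L] [FiniteDimensional ℚ L] :
    GaloisFactorsThroughFiniteLevel (AlgEquiv.restrictNormalHom (F := ℚ) (K₁ := Qbar) L) := by
  refine ⟨L, inferInstance, fun σ hσ => ?_⟩
  ext x
  have h1 := AlgEquiv.restrictNormal_commutes σ ↥L x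
  have h2 : σ (algebraMap ↥L Qbar x) = algebraMap ↥L Qbar x := hσ _ x.2
  rw [h2] at h1
  exact h1

theorem s58c_eq_of_restrict_eq (L : IntermediateField ℚ Qbar) [Normal ℚ L] {σ φ : GQ}
    (h : AlgEquiv.restrictNormalHom (F := ℚ) (K₁ := Qbar) L φ =
      AlgEquiv.restrictNormalHom (F := ℚ) (K₁ := Qbar) L σ) : ∀ x ∈ L, φ x = σ x := by
  intro x hx
  have h1 := AlgEquiv.restrictNormal_commutes φ ↥L ⟨x, hx⟩
  have h2 := AlgEquiv.restrictNormal_commutes σ ↥L ⟨x, hx⟩
  have h3 : algebraMap ↥L Qbar ((φ.restrictNormal ↥L) ⟨x, hx⟩) =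
      algebraMap ↥L Qbar ((σ.restrictNormal ↥L) ⟨x, hx⟩) :=
    congrArg (fun e : ↥L ≃ₐ[ℚ] ↥L => algebraMap ↥L Qbar (e ⟨x, hx⟩)) h
  rw [h1, h2] at h3
  exact h3

/-- **Chebotarev + adic continuity** -/
theorem s58c_exists_frob_adic {O : Type} [CommRing O] [IsLocalRing O] (ρ : GaloisRepAdic O)
    {Q : Type} [Monoid Q] (τ : GQ →* Q) (hτ : GaloisFactorsThroughFiniteLevel τ) (T : Finset ℕ)
    (k : ℕ) (σ : GQ) :
    ∃ p : ℕ, p.Prime ∧ p ∉ T ∧ ∃ (A : ValuationSubring Qbar) (φ : GQ),
      A.LiesOverPrime p ∧ A.IsFrobeniusAt φ p ∧ τ φ = τ σ ∧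
      ∀ v : ρ.V, ρ.ρ σ v - ρ.ρ φ v ∈ (IsLocalRing.maximalIdeal O ^ k) • (⊤ : Submodule O ρ.V) := by
  obtain ⟨L₁, hL₁, hρ₁⟩ := ρ.isAdicContinuous k
  obtain ⟨L₂, hL₂, hτ₂⟩ := hτ
  obtain ⟨L, hLfin, hLnorm, hL₁L, hL₂L⟩ := dsf_exists_normal_level L₁ L₂ hL₁ hL₂
  haveI := hLfin
  haveI := hLnorm
  obtain ⟨p, hp, hpT, A, φ, hA, hφ, hres⟩ :=
    s58c_exists_frob (AlgEquiv.restrictNormalHom (F := ℚ) (K₁ := Qbar) L)
      (s58c_restrict_level L) T σ
  have heq := s58c_eq_of_restrict_eq L hres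
  have hfix : ∀ x ∈ L, (φ⁻¹ * σ) x = x := by
    intro x hx
    rw [AlgEquiv.mul_apply, ← heq x hx]
    exact φ.symm_apply_apply x
  refine ⟨p, hp, hpT, A, φ, hA, hφ, ?_, fun v => ?_⟩
  · have h1 : τ (φ⁻¹ * σ) = 1 := hτ₂ _ fun x hx => hfix x (hL₂L hx)
    have h2 : τ σ = τ φ * τ (φ⁻¹ * σ) := by rw [← map_mul, mul_inv_cancel_left]
    rw [h2, h1, mul_one]
  · have h1 := hρ₁ (φ⁻¹ * σ) (fun x hx => hfix x (hL₁L hx)) v
    have h2 : ρ.ρ σ v - ρ.ρ φ v = ρ.ρ φ (ρ.ρ (φ⁻¹ * σ) v - v) := by
      rw [map_sub, ← Module.End.mul_apply, ← map_mul, mul_inv_cancel_left]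
    rw [h2]
    exact Submodule.smul_top_le_comap_smul_top _ (ρ.ρ φ) h1

/-! ### Congruent endomorphisms -/

section Congr

variable {O : Type*} [CommRing O] {V : Type*} [AddCommGroup V] [Module O V]

/-- the coordinates of an element of `I • ⊤` lie in `I` -/
theorem s58c_repr_mem {ι : Type*} (b : Module.Basis ι O V) (I : Ideal O) {x : V}
    (hx : x ∈ I • (⊤ : Submodule O V)) (i : ι) : b.repr x i ∈ I := by
  refine Submodule.smul_induction_on (p := fun x => b.repr x i ∈ I) hx (fun r hr v _ => ?_)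
    (fun x y hx hy => ?_)
  · rw [map_smul, Finsupp.smul_apply, smul_eq_mul]
    exact I.mul_mem_right _ hr
  · rw [map_add, Finsupp.add_apply]
    exact I.add_mem hx hy

/-- congruent endomorphisms of a free module of rank `2` have congruent traces and determinants -/
theorem s58c_trace_det_congr [Module.Free O V] [Module.Finite O V] [Nontrivial O]
    (hV : Module.finrank O V = 2) (I : Ideal O) (f g : Module.End O V)
    (h : ∀ v : V, f v - g v ∈ I • (⊤ : Submodule O V)) :
    LinearMap.trace O V f - LinearMap.trace O V g ∈ I ∧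
      LinearMap.det f - LinearMap.det g ∈ I := by
  classical
  let b : Module.Basis (Fin 2) O V := Module.finBasisOfFinrankEq O V hV
  have hE : ∀ i j : Fin 2, LinearMap.toMatrix b b f i j - LinearMap.toMatrix b b g i j ∈ I := by
    intro i j
    rw [LinearMap.toMatrix_apply, LinearMap.toMatrix_apply, ← Finsupp.sub_apply, ← map_sub]
    exact s58c_repr_mem b I (h (b j)) i
  refine ⟨?_, ?_⟩
  · rw [LinearMap.trace_eq_matrix_trace O b f, LinearMap.trace_eq_matrix_trace O b g,
      Matrix.trace_fin_two, Matrix.trace_fin_two]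
    have := I.add_mem (hE 0 0) (hE 1 1)
    convert this using 1
    ring
  · rw [← LinearMap.det_toMatrix b f, ← LinearMap.det_toMatrix b g, Matrix.det_fin_two,
      Matrix.det_fin_two]
    set F := LinearMap.toMatrix b b f
    set G := LinearMap.toMatrix b b g
    have e : F 0 0 * F 1 1 - F 0 1 * F 1 0 - (G 0 0 * G 1 1 - G 0 1 * G 1 0) =
        (F 0 0 - G 0 0) * F 1 1 + G 0 0 * (F 1 1 - G 1 1) -
          ((F 0 1 - G 0 1) * F 1 0 + G 0 1 * (F 1 0 - G 1 0)) := by ring
    rw [e]
    exact I.sub_mem (I.add_mem (I.mul_mem_right _ (hE 0 0)) (I.mul_mem_left _ (hE 1 1)))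
      (I.add_mem (I.mul_mem_right _ (hE 0 1)) (I.mul_mem_left _ (hE 1 0)))

/-- the characteristic polynomial of an endomorphism of a free module of rank `2` -/
theorem s58c_charpoly_eq [Module.Free O V] [Module.Finite O V] [Nontrivial O]
    (hV : Module.finrank O V = 2) (f : Module.End O V) :
    LinearMap.charpoly f = Polynomial.X ^ 2 - Polynomial.C (LinearMap.trace O V f) * Polynomial.X +
      Polynomial.C (LinearMap.det f) := by
  classical
  let b : Module.Basis (Fin 2) O V := Module.finBasisOfFinrankEq O V hV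
  rw [← LinearMap.charpoly_toMatrix f b, Matrix.charpoly_fin_two,
    LinearMap.trace_eq_matrix_trace O b f, ← LinearMap.det_toMatrix b f]

/-- trace and determinant from the characteristic polynomial, rank `2` -/
theorem s58c_trace_det_of_charpoly [Module.Free O V] [Module.Finite O V] [Nontrivial O]
    (hV : Module.finrank O V = 2) (f : Module.End O V) (t d : O)
    (hf : LinearMap.charpoly f = Polynomial.X ^ 2 - Polynomial.C t * Polynomial.X +
      Polynomial.C d) : LinearMap.trace O V f = t ∧ LinearMap.det f = d := by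
  rw [s58c_charpoly_eq hV f] at hf
  constructor
  · have h2 := congrArg (fun q : Polynomial O => q.coeff 1) hf
    simpa [Polynomial.coeff_X, Polynomial.coeff_C] using h2
  · have h2 := congrArg (fun q : Polynomial O => q.coeff 0) hf
    simpa [Polynomial.coeff_X, Polynomial.coeff_C] using h2

end Congr

/-! ### The comparison theorem -/

open Polynomial in
/-- **comparison of a `λ`-adic representation with a finite-level representation of rank `2`**: if
at the Frobenius elements outside a finite set `T` of primes the two characteristic polynomials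
come from the same integer polynomial `X² - a X + d`, then for every `σ ∈ G_ℚ` and every `k` the
characteristic polynomial of `τ σ` comes from an integer polynomial `X² - a X + d` with
`tr ρ(σ) ≡ a`, `det ρ(σ) ≡ d` modulo `𝔪^k` -/
theorem s58c_compare {O : Type} [CommRing O] [IsLocalRing O] (ρ : GaloisRepAdic O)
    {R : Type} [CommRing R] [Nontrivial R] {Y : Type} [AddCommGroup Y] [Module R Y]
    [Module.Free R Y] [Module.Finite R Y]
    (τ : GQ →* Module.End R Y) (hτ : GaloisFactorsThroughFiniteLevel τ) (T : Finset ℕ)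
    (hfrob : ∀ p : ℕ, p.Prime → p ∉ T → ∀ (A : ValuationSubring Qbar) (φ : GQ),
      A.LiesOverPrime p → A.IsFrobeniusAt φ p → ∃ a d : ℤ,
        LinearMap.charpoly (ρ.ρ φ) = X ^ 2 - C (a : O) * X + C (d : O) ∧
        LinearMap.charpoly (τ φ) = X ^ 2 - C (a : R) * X + C (d : R))
    (k : ℕ) (σ : GQ) :
    ∃ a d : ℤ, LinearMap.trace O ρ.V (ρ.ρ σ) - (a : O) ∈ IsLocalRing.maximalIdeal O ^ k ∧
      LinearMap.det (ρ.ρ σ) - (d : O) ∈ IsLocalRing.maximalIdeal O ^ k ∧
      LinearMap.charpoly (τ σ) = X ^ 2 - C (a : R) * X + C (d : R) := by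
  obtain ⟨p, hp, hpT, A, φ, hA, hφ, hτφ, hρφ⟩ := s58c_exists_frob_adic ρ τ hτ T k σ
  obtain ⟨a, d, h1, h2⟩ := hfrob p hp hpT A φ hA hφ
  obtain ⟨ht, hd⟩ := s58c_trace_det_of_charpoly ρ.finrank_eq (ρ.ρ φ) _ _ h1
  obtain ⟨ht', hd'⟩ := s58c_trace_det_congr ρ.finrank_eq (IsLocalRing.maximalIdeal O ^ k)
    (ρ.ρ σ) (ρ.ρ φ) hρφ
  refine ⟨a, d, ?_, ?_, ?_⟩
  · rw [← ht]; exact ht'
  · rw [← hd]; exact hd'
  · rw [← hτφ]; exact h2

end Fermat.Agent.S58
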