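/-
S58-M (helper4): **matching of a `lam`-adic representation with the `lam`-power torsion of `W`**.

* `s58m_free`, `s58m_level` : `W[lam^m](ℚ̄)` is free of rank `2` over `ZMod (lam^m)` and the Galois
  action on it has finite level;
* `s58m_match` : a `lam`-adic representation whose Frobenius elements outside a finite set of primes
  have characteristic polynomial `X² - a_ℓ(W) X + ℓ` matches `W` (`S58Match`), given (ET);
* `s58m_trace_frob`, `s58m_det_frob` : a matching representation has `tr ρ(Frob_ℓ) = a_ℓ(W)`,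
  `det ρ(Frob_ℓ) = ℓ` at EVERY good prime `ℓ ≠ lam`.
-/
import Fermat.Agent.Lib.S58.Defs
import Fermat.Agent.Lib.S58.Compare
import Fermat.Agent.Lib.LR.E.Main
import Fermat.Agent.Lib.ET.TorsionFrame

set_option autoImplicit false
set_option linter.style.haveILetI false
set_option linter.unusedSectionVars false

namespace Fermat.Agent.S58

open WeierstrassCurve WeierstrassCurve.Affine.Point Fermat.Agent.LR Fermat.Agent.ET
open scoped WeierstrassCurve.Affine

local notation "Qb" => AlgebraicClosure ℚ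
local notation "GQ" => (AlgebraicClosure ℚ ≃ₐ[ℚ] AlgebraicClosure ℚ)

variable (W : WeierstrassCurve ℤ)

/-- the discriminant of the generic fibre -/
theorem s58m_Δ_ne_zero (hΔ : W.Δ ≠ 0) : (s58E W).Δ ≠ 0 := by
  rw [WeierstrassCurve.map_Δ]
  exact (map_ne_zero_iff _ (RingHom.injective_int (Int.castRingHom ℚ))).mpr hΔ

/-- the torsion counts of `W(ℚ̄)` -/
theorem s58m_card (hΔ : W.Δ ≠ 0) {n : ℕ} (hn : 0 < n) :
    Nat.card {P : ((s58E W)⁄Qb).Point // n • P = 0} = n ^ 2 := by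
  refine lre_natCard_torsion _ ?_ hn
  show ((s58E W).map (algebraMap ℚ Qb)).Δ ≠ 0
  rw [WeierstrassCurve.map_Δ]
  exact (map_ne_zero _).mpr (s58m_Δ_ne_zero W hΔ)

/-- **`W[lam^m]` is free of rank `2`** -/
theorem s58m_free (hΔ : W.Δ ≠ 0) {lam m n : ℕ} (hlam : lam.Prime) (hn : n = lam ^ m) :
    Module.Free (ZMod n) (S58Tors W n) ∧ Module.Finite (ZMod n) (S58Tors W n) ∧
      (m ≠ 0 → Module.finrank (ZMod n) (S58Tors W n) = 2) := by
  subst hn
  haveI : Fact lam.Prime := ⟨hlam⟩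
  have hcard : ∀ j ≤ m, Nat.card {P : ((s58E W)⁄Qb).Point // (lam ^ j) • P = 0} =
      lam ^ (2 * j) := by
    intro j _
    rw [s58m_card W hΔ (pow_pos hlam.pos j), ← pow_mul, mul_comm]
  obtain ⟨h1, h2⟩ := etf_free' (M := ((s58E W)⁄Qb).Point) lam m hcard
  exact ⟨h1, h2, fun hm => etf_finrank (M := ((s58E W)⁄Qb).Point) lam m hm hcard⟩

/-- the `n`-torsion is finite -/
theorem s58m_finite (hΔ : W.Δ ≠ 0) {n : ℕ} (hn : 0 < n) : Finite (S58Tors W n) :=
  Nat.finite_of_card_ne_zero (by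
    rw [lre_natCard_torsionBy (s58E W) (s58m_Δ_ne_zero W hΔ) hn]
    exact pow_ne_zero 2 hn.ne')

/-- **the Galois action on `W[n]` has finite level** -/
theorem s58m_level (hΔ : W.Δ ≠ 0) {n : ℕ} (hn : 0 < n) :
    GaloisFactorsThroughFiniteLevel (s58Gal W n) := by
  haveI : Finite (Fermat.Agent.S13Lib.Tors (s58E W) n) := s58m_finite W hΔ hn
  obtain ⟨L, hL, -, h⟩ := lre_exists_level (s58E W) n
  refine ⟨L, hL, fun σ hσ => LinearMap.ext fun x => ?_⟩
  rw [galoisRepModuleEnd_apply, Module.End.one_apply]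
  exact h σ hσ x

/-- a nonzero principal ideal of a discrete valuation ring is a power of the maximal ideal -/
theorem s58m_span_eq_pow {A : Type*} [CommRing A] [IsDomain A] [IsDiscreteValuationRing A]
    {a : A} (ha : a ≠ 0) : ∃ k : ℕ, Ideal.span {a} = IsLocalRing.maximalIdeal A ^ k := by
  obtain ⟨ϖ, hϖ⟩ := IsDiscreteValuationRing.exists_irreducible A
  obtain ⟨k, hk⟩ := IsDiscreteValuationRing.ideal_eq_span_pow_irreducible
    (s := Ideal.span {a}) (by simpa using ha) hϖ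
  exact ⟨k, by rw [hk, hϖ.maximalIdeal_eq, Ideal.span_singleton_pow]⟩

open Polynomial in
/-- **matching from the Frobenius characteristic polynomials** -/
theorem s58m_match (hΔ : W.Δ ≠ 0) (het : S58ET W) {lam : ℕ} (hlam : lam.Prime)
    {A : Type} [CommRing A] [IsDomain A] [IsDiscreteValuationRing A] [CharZero A]
    (ρ : GaloisRepAdic A) (T : Finset ℕ)
    (hρ : ∀ ℓ : ℕ, ℓ.Prime → ℓ ∉ T → ∀ B : ValuationSubring Qb, B.LiesOverPrime ℓ →
      ∀ σ : GQ, B.IsFrobeniusAt σ ℓ →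
        LinearMap.charpoly (ρ.ρ σ) =
          X ^ 2 - C ((W.apOfModel ℓ : ℤ) : A) * X + C ((ℓ : ℕ) : A)) :
    S58Match W lam ρ := by
  intro σ m n hn
  subst hn
  rcases Nat.eq_zero_or_pos m with rfl | hm
  · haveI : Subsingleton (ZMod (lam ^ 0)) := by
      rw [pow_zero]
      infer_instance
    refine ⟨0, 0, Subsingleton.elim _ _, Subsingleton.elim _ _, ?_, ?_⟩ <;>
    · rw [pow_zero, Nat.cast_one, Ideal.span_singleton_one]
      exact Submodule.mem_top
  obtain ⟨hfree, hfin, hrk⟩ := s58m_free W hΔ hlam (rfl : lam ^ m = lam ^ m)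
  haveI := hfree
  haveI := hfin
  have hrk := hrk hm.ne'
  haveI : Fact (1 < lam ^ m) := ⟨Nat.one_lt_pow hm.ne' hlam.one_lt⟩
  have hne : ((lam ^ m : ℕ) : A) ≠ 0 := Nat.cast_ne_zero.mpr (pow_ne_zero m hlam.ne_zero)
  obtain ⟨k, hk⟩ := s58m_span_eq_pow hne
  have hcmp := s58c_compare ρ (s58Gal W (lam ^ m)) (s58m_level W hΔ (pow_pos hlam.pos m))
    (T ∪ {lam} ∪ W.Δ.natAbs.primeFactors) (fun ℓ hℓ hℓT B φ hB hφ => by
      have hℓT1 : ℓ ∉ T := fun h => hℓT (Finset.mem_union_left _ (Finset.mem_union_left _ h))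
      have hℓlam : lam ≠ ℓ := fun h => hℓT (Finset.mem_union_left _
        (Finset.mem_union_right _ (Finset.mem_singleton.mpr h.symm)))
      have hgood : ¬ (ℓ : ℤ) ∣ W.Δ := fun hd => hℓT (Finset.mem_union_right _
        (Nat.mem_primeFactors.mpr ⟨hℓ, Int.natCast_dvd.mp hd, Int.natAbs_ne_zero.mpr hΔ⟩))
      obtain ⟨ht, hd⟩ := het ℓ lam m (lam ^ m) hℓ hgood hlam hℓlam rfl B hB φ hφ
      refine ⟨W.apOfModel ℓ, (ℓ : ℤ), ?_, ?_⟩
      · rw [hρ ℓ hℓ hℓT1 B hB φ hφ, Int.cast_natCast]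
      · rw [s58c_charpoly_eq hrk, ht, hd, Int.cast_natCast]) k σ
  obtain ⟨a, d, h1, h2, h3⟩ := hcmp
  obtain ⟨ht, hd⟩ := s58c_trace_det_of_charpoly hrk (s58Gal W (lam ^ m) σ) _ _ h3
  exact ⟨a, d, ht, hd, hk ▸ h1, hk ▸ h2⟩

/-- an element of a discrete valuation ring divisible by all powers of a non-unit is zero -/
theorem s58m_eq_zero_of_forall_mem {A : Type*} [CommRing A] [IsDomain A]
    [IsDiscreteValuationRing A] {lam : ℕ} (hlamA : (lam : A) ∈ IsLocalRing.maximalIdeal A) {x : A}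
    (hx : ∀ m : ℕ, x ∈ Ideal.span {((lam ^ m : ℕ) : A)}) : x = 0 := by
  have h1 : x ∈ ⨅ m : ℕ, IsLocalRing.maximalIdeal A ^ m := by
    rw [Ideal.mem_iInf]
    intro m
    have h2 : Ideal.span {((lam ^ m : ℕ) : A)} ≤ IsLocalRing.maximalIdeal A ^ m := by
      rw [Nat.cast_pow, ← Ideal.span_singleton_pow]
      exact Ideal.pow_right_mono ((Ideal.span_singleton_le_iff_mem _).mpr hlamA) m
    exact h2 (hx m)
  rw [Ideal.iInf_pow_eq_bot_of_isLocalRing _ Ideal.IsPrime.ne_top'] at h1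
  exact h1

/-- **a matching representation has the right trace and determinant at every good Frobenius** -/
theorem s58m_trace_det_frob (het : S58ET W) {lam : ℕ} (hlam : lam.Prime)
    {A : Type} [CommRing A] [IsDomain A] [IsDiscreteValuationRing A]
    (hlamA : (lam : A) ∈ IsLocalRing.maximalIdeal A) (ρ : GaloisRepAdic A)
    (hm : S58Match W lam ρ) {ℓ : ℕ} (hℓ : ℓ.Prime) (hgood : ¬ (ℓ : ℤ) ∣ W.Δ) (hne : lam ≠ ℓ)
    (B : ValuationSubring Qb) (hB : B.LiesOverPrime ℓ) (σ : GQ) (hσ : B.IsFrobeniusAt σ ℓ) :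
    LinearMap.trace A ρ.V (ρ.ρ σ) = ((W.apOfModel ℓ : ℤ) : A) ∧
      LinearMap.det (ρ.ρ σ) = ((ℓ : ℕ) : A) := by
  have key : ∀ m : ℕ, LinearMap.trace A ρ.V (ρ.ρ σ) - ((W.apOfModel ℓ : ℤ) : A) ∈
        Ideal.span {((lam ^ m : ℕ) : A)} ∧
      LinearMap.det (ρ.ρ σ) - ((ℓ : ℕ) : A) ∈ Ideal.span {((lam ^ m : ℕ) : A)} := by
    intro m
    obtain ⟨t, d, ht, hd, h1, h2⟩ := hm σ m (lam ^ m) rfl
    obtain ⟨ht', hd'⟩ := het ℓ lam m (lam ^ m) hℓ hgood hlam hne rfl B hB σ hσ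
    rw [ht] at ht'
    rw [hd, ← Int.cast_natCast (R := ZMod (lam ^ m)) ℓ] at hd'
    obtain ⟨c, hc⟩ := (ZMod.intCast_eq_intCast_iff_dvd_sub _ _ _).mp ht'
    obtain ⟨e, he⟩ := (ZMod.intCast_eq_intCast_iff_dvd_sub _ _ _).mp hd'
    constructor
    · have e1 : LinearMap.trace A ρ.V (ρ.ρ σ) - ((W.apOfModel ℓ : ℤ) : A) =
          (LinearMap.trace A ρ.V (ρ.ρ σ) - (t : A)) - ((lam ^ m : ℕ) : A) * (c : A) := by
        have := congrArg (fun z : ℤ => (z : A)) hc
        push_cast at this ⊢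
        linear_combination -this
      rw [e1]
      exact Ideal.sub_mem _ h1 (Ideal.mul_mem_right _ _ (Ideal.mem_span_singleton_self _))
    · have e1 : LinearMap.det (ρ.ρ σ) - ((ℓ : ℕ) : A) =
          (LinearMap.det (ρ.ρ σ) - (d : A)) - ((lam ^ m : ℕ) : A) * (e : A) := by
        have := congrArg (fun z : ℤ => (z : A)) he
        push_cast at this ⊢
        linear_combination -this
      rw [e1]
      exact Ideal.sub_mem _ h2 (Ideal.mul_mem_right _ _ (Ideal.mem_span_singleton_self _))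
  exact ⟨sub_eq_zero.mp (s58m_eq_zero_of_forall_mem hlamA fun m => (key m).1),
    sub_eq_zero.mp (s58m_eq_zero_of_forall_mem hlamA fun m => (key m).2)⟩

/-- `tr ρ(Frob_ℓ) = a_ℓ(W)` for a matching representation, at every good `ℓ ≠ lam` -/
theorem s58m_trace_frob (het : S58ET W) {lam : ℕ} (hlam : lam.Prime)
    {A : Type} [CommRing A] [IsDomain A] [IsDiscreteValuationRing A]
    (hlamA : (lam : A) ∈ IsLocalRing.maximalIdeal A) (ρ : GaloisRepAdic A)
    (hm : S58Match W lam ρ) {ℓ : ℕ} (hℓ : ℓ.Prime) (hgood : ¬ (ℓ : ℤ) ∣ W.Δ) (hne : lam ≠ ℓ)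
    (B : ValuationSubring Qb) (hB : B.LiesOverPrime ℓ) (σ : GQ) (hσ : B.IsFrobeniusAt σ ℓ) :
    LinearMap.trace A ρ.V (ρ.ρ σ) = ((W.apOfModel ℓ : ℤ) : A) :=
  (s58m_trace_det_frob W het hlam hlamA ρ hm hℓ hgood hne B hB σ hσ).1

end Fermat.Agent.S58
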