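/-
S58 (helper4): **wiring of (ET)** — from a Frobenius-compatible injective reduction map on the
`lam ^ m`-torsion to the statement `S58ET W`.
-/
import Mathlib
import Fermat.Agent.Lib.S58.Defs
import Fermat.Agent.Lib.S58.Match
import Fermat.Agent.Lib.ET.CharL
import Fermat.Agent.Lib.ET.ReductionQ
import Fermat.Agent.Lib.T1.Inst.ResAlgClosed
import Fermat.Agent.Lib.ET.TorsionCharpoly
import Fermat.Agent.Lib.LR.E.Count

set_option autoImplicit false
set_option linter.style.haveILetI false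

namespace Fermat.Agent.S58

open WeierstrassCurve WeierstrassCurve.Affine.Point Fermat.Agent.ET
open scoped WeierstrassCurve.Affine

local notation "Qb" => AlgebraicClosure ℚ
local notation "GQ" => (AlgebraicClosure ℚ ≃ₐ[ℚ] AlgebraicClosure ℚ)

/-- good reduction: the reduced curve is elliptic -/
theorem s58e_isElliptic (W : WeierstrassCurve ℤ) {ℓ : ℕ} [Fact ℓ.Prime] (hΔ : ¬ (ℓ : ℤ) ∣ W.Δ) :
    (W.reductionMod ℓ).IsElliptic := by
  refine ⟨?_⟩
  rw [reductionMod, WeierstrassCurve.map_Δ]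
  refine isUnit_iff_ne_zero.mpr ?_
  rw [eq_intCast, Ne, ZMod.intCast_zmod_eq_zero_iff_dvd]
  exact hΔ

/-- **the core of the wiring**: an injective additive map from `W[lam ^ m]` to the points of the
reduction over an algebraically closed field, intertwining `σ` with the Frobenius endomorphism,
forces trace `a_ℓ` and determinant `ℓ`. -/
theorem s58e_core (W : WeierstrassCurve ℤ) (hΔ : W.Δ ≠ 0) {ℓ lam m : ℕ} [Fact ℓ.Prime]
    (hΔℓ : ¬ (ℓ : ℤ) ∣ W.Δ) (hlam : lam.Prime) (hne : lam ≠ ℓ)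
    (κ : Type*) [Field κ] [IsAlgClosed κ] [Algebra (ZMod ℓ) κ] [DecidableEq κ] (σ : GQ)
    (ι : S58Tors W (lam ^ m) →+ ((W.reductionMod ℓ)⁄κ).Point) (hι : Function.Injective ι)
    (hfrob : ∀ P : S58Tors W (lam ^ m), ι (σ • P) = etFrob κ (W.reductionMod ℓ) (ι P)) :
    LinearMap.trace (ZMod (lam ^ m)) (S58Tors W (lam ^ m)) (s58Gal W (lam ^ m) σ) =
        ((W.apOfModel ℓ : ℤ) : ZMod (lam ^ m)) ∧
      LinearMap.det (s58Gal W (lam ^ m) σ) = ((ℓ : ℕ) : ZMod (lam ^ m)) := by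
  have : Fact lam.Prime := ⟨hlam⟩
  have := s58e_isElliptic W hΔℓ
  have hℓ : ℓ.Prime := Fact.out
  have hcard : ∀ j : ℕ, Nat.card {P : ((W.reductionMod ℓ)⁄κ).Point // (lam ^ j) • P = 0} =
      lam ^ (2 * j) := by
    intro j
    rw [ete_card_torsion (W.reductionMod ℓ) κ (lam ^ j)
      (fun h => hne.symm ((Nat.prime_dvd_prime_iff_eq hℓ hlam).mp (hℓ.dvd_of_dvd_pow h))),
      ← pow_mul, mul_comm]
  have hrange : ∀ x : ((W.reductionMod ℓ)⁄κ).Point, (lam ^ m) • x = 0 → ∃ t, ι t = x := by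
    refine etf_range_of_card (pow_ne_zero _ hlam.ne_zero) ?_ ι hι ?_ ?_
    · rw [hcard m, pow_mul, pow_right_comm]
    · intro t
      have := t.2
      rw [Submodule.mem_torsionBy_iff, natCast_zsmul] at this
      exact Subtype.ext this
    · exact Fermat.Agent.LR.lre_natCard_torsionBy (s58E W) (s58m_Δ_ne_zero W hΔ)
        (pow_pos hlam.pos m)
  have hf : ∀ t, ι (s58Gal W (lam ^ m) σ t) = etFrob κ (W.reductionMod ℓ) (ι t) := by
    intro t
    rw [galoisRepModuleEnd_apply]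
    exact hfrob t
  constructor
  · exact etf_trace_gen lam hℓ hne.symm (etFrob κ (W.reductionMod ℓ)) (W.apOfModel ℓ)
      (ete_rel (W.reductionMod ℓ) κ) (ete_card_ker (W.reductionMod ℓ) κ) hcard m ι hι hrange _ hf
  · exact etf_det_gen lam hℓ hne.symm (etFrob κ (W.reductionMod ℓ)) (W.apOfModel ℓ)
      (ete_rel (W.reductionMod ℓ) κ) (ete_card_ker (W.reductionMod ℓ) κ) hcard m ι hι hrange _ hf

/-- **(ET)** for every integral Weierstrass model with nonzero discriminant. -/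
theorem s58_et (W : WeierstrassCurve ℤ) (hΔ : W.Δ ≠ 0) : S58ET W := by
  intro ℓ lam m n hℓ hΔℓ hlam hne hn A hA σ hσ
  subst hn
  classical
  haveI : Fact ℓ.Prime := ⟨hℓ⟩
  haveI : CharP (IsLocalRing.ResidueField ↥A) ℓ := etg_charP A hA
  letI : Algebra (ZMod ℓ) (IsLocalRing.ResidueField ↥A) := ZMod.algebra _ ℓ
  haveI : IsAlgClosed (IsLocalRing.ResidueField ↥A) :=
    Fermat.Agent.T1.tb_isAlgClosed_residueField A
  have hcop : (lam ^ m).Coprime ℓ :=
    Nat.Coprime.pow_left m ((Nat.coprime_primes hlam hℓ).mpr hne)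
  exact s58e_core W hΔ hΔℓ hlam hne (IsLocalRing.ResidueField ↥A) σ
    (etgRedQ W A hΔℓ hA hcop) (etgRedQ_injective W A hΔℓ hA hcop)
    (etgRedQ_frob W A hΔℓ hA hcop σ hσ)

end Fermat.Agent.S58
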