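/-
S58-R (helper5): **the hypothesis `hres` of S36 for a `p`-adic representation matching `W`**.

* `s58r_exists_eigenbasis` : an involution of determinant `-1` of a plane (char `≠ 2`) has an
  eigenbasis `(e₊, e₋)`.
* `s58r_irreducible_of_trace_det` (abstract): a plane `U / K` with an action of a group `Γ` whose
  traces and determinants are those of an irreducible plane `T / F` (`F ⊆ K`), where an involution
  `c ∈ Γ` has determinant `-1` on `T`, is irreducible.  [A stable line `K v` gives characters `χ`,
  `δ = det / χ` with `tr = χ + δ` (Cayley–Hamilton); in the eigenbasis of `c` on `T` the entry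
  `a(σ) = (tr σ + tr σc)/2` equals `χ(σ)` or `δ(σ)`, hence is multiplicative, so `b(σ) c(τ) = 0`
  for all `σ, τ` and one of the two eigenlines of `c` is `Γ`-stable.]
* `s58r_charP`, `s58r_residual_trace_det` : `S58Match W p ρ` at level `p` gives the traces and
  determinants of `ρ.residual`.
* **`s58r_hres_of_inv`** : `ρ.residual.IsAbsolutelyIrreducible ∧ ρ.residual.IsOdd`, with the two
  facts on involutions of `G_ℚ` (package D) as hypotheses.
-/
import Mathlib
import Fermat.Agent.Lib.S58.Defs
import Fermat.Agent.Lib.S58.Compare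
import Fermat.Agent.Lib.LR.E.Group
import Fermat.Agent.Lib.LR.E.Count

set_option autoImplicit false
set_option linter.unusedSectionVars false
set_option linter.unusedVariables false
set_option linter.style.haveILetI false

open Module

namespace Fermat.Agent.S58

/-! ### Abstract linear algebra -/

section Abs

variable {F T : Type*} [Field F] [AddCommGroup T] [Module F T]

/-- an involution of determinant `-1` of a plane (characteristic `≠ 2`) has an eigenbasis -/
theorem s58r_exists_eigenbasis (hT : finrank F T = 2) (h2 : (2 : F) ≠ 0) (f : Module.End F T)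
    (hf : f * f = 1) (hdet : LinearMap.det f = -1) :
    ∃ b : Basis (Fin 2) F T, f (b 0) = b 0 ∧ f (b 1) = - b 1 := by
  haveI : Module.Finite F T := Module.finite_of_finrank_eq_succ hT
  have hff : ∀ x, f (f x) = x := fun x => by
    have := congrArg (fun g : Module.End F T => g x) hf
    simpa using this
  have h11 : (1 : F) ≠ -1 := by
    intro h
    apply h2
    have : (2 : F) = 1 + 1 := by norm_num
    rw [this]
    nth_rewrite 2 [h]
    ring
  -- a `-1`-eigenvector
  have hm : ∃ x, f x ≠ x := by
    by_contra hcon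
    push Not at hcon
    have : f = 1 := LinearMap.ext hcon
    rw [this, map_one] at hdet
    exact h11 hdet
  -- a `+1`-eigenvector
  have hp : ∃ y, f y ≠ -y := by
    by_contra hcon
    push Not at hcon
    have : f = (-1 : F) • (1 : Module.End F T) := by
      refine LinearMap.ext fun x => ?_
      rw [hcon x]
      simp
    rw [this, LinearMap.det_smul, map_one, hT] at hdet
    apply h11
    rw [← hdet]
    ring
  obtain ⟨x, hx⟩ := hm
  obtain ⟨y, hy⟩ := hp
  set em := x - f x with hem
  set ep := y + f y with hep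
  have hem0 : em ≠ 0 := fun h => hx (sub_eq_zero.mp h).symm
  have hep0 : ep ≠ 0 := fun h => hy (by
    rw [hep, add_comm] at h
    exact eq_neg_of_add_eq_zero_left h)
  have hfm : f em = - em := by rw [hem, map_sub, hff]; abel
  have hfp : f ep = ep := by rw [hep, map_add, hff]; abel
  have hind : ∀ c : F, em ≠ c • ep := by
    intro c h
    have h1 : f em = c • ep := by rw [h, map_smul, hfp]
    rw [hfm, ← h] at h1
    have h3 : (2 : F) • em = 0 := by
      rw [two_smul]
      nth_rewrite 1 [← h1]
      exact neg_add_cancel em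
    rcases smul_eq_zero.mp h3 with h4 | h4
    · exact h2 h4
    · exact hem0 h4
  refine ⟨Fermat.Agent.LR.lreBasis hT hep0 hind, ?_, ?_⟩
  · rw [Fermat.Agent.LR.lreBasis_zero]; exact hfp
  · rw [Fermat.Agent.LR.lreBasis_one]; exact hfm

end Abs

section Irr

variable {Γ : Type*} [Group Γ] {F K : Type*} [Field F] [Field K] (φ : F →+* K)
  {T : Type*} [AddCommGroup T] [Module F T] {U : Type*} [AddCommGroup U] [Module K U]

/-- **irreducibility from traces and determinants**: a plane `U` over `K` with an action of `Γ`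
whose traces and determinants are those of an irreducible plane `T` over a subfield `F`, where some
involution of `Γ` has determinant `-1` on `T` (characteristic `≠ 2`), is irreducible -/
theorem s58r_irreducible_of_trace_det (hT : finrank F T = 2) (hU : finrank K U = 2)
    (r : Γ →* Module.End F T) (s : Γ →* Module.End K U)
    (htr : ∀ σ, LinearMap.trace K U (s σ) = φ (LinearMap.trace F T (r σ)))
    (hdet : ∀ σ, LinearMap.det (s σ) = φ (LinearMap.det (r σ)))
    (h2 : (2 : F) ≠ 0) (c : Γ) (hc : c * c = 1) (hdc : LinearMap.det (r c) = -1)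
    (hirr : ∀ N : Submodule F T, (∀ σ, ∀ x ∈ N, r σ x ∈ N) → N = ⊥ ∨ N = ⊤)
    (N : Submodule K U) (hN : ∀ σ, ∀ x ∈ N, s σ x ∈ N) : N = ⊥ ∨ N = ⊤ := by
  classical
  haveI : Module.Finite F T := Module.finite_of_finrank_eq_succ hT
  haveI : Module.Finite K U := Module.finite_of_finrank_eq_succ hU
  by_contra hcon
  push Not at hcon
  obtain ⟨hbot, htop⟩ := hcon
  -- `N` is a line
  have h1 : finrank K N = 1 := by
    have hle : finrank K N ≤ 2 := hU ▸ Submodule.finrank_le N
    have hne2 : finrank K N ≠ 2 := fun h =>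
      htop (Submodule.eq_top_of_finrank_eq (h.trans hU.symm))
    have hne0 : finrank K N ≠ 0 := fun h => hbot (Submodule.finrank_eq_zero.mp h)
    omega
  obtain ⟨v, hv0, hv⟩ := finrank_eq_one_iff'.mp h1
  have hv0' : (v : U) ≠ 0 := fun h => hv0 (Subtype.ext h)
  have hex : ∀ σ, ∃ x : K, x • (v : U) = s σ v := by
    intro σ
    obtain ⟨x, hx⟩ := hv ⟨s σ v, hN σ v v.2⟩
    exact ⟨x, congrArg Subtype.val hx⟩
  choose χ hχ using hex
  have hinj : ∀ {x y : K}, x • (v : U) = y • (v : U) → x = y := by
    intro x y h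
    have h0 : (x - y) • (v : U) = 0 := by rw [sub_smul, h, sub_self]
    rcases smul_eq_zero.mp h0 with h | h
    · exact sub_eq_zero.mp h
    · exact absurd h hv0'
  have hχ1 : χ 1 = 1 := by
    apply hinj
    rw [hχ, map_one, one_smul, Module.End.one_apply]
  have hχmul : ∀ σ τ, χ (σ * τ) = χ σ * χ τ := by
    intro σ τ
    apply hinj
    rw [hχ, map_mul, Module.End.mul_apply, ← hχ τ, map_smul, ← hχ σ, smul_smul, mul_comm]
  -- Cayley–Hamilton
  have hCH : ∀ σ, χ σ * χ σ - φ (LinearMap.trace F T (r σ)) * χ σ +
      φ (LinearMap.det (r σ)) = 0 := by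
    intro σ
    have h := LinearMap.aeval_self_charpoly (s σ)
    rw [s58c_charpoly_eq hU (s σ), htr, hdet] at h
    have h' := congrArg (fun g : Module.End K U => g (v : U)) h
    simp only [map_add, map_sub, map_mul, Polynomial.aeval_X, Polynomial.aeval_C,
      LinearMap.add_apply, LinearMap.sub_apply, LinearMap.zero_apply, Module.End.mul_apply,
      Module.algebraMap_end_apply, pow_two] at h'
    rw [← hχ σ, map_smul, ← hχ σ] at h'
    apply hinj
    rw [zero_smul, ← h', add_smul, sub_smul, mul_smul, mul_smul]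
  have hχ0 : ∀ σ, χ σ ≠ 0 := fun σ h => by
    have := hχmul σ σ⁻¹
    rw [mul_inv_cancel, hχ1, h, zero_mul] at this
    exact one_ne_zero this
  -- the second eigenvalue
  set δ : Γ → K := fun σ => φ (LinearMap.trace F T (r σ)) - χ σ with hδ
  have hχδ : ∀ σ, χ σ * δ σ = φ (LinearMap.det (r σ)) := by
    intro σ
    have := hCH σ
    simp only [hδ]
    linear_combination -this
  have hδmul : ∀ σ τ, δ (σ * τ) = δ σ * δ τ := by
    intro σ τ
    have h1 := hχδ (σ * τ)
    rw [map_mul, map_mul, map_mul, hχmul, ← hχδ σ, ← hχδ τ] at h1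
    apply mul_left_cancel₀ (mul_ne_zero (hχ0 σ) (hχ0 τ))
    rw [h1]
    ring
  -- the involution
  have hχc : χ c * χ c = 1 := by rw [← hχmul, hc, hχ1]
  have hδc : δ c = - χ c := by
    have h1 := hχδ c
    rw [hdc, map_neg, map_one] at h1
    have h3 : χ c * (δ c + χ c) = 0 := by rw [mul_add, h1, hχc]; ring
    rcases mul_eq_zero.mp h3 with h | h
    · exact absurd h (hχ0 c)
    · exact eq_neg_of_add_eq_zero_left h
  have hχc' : χ c = 1 ∨ χ c = -1 := by
    have h3 : (χ c - 1) * (χ c + 1) = 0 := by linear_combination hχc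
    rcases mul_eq_zero.mp h3 with h | h
    · exact Or.inl (sub_eq_zero.mp h)
    · exact Or.inr (eq_neg_of_add_eq_zero_left h)
  -- the eigenbasis of the involution on `T` and the matrices
  obtain ⟨b, hb0, hb1⟩ := s58r_exists_eigenbasis hT h2 (r c)
    (by rw [← map_mul, hc, map_one]) hdc
  set M : Γ → Matrix (Fin 2) (Fin 2) F := fun σ => LinearMap.toMatrix b b (r σ) with hM
  have hMmul : ∀ σ τ, M (σ * τ) = M σ * M τ := fun σ τ => by
    simp only [hM]
    rw [map_mul, LinearMap.toMatrix_mul]
  have hMc : M c = !![1, 0; 0, -1] := by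
    ext i j
    fin_cases i <;> fin_cases j <;> simp [hM, LinearMap.toMatrix_apply, hb0, hb1]
  have htrM : ∀ σ, LinearMap.trace F T (r σ) = M σ 0 0 + M σ 1 1 := fun σ => by
    rw [LinearMap.trace_eq_matrix_trace F b, Matrix.trace_fin_two]
  have htrMc : ∀ σ, LinearMap.trace F T (r (σ * c)) = M σ 0 0 - M σ 1 1 := fun σ => by
    rw [htrM, hMmul, hMc]
    simp [Matrix.mul_apply, Fin.sum_univ_two]
    ring
  have h2K : (2 : K) ≠ 0 := by
    have : (2 : K) = φ 2 := by rw [map_ofNat]
    rw [this]
    exact (map_ne_zero φ).mpr h2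
  have ha : ∀ σ, (2 : K) * φ (M σ 0 0) = χ σ * (1 + χ c) + δ σ * (1 - χ c) := by
    intro σ
    have e1 : φ (LinearMap.trace F T (r σ)) = χ σ + δ σ := by simp only [hδ]; ring
    have e2 : φ (LinearMap.trace F T (r (σ * c))) = χ σ * χ c + δ σ * δ c := by
      rw [← hχmul, ← hδmul]
      simp only [hδ]
      ring
    rw [htrM, map_add] at e1
    rw [htrMc, map_sub, hδc] at e2
    linear_combination e1 + e2
  have hamul : ∀ σ τ, M (σ * τ) 0 0 = M σ 0 0 * M τ 0 0 := by
    intro σ τ
    apply φ.injective
    rw [map_mul]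
    rcases hχc' with h | h
    · have e : ∀ σ, φ (M σ 0 0) = χ σ := fun σ => by
        have := ha σ
        rw [h] at this
        apply mul_left_cancel₀ h2K
        rw [this]
        ring
      rw [e, e, e, hχmul]
    · have e : ∀ σ, φ (M σ 0 0) = δ σ := fun σ => by
        have := ha σ
        rw [h] at this
        apply mul_left_cancel₀ h2K
        rw [this]
        ring
      rw [e, e, e, hδmul]
  have hbc : ∀ σ τ, M σ 0 1 * M τ 1 0 = 0 := by
    intro σ τ
    have h := hamul σ τ
    rw [hMmul, Matrix.mul_apply, Fin.sum_univ_two] at h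
    linear_combination h
  have hrb : ∀ σ (j : Fin 2), r σ (b j) = M σ 0 j • b 0 + M σ 1 j • b 1 := by
    intro σ j
    have := b.sum_repr (r σ (b j))
    rw [Fin.sum_univ_two] at this
    rw [← this]
    simp [hM, LinearMap.toMatrix_apply]
  -- a stable line of `T`
  have hfin2 : ∀ i j : Fin 2, i ≠ j → ∀ k : Fin 2, k ≠ i → k = j := by decide
  have hrb' : ∀ σ (i : Fin 2), r σ (b i) = ∑ k, M σ k i • b k := by
    intro σ i
    rw [hrb σ i, Fin.sum_univ_two]
  have hline : ∀ i j : Fin 2, i ≠ j → (∀ σ, M σ j i = 0) → False := by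
    intro i j hij h0
    have hst : ∀ σ, ∀ x ∈ Submodule.span F {b i}, r σ x ∈ Submodule.span F {b i} := by
      intro σ x hx
      obtain ⟨a, rfl⟩ := Submodule.mem_span_singleton.mp hx
      rw [map_smul]
      refine Submodule.smul_mem _ _ ?_
      rw [hrb' σ i, Finset.sum_eq_single i]
      · exact Submodule.smul_mem _ _ (Submodule.mem_span_singleton_self _)
      · intro k _ hk
        rw [hfin2 i j hij k hk, h0 σ, zero_smul]
      · intro h
        exact absurd (Finset.mem_univ i) h
    rcases hirr _ hst with h | h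
    · exact b.ne_zero i (Submodule.span_singleton_eq_bot.mp h)
    · have hj : b j ∈ Submodule.span F {b i} := h ▸ Submodule.mem_top
      obtain ⟨a, ha⟩ := Submodule.mem_span_singleton.mp hj
      have h1 := congrArg (fun x => b.repr x j) ha
      simp [hij] at h1
  by_cases h : ∃ σ₀, M σ₀ 0 1 ≠ 0
  · obtain ⟨σ₀, hσ₀⟩ := h
    refine hline 0 1 (by decide) (fun τ => ?_)
    rcases mul_eq_zero.mp (hbc σ₀ τ) with h | h
    · exact absurd h hσ₀
    · exact h
  · push Not at h
    exact hline 1 0 (by decide) h

end Irr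

/-! ### The residual representation of a `p`-adic representation matching `W` -/

section Res

open WeierstrassCurve WeierstrassCurve.Affine.Point IsLocalRing
open scoped TensorProduct

local notation "Qb" => AlgebraicClosure ℚ
local notation "GQ" => (AlgebraicClosure ℚ ≃ₐ[ℚ] AlgebraicClosure ℚ)

variable (W : WeierstrassCurve ℤ) {p : ℕ} [hp : Fact p.Prime] {A : Type} [CommRing A]
  [IsLocalRing A] (hpA : (p : A) ∈ maximalIdeal A) (ρ : GaloisRepAdic A)

include hpA in
/-- the residue field has characteristic `p` -/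
theorem s58r_charP : CharP (ResidueField A) p := by
  refine (CharP.charP_iff_prime_eq_zero hp.out).mpr ?_
  have h := (residue_eq_zero_iff (p : A)).mpr hpA
  rwa [map_natCast] at h

include hpA in
/-- **the residual traces and determinants** of a representation matching `W` are those of `W[p]` -/
theorem s58r_residual_trace_det (hm : S58Match W p ρ) (σ : GQ) :
    haveI := s58r_charP hpA
    LinearMap.trace (ResidueField A) ρ.residual.V (ρ.residual.ρ σ) =
      ZMod.castHom (dvd_refl p) (ResidueField A)
        (LinearMap.trace (ZMod p) (S58Tors W p) (s58Gal W p σ)) ∧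
    LinearMap.det (ρ.residual.ρ σ) =
      ZMod.castHom (dvd_refl p) (ResidueField A) (LinearMap.det (s58Gal W p σ)) := by
  haveI := s58r_charP hpA
  obtain ⟨t, d, ht, hd, htA, hdA⟩ := hm σ 1 p (pow_one p).symm
  have hker : ∀ x : A, x ∈ Ideal.span {((p : ℕ) : A)} → residue A x = 0 := by
    intro x hx
    rw [residue_eq_zero_iff]
    exact (Ideal.span_singleton_le_iff_mem (I := maximalIdeal A)).mpr hpA hx
  have e1 : residue A (LinearMap.trace A ρ.V (ρ.ρ σ)) = ((t : ℤ) : ResidueField A) := by
    have := hker _ htA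
    rw [map_sub, map_intCast, sub_eq_zero] at this
    exact this
  have e2 : residue A (LinearMap.det (ρ.ρ σ)) = ((d : ℤ) : ResidueField A) := by
    have := hker _ hdA
    rw [map_sub, map_intCast, sub_eq_zero] at this
    exact this
  refine ⟨?_, ?_⟩
  · rw [ht, map_intCast, ← e1]
    exact LinearMap.trace_baseChange (ρ.ρ σ) (ResidueField A)
  · rw [hd, map_intCast, ← e2]
    exact LinearMap.det_baseChange (ρ.ρ σ)

include hpA in
/-- **the hypothesis `hres` of S36** for a `p`-adic representation matching `W`, `W[p]` irreducible,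
`p` odd — with the two facts on involutions of `G_ℚ` as hypotheses -/
theorem s58r_hres_of_inv (hΔ : W.Δ ≠ 0) (hp2 : p ≠ 2) (hirr : W.ModRepIsIrreducible p)
    (hm : S58Match W p ρ) (hinv : ∃ c : GQ, c * c = 1 ∧ c ≠ 1)
    (hdetinv : ∀ c : GQ, c * c = 1 → c ≠ 1 → LinearMap.det (s58Gal W p c) = -1) :
    ρ.residual.IsAbsolutelyIrreducible ∧ ρ.residual.IsOdd := by
  haveI := s58r_charP hpA
  refine ⟨?_, ?_⟩
  · obtain ⟨c, hc, hc1⟩ := hinv
    intro N hN
    haveI : CharP (AlgebraicClosure (ResidueField A)) p :=
      charP_of_injective_algebraMap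
        (algebraMap (ResidueField A) (AlgebraicClosure (ResidueField A))).injective p
    have hΔ' : (s58E W).Δ ≠ 0 := by
      rw [WeierstrassCurve.map_Δ]
      exact (map_ne_zero_iff _ (RingHom.injective_int (Int.castRingHom ℚ))).mpr hΔ
    have h2 : (2 : ZMod p) ≠ 0 := by
      have e : (2 : ZMod p) = ((2 : ℕ) : ZMod p) := by norm_num
      rw [e, Ne, ZMod.natCast_eq_zero_iff]
      intro hdvd
      exact hp2 ((Nat.prime_dvd_prime_iff_eq hp.out Nat.prime_two).mp hdvd)
    refine s58r_irreducible_of_trace_det
      ((algebraMap (ResidueField A) (AlgebraicClosure (ResidueField A))).comp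
        (ZMod.castHom (dvd_refl p) (ResidueField A)))
      (T := S58Tors W p) (Fermat.Agent.LR.lre_finrank_torsionBy (s58E W) hΔ' hp.out)
      (ρ.residual.baseChange (AlgebraicClosure (ResidueField A))).finrank_eq (s58Gal W p)
      (ρ.residual.baseChange (AlgebraicClosure (ResidueField A))).ρ ?_ ?_ h2 c hc
      (hdetinv c hc hc1) ?_ N hN
    · intro σ
      rw [RingHom.comp_apply, ← (s58r_residual_trace_det W hpA ρ hm σ).1]
      exact LinearMap.trace_baseChange (ρ.residual.ρ σ) (AlgebraicClosure (ResidueField A))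
    · intro σ
      rw [RingHom.comp_apply, ← (s58r_residual_trace_det W hpA ρ hm σ).2]
      exact LinearMap.det_baseChange (ρ.residual.ρ σ)
    · intro N' hN'
      exact hirr.2 N' (fun σ x hx => hN' σ x hx)
  · intro c hc hc1
    rw [(s58r_residual_trace_det W hpA ρ hm c).2, hdetinv c hc hc1, map_neg, map_one]

end Res

end Fermat.Agent.S58
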