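/-
S58 (helper4): **involutions of an algebraically closed field invert the roots of unity of odd prime
order** (Artin–Schreier, elementary part).  Let `K` be algebraically closed, `2 ≠ 0`, and `c` an
involutive automorphism of `K`, `c ≠ 1`, with fixed field `F`.  Then `√-1 ∉ F`, the sums of squares
of elements of `F` are squares in `F`, a sum of nonzero squares of `F` is nonzero, and hence
`c ζ = ζ⁻¹` for every root of unity `ζ` of odd prime order.
-/
import Mathlib

set_option autoImplicit false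
set_option linter.style.haveILetI false

namespace Fermat.Agent.S58

section Involution

variable {K : Type*} [Field K] [IsAlgClosed K] (c : K ≃+* K)

/-- `√-1` is not fixed by a nontrivial involution -/
theorem s58o_I_not_fixed (h2 : (2 : K) ≠ 0) (hc : ∀ x, c (c x) = x) {y : K} (hy : c y ≠ y)
    {i : K} (hi : i ^ 2 = -1) : c i ≠ i := by
  intro hci
  set δ := y - c y with hδ
  have hδ0 : δ ≠ 0 := sub_ne_zero.mpr (Ne.symm hy)
  have hcδ : c δ = -δ := by
    rw [hδ, map_sub, hc]
    ring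
  obtain ⟨ε, hε⟩ := IsAlgClosed.exists_pow_nat_eq δ (n := 2) (by norm_num)
  set n := ε * c ε with hn
  have hcn : c n = n := by
    rw [hn, map_mul, hc]
    ring
  have hn2 : n ^ 2 = -(δ ^ 2) := by
    have : n ^ 2 = ε ^ 2 * c (ε ^ 2) := by
      rw [hn, map_pow]
      ring
    rw [this, hε, hcδ]
    ring
  have hδ2 : δ ^ 2 = (i * n) ^ 2 := by
    rw [mul_pow, hi, hn2]
    ring
  have hcin : c (i * n) = i * n := by rw [map_mul, hci, hcn]
  rcases sq_eq_sq_iff_eq_or_eq_neg.mp hδ2 with h | h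
  · have : c δ = δ := by rw [h, hcin]
    rw [hcδ] at this
    have h3 : (2 : K) * δ = 0 := by linear_combination -this
    exact hδ0 ((mul_eq_zero.mp h3).resolve_left h2)
  · have : c δ = δ := by rw [h, map_neg, hcin]
    rw [hcδ] at this
    have h3 : (2 : K) * δ = 0 := by linear_combination -this
    exact hδ0 ((mul_eq_zero.mp h3).resolve_left h2)

/-- a nontrivial involution maps `√-1` to its negative -/
theorem s58o_I_neg (h2 : (2 : K) ≠ 0) (hc : ∀ x, c (c x) = x) {y : K} (hy : c y ≠ y)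
    {i : K} (hi : i ^ 2 = -1) : c i = -i := by
  have h1 : (c i) ^ 2 = i ^ 2 := by rw [← map_pow, hi, map_neg, map_one]
  rcases sq_eq_sq_iff_eq_or_eq_neg.mp h1 with h | h
  · exact absurd h (s58o_I_not_fixed c h2 hc hy hi)
  · exact h

/-- no fixed element has square `-1` -/
theorem s58o_sq_ne_neg_one (h2 : (2 : K) ≠ 0) (hc : ∀ x, c (c x) = x) {y : K} (hy : c y ≠ y)
    {j : K} (hj : c j = j) : j ^ 2 ≠ -1 := fun h =>
  s58o_I_not_fixed c h2 hc hy h hj

/-- a sum of two squares of fixed elements is the square of a fixed element -/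
theorem s58o_sum_two_squares (h2 : (2 : K) ≠ 0) (hc : ∀ x, c (c x) = x) {y : K} (hy : c y ≠ y)
    {a b : K} (ha : c a = a) (hb : c b = b) : ∃ n : K, c n = n ∧ n ^ 2 = a ^ 2 + b ^ 2 := by
  obtain ⟨i, hi⟩ := IsAlgClosed.exists_pow_nat_eq (-1 : K) (n := 2) (by norm_num)
  have hci := s58o_I_neg c h2 hc hy hi
  obtain ⟨w, hw⟩ := IsAlgClosed.exists_pow_nat_eq (a + b * i) (n := 2) (by norm_num)
  refine ⟨w * c w, by rw [map_mul, hc]; ring, ?_⟩
  have : (w * c w) ^ 2 = w ^ 2 * c (w ^ 2) := by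
    rw [map_pow]
    ring
  rw [this, hw, map_add, map_mul, ha, hb, hci]
  linear_combination (-(b ^ 2)) * hi

/-- a sum of squares of fixed elements is the square of a fixed element -/
theorem s58o_sum_squares (h2 : (2 : K) ≠ 0) (hc : ∀ x, c (c x) = x) {y : K} (hy : c y ≠ y)
    {ι : Type*} (s : Finset ι) (f : ι → K) (hf : ∀ j ∈ s, c (f j) = f j) :
    ∃ n : K, c n = n ∧ n ^ 2 = ∑ j ∈ s, f j ^ 2 := by
  classical
  induction s using Finset.induction_on with
  | empty => exact ⟨0, map_zero c, by simp⟩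
  | insert a s ha ih =>
    obtain ⟨n, hn, hn2⟩ := ih fun j hj => hf j (Finset.mem_insert_of_mem hj)
    obtain ⟨m, hm, hm2⟩ := s58o_sum_two_squares c h2 hc hy (hf a (Finset.mem_insert_self a s)) hn
    exact ⟨m, hm, by rw [Finset.sum_insert ha, hm2, hn2]⟩

/-- a vanishing sum of squares of fixed elements has all terms zero -/
theorem s58o_sum_squares_eq_zero (h2 : (2 : K) ≠ 0) (hc : ∀ x, c (c x) = x) {y : K}
    (hy : c y ≠ y) {ι : Type*} (s : Finset ι) (f : ι → K) (hf : ∀ j ∈ s, c (f j) = f j)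
    (h0 : ∑ j ∈ s, f j ^ 2 = 0) : ∀ j ∈ s, f j = 0 := by
  classical
  induction s using Finset.induction_on with
  | empty => intro j hj; exact absurd hj (Finset.notMem_empty j)
  | insert a s ha ih =>
    have hfs : ∀ j ∈ s, c (f j) = f j := fun j hj => hf j (Finset.mem_insert_of_mem hj)
    obtain ⟨n, hn, hn2⟩ := s58o_sum_squares c h2 hc hy s f hfs
    rw [Finset.sum_insert ha, ← hn2] at h0
    have hfa : c (f a) = f a := hf a (Finset.mem_insert_self a s)
    have ha0 : f a = 0 := by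
      by_contra hne
      have hj : c (n / f a) = n / f a := by rw [map_div₀, hn, hfa]
      refine s58o_sq_ne_neg_one c h2 hc hy hj ?_
      rw [div_pow, div_eq_iff (pow_ne_zero 2 hne)]
      linear_combination h0
    have hs0 : ∑ j ∈ s, f j ^ 2 = 0 := by
      rw [ha0] at h0
      rw [← hn2]
      linear_combination h0
    intro j hj
    rcases Finset.mem_insert.mp hj with rfl | hj
    · exact ha0
    · exact ih hfs hs0 j hj

/-- **a nontrivial involution does not fix a root of unity of odd prime order** -/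
theorem s58o_zeta_not_fixed (h2 : (2 : K) ≠ 0) (hc : ∀ x, c (c x) = x) {y : K} (hy : c y ≠ y)
    {p : ℕ} (hp : p.Prime) (hp2 : p ≠ 2) {ζ : K} (hζ : IsPrimitiveRoot ζ p) : c ζ ≠ ζ := by
  intro hcζ
  obtain ⟨m, hm⟩ : ∃ m, p + 1 = 2 * m := by
    rcases hp.eq_two_or_odd' with h | h
    · exact absurd h hp2
    · obtain ⟨k, hk⟩ := h
      exact ⟨k + 1, by omega⟩
  have hsum : ∑ j ∈ Finset.range p, (ζ ^ (j * m)) ^ 2 = 0 := by
    have h1 : ∀ j ∈ Finset.range p, (ζ ^ (j * m)) ^ 2 = ζ ^ j := by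
      intro j _
      rw [← pow_mul, mul_assoc, mul_comm m 2, ← hm, mul_add, mul_one, pow_add, pow_mul',
        hζ.pow_eq_one, one_pow, one_mul]
    rw [Finset.sum_congr rfl h1]
    exact hζ.geom_sum_eq_zero hp.one_lt
  have h0 := s58o_sum_squares_eq_zero c h2 hc hy (Finset.range p) (fun j => ζ ^ (j * m))
    (fun j _ => by rw [map_pow, hcζ]) hsum 0 (Finset.mem_range.mpr hp.pos)
  simp at h0

/-- **a nontrivial involution inverts the roots of unity of odd prime order** -/
theorem s58o_zeta_inv (h2 : (2 : K) ≠ 0) (hc : ∀ x, c (c x) = x) {y : K} (hy : c y ≠ y)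
    {p : ℕ} (hp : p.Prime) (hp2 : p ≠ 2) {ξ : K} (hξ : ξ ^ p = 1) : c ξ = ξ⁻¹ := by
  by_cases h1 : ξ = 1
  · rw [h1, map_one, inv_one]
  haveI : NeZero p := ⟨hp.ne_zero⟩
  have hζ : IsPrimitiveRoot ξ p :=
    isPrimitiveRoot_of_mem_nthRootsFinset hp ((Polynomial.mem_nthRootsFinset hp.pos _).mpr hξ) h1
  have hcζ : (c ξ) ^ p = 1 := by rw [← map_pow, hξ, map_one]
  obtain ⟨a, hap, ha⟩ := hζ.eq_pow_of_pow_eq_one hcζ
  have h3 : ξ ^ (a * a) = ξ := by
    have : c (c ξ) = ξ := hc ξ
    rw [← ha, map_pow, ← ha, ← pow_mul] at this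
    exact this
  have ha0 : a ≠ 0 := by
    rintro rfl
    rw [pow_zero] at ha
    have : c ξ = c 1 := by rw [← ha, map_one]
    exact h1 (c.injective this)
  have ha1 : a ≠ 1 := by
    rintro rfl
    rw [pow_one] at ha
    exact s58o_zeta_not_fixed c h2 hc hy hp hp2 hζ ha.symm
  have hξ0 : ξ ≠ 0 := hζ.ne_zero hp.ne_zero
  have h4 : ξ ^ (a * a - 1) = 1 := by
    have h5 : ξ ^ (a * a - 1) * ξ = ξ := by
      rw [← pow_succ, Nat.sub_add_cancel (Nat.mul_pos (Nat.pos_of_ne_zero ha0)
        (Nat.pos_of_ne_zero ha0)), h3]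
    exact mul_right_cancel₀ hξ0 (by rw [h5, one_mul])
  have h6 : p ∣ a * a - 1 := (hζ.pow_eq_one_iff_dvd _).mp h4
  have h7 : a * a - 1 = (a - 1) * (a + 1) := by
    obtain ⟨b, rfl⟩ : ∃ b, a = b + 1 := ⟨a - 1, by omega⟩
    simp only [Nat.add_sub_cancel]
    have : (b + 1) * (b + 1) = b * (b + 1 + 1) + 1 := by ring
    rw [this, Nat.add_sub_cancel]
  rw [h7] at h6
  rcases hp.dvd_mul.mp h6 with h | h
  · exfalso
    have h8 : a - 1 = 0 := Nat.eq_zero_of_dvd_of_lt h (by omega)
    omega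
  · have h8 : a + 1 = p := by
      obtain ⟨k, hk⟩ := h
      rcases k with _ | _ | k
      · omega
      · omega
      · exfalso
        have : p * (k + 1 + 1) ≥ 2 * p := by nlinarith
        omega
    rw [← ha]
    exact eq_inv_of_mul_eq_one_left (by rw [← pow_succ, h8, hξ])

end Involution

end Fermat.Agent.S58
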