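/-
S58 (helper4): **oddness**.  A `λ`-adic representation (`λ = p` odd) whose Frobenius elements at the
primes `ℓ` outside a finite set have determinant `ℓ` has an odd residual representation:
`det ρ̄(c) = -1` for every `c ∈ G_ℚ` of order `2`.
-/
import Fermat.Agent.Lib.S58.Compare
import Fermat.Agent.Lib.S58.Conj
import Fermat.Agent.Lib.FrobDensity.Main

set_option autoImplicit false
set_option linter.style.haveILetI false

namespace Fermat.Agent.S58

open Fermat.Agent.DS

local notation "Qbar" => AlgebraicClosure ℚ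
local notation "GQ" => (AlgebraicClosure ℚ ≃ₐ[ℚ] AlgebraicClosure ℚ)

/-- a prime `p ≠ ℓ` is a unit at a valuation subring over `ℓ` -/
theorem s58o_valuation_prime_eq_one {A : ValuationSubring Qbar} {l p : ℕ} (hl : l.Prime)
    (hp : p.Prime) (hlp : l ≠ p) (hA : A.LiesOverPrime l) : A.valuation (p : Qbar) = 1 := by
  have hle : A.valuation (p : Qbar) ≤ 1 := (A.valuation_le_one_iff _).mpr (natCast_mem A p)
  refine le_antisymm hle (not_lt.mp fun hlt => ?_)
  have hl' : A.valuation (l : Qbar) < 1 := A.mem_nonunits_iff.mp hA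
  have hcop : Nat.Coprime l p := (Nat.coprime_primes hl hp).mpr hlp
  obtain ⟨a, b, hab⟩ : ∃ a b : ℤ, a * l + b * p = 1 := by
    have := Nat.Coprime.isCoprime hcop
    obtain ⟨a, b, h⟩ := this
    exact ⟨a, b, h⟩
  have h1 : (1 : Qbar) = (a : Qbar) * (l : Qbar) + (b : Qbar) * (p : Qbar) := by
    have := congrArg (fun z : ℤ => (z : Qbar)) hab
    push_cast at this
    exact this.symm
  have h2 : A.valuation (1 : Qbar) < 1 := by
    rw [h1]
    refine lt_of_le_of_lt (Valuation.map_add _ _ _) (max_lt ?_ ?_)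
    · rw [map_mul]
      calc A.valuation (a : Qbar) * A.valuation (l : Qbar) ≤ 1 * A.valuation (l : Qbar) :=
            mul_le_mul_left ((A.valuation_le_one_iff _).mpr (intCast_mem A a)) _
        _ < 1 := by rw [one_mul]; exact hl'
    · rw [map_mul]
      calc A.valuation (b : Qbar) * A.valuation (p : Qbar) ≤ 1 * A.valuation (p : Qbar) :=
            mul_le_mul_left ((A.valuation_le_one_iff _).mpr (intCast_mem A b)) _
        _ < 1 := by rw [one_mul]; exact hlt
  rw [map_one] at h2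
  exact lt_irrefl _ h2

/-- a root of unity `ξ` of prime order `p` with `ξ ≡ 1` modulo the maximal ideal of `A` forces
`p` to be a non-unit of `A` -/
theorem s58o_valuation_prime_lt_one {A : ValuationSubring Qbar} {p : ℕ} (hp : p.Prime) {ξ : Qbar}
    (hξ : IsPrimitiveRoot ξ p) (h : A.valuation (1 - ξ) < 1) : A.valuation (p : Qbar) < 1 := by
  have hξA : ξ ∈ A := by
    have h1 : ξ = 1 - (1 - ξ) := by ring
    rw [h1]
    exact A.sub_mem A.one_mem ((A.valuation_le_one_iff _).mp h.le)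
  have hpow : ∀ j : ℕ, A.valuation (1 - ξ ^ j) < 1 := by
    intro j
    obtain ⟨c, hc⟩ := sub_dvd_pow_sub_pow (1 : A) ⟨ξ, hξA⟩ j
    have hc' : 1 - ξ ^ j = (1 - ξ) * (c : Qbar) := by
      have := congrArg (fun a : A => (a : Qbar)) hc
      simpa using this
    rw [hc', map_mul]
    calc A.valuation (1 - ξ) * A.valuation (c : Qbar) ≤ A.valuation (1 - ξ) * 1 :=
          mul_le_mul_right ((A.valuation_le_one_iff _).2 c.2) _
      _ < 1 := by rw [mul_one]; exact h
  have hsum : (p : Qbar) = ∑ j ∈ Finset.range p, (1 - ξ ^ j) := by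
    rw [Finset.sum_sub_distrib, hξ.geom_sum_eq_zero hp.one_lt]
    simp
  rw [hsum]
  refine Valuation.map_sum_lt _ one_ne_zero fun j _ => hpow j

/-- **a Frobenius element at `ℓ ≠ p` inverting the `p`-th roots of unity has `ℓ ≡ -1 mod p`** -/
theorem s58o_dvd_of_frob_inv {A : ValuationSubring Qbar} {l p : ℕ} (hl : l.Prime) (hp : p.Prime)
    (hlp : l ≠ p) (hA : A.LiesOverPrime l) {φ : GQ} (hφ : A.IsFrobeniusAt φ l) {ζ : Qbar}
    (hζ : IsPrimitiveRoot ζ p) (hinv : φ ζ = ζ⁻¹) : p ∣ l + 1 := by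
  by_contra hnd
  have hζ0 : ζ ≠ 0 := hζ.ne_zero hp.ne_zero
  have hζv : A.valuation ζ = 1 := by
    have h1 : A.valuation ζ ^ p = 1 := by rw [← map_pow, hζ.pow_eq_one, map_one]
    exact (pow_eq_one_iff_of_nonneg zero_le hp.ne_zero).mp h1
  have hζA : ζ ∈ A := (A.valuation_le_one_iff _).mp hζv.le
  have h1 := Fermat.Agent.FrobDensity.valuation_frobenius_sub_pow_lt_one hφ hζA
  rw [hinv] at h1
  have h2 : A.valuation (1 - ζ ^ (l + 1)) < 1 := by
    have e : 1 - ζ ^ (l + 1) = ζ * (ζ⁻¹ - ζ ^ l) := by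
      rw [pow_succ]
      field_simp
    rw [e, map_mul, hζv, one_mul]
    exact h1
  have hξ : IsPrimitiveRoot (ζ ^ (l + 1)) p :=
    hζ.pow_of_coprime _ ((Nat.Prime.coprime_iff_not_dvd hp).mpr hnd).symm
  have h3 := s58o_valuation_prime_lt_one hp hξ h2
  rw [s58o_valuation_prime_eq_one hl hp hlp hA] at h3
  exact lt_irrefl _ h3

/-- **oddness** of the residual representation of a `p`-adic representation (`p` odd) whose
Frobenius elements outside a finite set `T` of primes have determinant `ℓ` -/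
theorem s58o_isOdd {O : Type} [CommRing O] [IsLocalRing O] {p : ℕ} (hp : p.Prime) (hp2 : p ≠ 2)
    (hpO : (p : O) ∈ IsLocalRing.maximalIdeal O) (ρ : GaloisRepAdic O) (T : Finset ℕ)
    (hdet : ∀ l : ℕ, l.Prime → l ∉ T → ∀ (A : ValuationSubring Qbar) (φ : GQ),
      A.LiesOverPrime l → A.IsFrobeniusAt φ l → LinearMap.det (ρ.ρ φ) = (l : O)) :
    ρ.residual.IsOdd := by
  intro c hc2 hc1
  haveI : NeZero p := ⟨hp.ne_zero⟩
  haveI : NeZero ((p : ℕ) : Qbar) := ⟨Nat.cast_ne_zero.mpr hp.ne_zero⟩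
  obtain ⟨ζ, hζ⟩ := HasEnoughRootsOfUnity.exists_primitiveRoot Qbar p
  -- `c` inverts `ζ`
  have hc : ∀ x, (c : Qbar ≃+* Qbar) ((c : Qbar ≃+* Qbar) x) = x := by
    intro x
    have := congrArg (fun e : GQ => e x) hc2
    simpa [AlgEquiv.mul_apply] using this
  obtain ⟨y, hy⟩ : ∃ y, (c : Qbar ≃+* Qbar) y ≠ y := by
    by_contra hall
    push Not at hall
    exact hc1 (AlgEquiv.ext fun x => hall x)
  have hcζ : c ζ = ζ⁻¹ :=
    s58o_zeta_inv (c : Qbar ≃+* Qbar) two_ne_zero hc hy hp hp2 hζ.pow_eq_one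
  -- a finite normal level containing `ζ`
  have hfin : FiniteDimensional ℚ ↥(IntermediateField.adjoin ℚ {ζ}) :=
    IntermediateField.adjoin.finiteDimensional (hζ.isIntegral hp.pos).tower_top
  obtain ⟨L, hLfin, hLnorm, hL₁L, -⟩ := dsf_exists_normal_level _ _ hfin hfin
  haveI := hLfin
  haveI := hLnorm
  have hζL : ζ ∈ L := hL₁L (IntermediateField.mem_adjoin_simple_self ℚ ζ)
  obtain ⟨l, hl, hlT, A, φ, hA, hφ, hres, hcong⟩ :=
    s58c_exists_frob_adic ρ (AlgEquiv.restrictNormalHom (F := ℚ) (K₁ := Qbar) L)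
      (s58c_restrict_level L) (insert p T) 1 c
  have hlp : l ≠ p := fun h => hlT (h ▸ Finset.mem_insert_self _ _)
  have hlT' : l ∉ T := fun h => hlT (Finset.mem_insert_of_mem h)
  have hφζ : φ ζ = ζ⁻¹ := by rw [s58c_eq_of_restrict_eq L hres ζ hζL, hcζ]
  obtain ⟨m, hm⟩ := s58o_dvd_of_frob_inv hl hp hlp hA hφ hζ hφζ
  obtain ⟨-, hd⟩ := s58c_trace_det_congr ρ.finrank_eq (IsLocalRing.maximalIdeal O ^ 1)
    (ρ.ρ c) (ρ.ρ φ) hcong
  rw [pow_one, hdet l hl hlT' A φ hA hφ] at hd
  have h1 : LinearMap.det (ρ.ρ c) + 1 ∈ IsLocalRing.maximalIdeal O := by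
    have e : LinearMap.det (ρ.ρ c) + 1 = (LinearMap.det (ρ.ρ c) - (l : O)) + (p : O) * (m : O) := by
      have : ((l + 1 : ℕ) : O) = (p : O) * (m : O) := by rw [hm]; push_cast; ring
      push_cast at this
      linear_combination this
    rw [e]
    exact Ideal.add_mem _ hd (Ideal.mul_mem_right _ _ hpO)
  have h2 : LinearMap.det (ρ.residual.ρ c) =
      IsLocalRing.residue O (LinearMap.det (ρ.ρ c)) :=
    LinearMap.det_baseChange (ρ.ρ c)
  rw [h2, eq_neg_iff_add_eq_zero, ← map_one (IsLocalRing.residue O), ← map_add]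
  exact (IsLocalRing.residue_eq_zero_iff _).mpr h1

end Fermat.Agent.S58
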