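/-
S58-F (helper8): **coefficient rings for S35/S36**.

* `s58f_exists_field` : a field of characteristic `lam` receiving `integralClosure ℤ ℂ`;
* `s58f_exists_dvr` : for a subring `R ⊆ ℂ` which is finite over `ℤ` and a prime `lam` there are a
  complete discrete valuation ring `O'` of characteristic zero with finite residue field, `lam ∈ 𝔪`,
  and a ring homomorphism `R →+* O'` (from `ter_exists_dvr`);
* `s58f_finite_range` : the range of a ring homomorphism `heckeAlgebra M k S →+* ℂ` is finite over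
  `ℤ`;
* `s58f_eq_intCast` : an integral element `α` of `R` whose image under some `R →+* O'` (`O'` of
  characteristic zero) is an integer `a` equals `a`.
-/
import Fermat.Agent.Lib.T1.Asm.Res.ExistsDVR
import Fermat.Agent.Lib.S22.HeckeFinite

set_option autoImplicit false
set_option linter.style.haveILetI false

open IsLocalRing Polynomial

namespace Fermat.Agent.S58

/-- a prime number is not a unit of `integralClosure ℤ ℂ` -/
theorem s58f_not_isUnit {lam : ℕ} (hlam : lam.Prime) :
    ¬ IsUnit ((lam : ℕ) : integralClosure ℤ ℂ) := by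
  intro hunit
  obtain ⟨w, hw⟩ := isUnit_iff_exists_inv.1 hunit
  have h1 : IsIntegral ℤ (w : ℂ) := w.2
  have h4 : ((lam : ℕ) : ℂ) ≠ 0 := by exact_mod_cast hlam.ne_zero
  have h2 : (w : ℂ) = ((lam : ℕ) : ℂ)⁻¹ := by
    have e := congrArg (algebraMap (integralClosure ℤ ℂ) ℂ) hw
    rw [map_mul, map_one, map_natCast] at e
    exact eq_inv_of_mul_eq_one_right e
  rw [h2] at h1
  have h5 : IsIntegral ℤ (algebraMap ℚ ℂ ((lam : ℚ)⁻¹)) := by
    simpa using h1
  rw [isIntegral_algebraMap_iff (algebraMap ℚ ℂ).injective] at h5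
  obtain ⟨z, hz⟩ := IsIntegrallyClosed.isIntegral_iff.1 h5
  have hz' : (z : ℚ) * lam = 1 := by
    have : algebraMap ℤ ℚ z = (z : ℚ) := rfl
    rw [← this, hz]
    exact inv_mul_cancel₀ (by exact_mod_cast hlam.ne_zero)
  have hz'' : z * (lam : ℤ) = 1 := by exact_mod_cast hz'
  have := Int.isUnit_iff.1 (IsUnit.of_mul_eq_one _ (by rwa [mul_comm] at hz''))
  have hl := hlam.two_le
  omega

/-- a field of characteristic `lam` receiving the ring of all algebraic integers -/
theorem s58f_exists_field {lam : ℕ} (hlam : lam.Prime) :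
    ∃ (k : Type) (_ : Field k) (_ : CharP k lam), Nonempty (integralClosure ℤ ℂ →+* k) := by
  have hne : Ideal.span {((lam : ℕ) : integralClosure ℤ ℂ)} ≠ ⊤ := by
    rw [Ne, Ideal.span_singleton_eq_top]
    exact s58f_not_isUnit hlam
  obtain ⟨𝔐, h𝔐, hle⟩ := Ideal.exists_le_maximal _ hne
  haveI := h𝔐
  letI : Field (integralClosure ℤ ℂ ⧸ 𝔐) := Ideal.Quotient.field 𝔐
  have h0 : ((lam : ℕ) : integralClosure ℤ ℂ ⧸ 𝔐) = 0 := by
    have : Ideal.Quotient.mk 𝔐 ((lam : ℕ) : integralClosure ℤ ℂ) = 0 :=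
      Ideal.Quotient.eq_zero_iff_mem.2 (hle (Ideal.subset_span rfl))
    simpa using this
  obtain ⟨q, hq⟩ := CharP.exists (integralClosure ℤ ℂ ⧸ 𝔐)
  haveI := hq
  have hdvd : q ∣ lam := (CharP.cast_eq_zero_iff (integralClosure ℤ ℂ ⧸ 𝔐) q lam).1 h0
  have hq1 : q ≠ 1 := CharP.char_ne_one (integralClosure ℤ ℂ ⧸ 𝔐) q
  have hql : q = lam := ((Nat.dvd_prime hlam).1 hdvd).resolve_left hq1
  subst hql
  exact ⟨integralClosure ℤ ℂ ⧸ 𝔐, inferInstance, hq, ⟨Ideal.Quotient.mk 𝔐⟩⟩

/-- **coefficient rings** -/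
theorem s58f_exists_dvr (R : Subring ℂ) [Module.Finite ℤ R] (lam : ℕ) [Fact lam.Prime] :
    ∃ (O' : Type) (_ : CommRing O') (_ : IsDomain O') (_ : IsDiscreteValuationRing O')
      (_ : IsAdicComplete (maximalIdeal O') O') (_ : Finite (ResidueField O')) (_ : CharZero O'),
      (lam : O') ∈ maximalIdeal O' ∧ Nonempty (R →+* O') := by
  have hlam : lam.Prime := Fact.out
  obtain ⟨k, hk, hchar, ⟨φ⟩⟩ := s58f_exists_field hlam
  have hint : ∀ x : R, IsIntegral ℤ ((x : ℂ)) := by
    intro x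
    have h1 : IsIntegral ℤ x := Algebra.IsIntegral.isIntegral x
    exact h1.map (R.subtype.toIntAlgHom)
  let χ₀ : R →+* integralClosure ℤ ℂ := R.subtype.codRestrict (integralClosure ℤ ℂ) hint
  obtain ⟨𝒪, i1, i2, i3, i4, i5, i6, χ, ι, h1, -⟩ := Fermat.Agent.T1.ter_exists_dvr χ₀ hlam φ
  exact ⟨𝒪, i1, i2, i3, i4, i5, i6, h1, ⟨χ⟩⟩

/-- the range of an eigencharacter is finite over `ℤ` -/
theorem s58f_finite_range {M : ℕ} [NeZero M] (k : ℤ) (S : Set ℕ)
    (chig : CuspForm.heckeAlgebra M k S →+* ℂ) : Module.Finite ℤ chig.range := by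
  haveI : Module.Finite ℤ (CuspForm.heckeAlgebra M k S) :=
    Fermat.Agent.S22Lib.moduleFinite_heckeAlgebra M k S
  exact Module.Finite.of_surjective chig.rangeRestrict.toAddMonoidHom.toIntLinearMap
    chig.rangeRestrict_surjective

/-- **an integral element with integer image is that integer** -/
theorem s58f_eq_intCast {R : Subring ℂ} {O' : Type*} [CommRing O'] [CharZero O'] (ι : R →+* O')
    (α : R) (hα : IsIntegral ℤ (α : ℂ)) (a : ℤ) (h : ι α = (a : O')) : (α : ℂ) = (a : ℂ) := by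
  set P := minpoly ℤ (α : ℂ) with hP
  have hmonic : P.Monic := minpoly.monic hα
  -- `P α = 0` inside `R`
  have h1 : Polynomial.aeval α P = 0 := by
    apply Subtype.ext
    have : ((Polynomial.aeval α P : R) : ℂ) = Polynomial.aeval (α : ℂ) P := by
      have := Polynomial.aeval_algHom_apply (R.subtype.toIntAlgHom) α P
      exact this.symm
    rw [this, hP, minpoly.aeval]
    rfl
  -- apply `ι`
  have h2 : Polynomial.aeval (a : O') P = 0 := by
    have := Polynomial.aeval_algHom_apply (ι.toIntAlgHom) α P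
    rw [h1, map_zero] at this
    rw [← h]
    exact this
  have h3 : P.eval a = 0 := by
    have h4 : Polynomial.aeval (a : O') P = ((P.eval a : ℤ) : O') := by
      have := Polynomial.aeval_algebraMap_apply O' a P
      simpa using this
    rw [h4] at h2
    exact_mod_cast h2
  -- factor out `X - a`
  obtain ⟨Q, hQ⟩ : (X - C a) ∣ P := Polynomial.dvd_iff_isRoot.2 h3
  have hQmonic : Q.Monic := (Polynomial.monic_X_sub_C a).of_mul_monic_left (hQ ▸ hmonic)
  have h5 : Polynomial.aeval (α : ℂ) P = 0 := minpoly.aeval ℤ (α : ℂ)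
  rw [hQ, map_mul] at h5
  rcases mul_eq_zero.1 h5 with h6 | h6
  · rw [map_sub, aeval_X, aeval_C, eq_intCast] at h6
    exact sub_eq_zero.1 h6
  · exfalso
    have h7 := minpoly.min ℤ (α : ℂ) hQmonic h6
    rw [← hP, hQ, Polynomial.degree_mul, Polynomial.degree_X_sub_C] at h7
    have h8 : Q.degree = (Q.natDegree : WithBot ℕ) :=
      Polynomial.degree_eq_natDegree hQmonic.ne_zero
    rw [h8] at h7
    have h9 : ((1 : ℕ) : WithBot ℕ) + (Q.natDegree : WithBot ℕ) ≤ (Q.natDegree : WithBot ℕ) := by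
      simpa using h7
    rw [← Nat.cast_add, Nat.cast_le] at h9
    omega

end Fermat.Agent.S58
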