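/-
S58-L2 (helper8): **counting the torsion of the identity component at a node**, `σ`-free.

`L : η² = x³ + a x² + b x` over a valued field `(K, v)` with `ord (4a) = 0`, `ord b = h > 0`,
`ord 2 ≥ 0`.  The node pair law of `Lib/S13/AtTwo/Node2.lean` shows that `fP = 0` cuts out a
subgroup `T₀` of the points, that two `n`-torsion points with the same value of `fP` differ (up to
sign) by an element of `T₀`, and that `fP` takes at most `(n + 1) / 2` values on the `n`-torsion
(`n` odd).  Hence `n² ≤ n · #T₀[n]`.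

* `s58l_count` : `n ≤ #{Q | n • Q = 0 ∧ fP Q = 0}` if `#L[n] = n²`, `n` odd.
-/
import Fermat.Agent.Lib.S13.AtTwo.Node2

set_option autoImplicit false
set_option linter.unusedSectionVars false
set_option linter.unusedVariables false
set_option linter.style.haveILetI false

open WeierstrassCurve WeierstrassCurve.Affine
open Fermat.Agent.S05Lib Fermat.Agent.S13Lib.AtTwo

namespace Fermat.Agent.S58

variable {K : Type*} [Field K] [DecidableEq K]

section

variable {v : QVal K} {h : ℚ} {W : WeierstrassCurve K} {a b : K}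

variable (hW : IsLeg W a b) (hc : v.Is (4 * a) 0) (hb : v.Is b h) (hh : 0 < h)
  (h2 : v.Ge (2 : K) 0) (h20 : (2 : K) ≠ 0)
include hW hc hb hh h2 h20

/-- two points with the same value of `fP` differ, up to sign, by a point of the identity
component -/
theorem s58l_sub_or_add (P Q : W.toAffine.Point) (hPQ : fP v h P = fP v h Q) :
    fP v h (P - Q) = 0 ∨ fP v h (P + Q) = 0 := by
  have pl := pairLaw_points2 hW hc hb hh h2 h20 P Q
  unfold PairLaw at pl
  rw [hPQ, sub_self, abs_zero] at pl
  rcases pl with ⟨_, p2⟩ | ⟨p1, _⟩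
  · exact Or.inl p2
  · exact Or.inr p1

/-- the index of the value of `fP` at an `n`-torsion point, `n` odd -/
theorem s58l_exists_index {n : ℕ} (hn : Odd n) (P : W.toAffine.Point) (hP : n • P = 0) :
    ∃ k : ℕ, k < (n + 1) / 2 ∧ (n : ℚ) * fP v h P = 2 * h * k := by
  obtain ⟨k, hk⟩ := nsmul_fP_mem2 hW hc hb hh h2 h20 P hP
  have h0 : 0 ≤ fP v h P := fP_nonneg hh.le P
  have h1 : fP v h P ≤ h := fP_le hh.le P
  obtain ⟨m, hm⟩ := hn
  have hnpos : (0 : ℚ) < n := by
    have : 0 < n := by omega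
    exact_mod_cast this
  have hk0 : 0 ≤ k := by
    by_contra hneg
    push Not at hneg
    have hk1 : (k : ℚ) ≤ -1 := by exact_mod_cast (by omega : k ≤ -1)
    have : (n : ℚ) * fP v h P < 0 := by rw [hk]; nlinarith
    have : 0 ≤ (n : ℚ) * fP v h P := mul_nonneg hnpos.le h0
    linarith
  have hk2 : 2 * k ≤ n := by
    by_contra hgt
    push Not at hgt
    have hk1 : (n : ℚ) + 1 ≤ 2 * k := by exact_mod_cast (by omega : (n : ℤ) + 1 ≤ 2 * k)
    have h3 : (n : ℚ) * fP v h P ≤ n * h := mul_le_mul_of_nonneg_left h1 hnpos.le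
    rw [hk] at h3
    nlinarith
  refine ⟨k.toNat, ?_, ?_⟩
  · omega
  · rw [hk]
    have : ((k.toNat : ℕ) : ℚ) = (k : ℚ) := by
      have := Int.toNat_of_nonneg hk0
      exact_mod_cast this
    rw [this]

end

section Count

variable {v : QVal K} {h : ℚ} {W : WeierstrassCurve K} {a b : K}

/-- **The count.** -/
theorem s58l_count (hW : IsLeg W a b) (hc : v.Is (4 * a) 0) (hb : v.Is b h) (hh : 0 < h)
    (h2 : v.Ge (2 : K) 0) (h20 : (2 : K) ≠ 0) {n : ℕ} (hn : Odd n)
    (hcard : Nat.card {Q : W.toAffine.Point // n • Q = 0} = n ^ 2) :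
    n ≤ Nat.card {Q : W.toAffine.Point // n • Q = 0 ∧ fP v h Q = 0} := by
  classical
  obtain ⟨m, hm⟩ := hn
  have hnpos : 0 < n := by omega
  have hfin : Finite {Q : W.toAffine.Point // n • Q = 0} :=
    Nat.finite_of_card_ne_zero (by rw [hcard]; positivity)
  letI : Fintype {Q : W.toAffine.Point // n • Q = 0} := Fintype.ofFinite _
  have hfinT : Finite {Q : W.toAffine.Point // n • Q = 0 ∧ fP v h Q = 0} :=
    Finite.of_injective (fun Q => (⟨Q.1, Q.2.1⟩ : {Q : W.toAffine.Point // n • Q = 0}))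
      (fun Q Q' e => Subtype.ext (Subtype.mk.injEq _ _ _ _ ▸ e : Q.1 = Q'.1))
  letI : Fintype {Q : W.toAffine.Point // n • Q = 0 ∧ fP v h Q = 0} := Fintype.ofFinite _
  set T : Finset {Q : W.toAffine.Point // n • Q = 0} :=
    Finset.univ.filter fun Q => fP v h Q.1 = 0 with hT
  -- `#T ≤` the cardinality in the statement
  have hTle : T.card ≤ Nat.card {Q : W.toAffine.Point // n • Q = 0 ∧ fP v h Q = 0} := by
    rw [Nat.card_eq_fintype_card, ← Finset.card_univ]
    refine Finset.card_le_card_of_injOn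
      (fun Q => if hQ : fP v h Q.1 = 0 then
        (⟨Q.1, Q.2, hQ⟩ : {Q : W.toAffine.Point // n • Q = 0 ∧ fP v h Q = 0}) else ⟨0, smul_zero n, fP_zero⟩)
      (fun Q _ => Finset.mem_coe.2 (Finset.mem_univ _)) ?_
    intro Q hQ Q' hQ' e
    have h1 : fP v h Q.1 = 0 := (Finset.mem_filter.1 (Finset.mem_coe.1 hQ)).2
    have h2 : fP v h Q'.1 = 0 := (Finset.mem_filter.1 (Finset.mem_coe.1 hQ')).2
    simp only [h1, h2, dite_true] at e
    exact Subtype.ext (Subtype.mk.injEq _ _ _ _ ▸ e : Q.1 = Q'.1)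
  refine le_trans ?_ hTle
  -- the index function
  have hex : ∀ Q : {Q : W.toAffine.Point // n • Q = 0}, ∃ k : ℕ, k < (n + 1) / 2 ∧
      (n : ℚ) * fP v h Q.1 = 2 * h * k := fun Q =>
    s58l_exists_index hW hc hb hh h2 h20 ⟨m, hm⟩ Q.1 Q.2
  choose κ hκ1 hκ2 using hex
  have hnq : (n : ℚ) ≠ 0 := by exact_mod_cast hnpos.ne'
  have hfP : ∀ Q Q' : {Q : W.toAffine.Point // n • Q = 0}, κ Q = κ Q' →
      fP v h Q.1 = fP v h Q'.1 := by
    intro Q Q' e
    have e1 := hκ2 Q
    rw [e, ← hκ2 Q'] at e1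
    exact mul_left_cancel₀ hnq e1
  -- the fibre over `0`
  have hfib0 : (Finset.univ.filter fun Q : {Q : W.toAffine.Point // n • Q = 0} => κ Q = 0).card
      ≤ T.card := by
    refine Finset.card_le_card fun Q hQ => ?_
    rw [Finset.mem_filter] at hQ
    rw [hT, Finset.mem_filter]
    refine ⟨Finset.mem_univ _, ?_⟩
    have e1 := hκ2 Q
    rw [hQ.2, Nat.cast_zero, mul_zero] at e1
    rcases mul_eq_zero.1 e1 with h0 | h0
    · exact absurd h0 hnq
    · exact h0
  -- the other fibres
  have hfib : ∀ i : ℕ, (Finset.univ.filter fun Q : {Q : W.toAffine.Point // n • Q = 0} =>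
      κ Q = i).card ≤ 2 * T.card := by
    intro i
    by_cases hne : (Finset.univ.filter fun Q : {Q : W.toAffine.Point // n • Q = 0} =>
      κ Q = i).Nonempty
    · obtain ⟨Q₀, hQ₀⟩ := hne
      rw [Finset.mem_filter] at hQ₀
      set A : Finset {Q : W.toAffine.Point // n • Q = 0} :=
        Finset.univ.filter fun Q => fP v h (Q.1 - Q₀.1) = 0 with hA
      set B : Finset {Q : W.toAffine.Point // n • Q = 0} :=
        Finset.univ.filter fun Q => fP v h (Q.1 + Q₀.1) = 0 with hB
      have hsub : (Finset.univ.filter fun Q : {Q : W.toAffine.Point // n • Q = 0} => κ Q = i)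
          ⊆ A ∪ B := by
        intro Q hQ
        rw [Finset.mem_filter] at hQ
        rw [Finset.mem_union, hA, hB, Finset.mem_filter, Finset.mem_filter]
        rcases s58l_sub_or_add hW hc hb hh h2 h20 Q.1 Q₀.1
          (hfP Q Q₀ (hQ.2.trans hQ₀.2.symm)) with h0 | h0
        · exact Or.inl ⟨Finset.mem_univ _, h0⟩
        · exact Or.inr ⟨Finset.mem_univ _, h0⟩
      have hAle : A.card ≤ T.card := by
        refine Finset.card_le_card_of_injOn
          (fun Q => (⟨Q.1 - Q₀.1, by rw [smul_sub, Q.2, Q₀.2, sub_zero]⟩ :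
            {Q : W.toAffine.Point // n • Q = 0})) ?_ ?_
        · intro Q hQ
          rw [Finset.mem_coe, hA, Finset.mem_filter] at hQ
          rw [Finset.mem_coe, hT, Finset.mem_filter]
          exact ⟨Finset.mem_univ _, hQ.2⟩
        · intro Q _ Q' _ e
          have e1 : Q.1 - Q₀.1 = Q'.1 - Q₀.1 := congrArg Subtype.val e
          exact Subtype.ext (sub_left_injective e1)
      have hBle : B.card ≤ T.card := by
        refine Finset.card_le_card_of_injOn
          (fun Q => (⟨Q.1 + Q₀.1, by rw [smul_add, Q.2, Q₀.2, add_zero]⟩ :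
            {Q : W.toAffine.Point // n • Q = 0})) ?_ ?_
        · intro Q hQ
          rw [Finset.mem_coe, hB, Finset.mem_filter] at hQ
          rw [Finset.mem_coe, hT, Finset.mem_filter]
          exact ⟨Finset.mem_univ _, hQ.2⟩
        · intro Q _ Q' _ e
          have e1 : Q.1 + Q₀.1 = Q'.1 + Q₀.1 := congrArg Subtype.val e
          exact Subtype.ext (add_left_injective _ e1)
      calc _ ≤ (A ∪ B).card := Finset.card_le_card hsub
        _ ≤ A.card + B.card := Finset.card_union_le A B
        _ ≤ 2 * T.card := by omega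
    · rw [Finset.not_nonempty_iff_eq_empty] at hne
      rw [hne, Finset.card_empty]
      exact Nat.zero_le _
  -- summing up
  have hsum := Finset.card_eq_sum_card_fiberwise (s := (Finset.univ :
    Finset {Q : W.toAffine.Point // n • Q = 0})) (t := Finset.range ((n + 1) / 2)) (f := κ)
    (fun Q _ => Finset.mem_coe.2 (Finset.mem_range.2 (hκ1 Q)))
  rw [Finset.card_univ, ← Nat.card_eq_fintype_card, hcard] at hsum
  have hhalf : (n + 1) / 2 = m + 1 := by omega
  rw [hhalf, Finset.sum_range_succ'] at hsum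
  have hbound : (∑ i ∈ Finset.range m, (Finset.univ.filter
      fun Q : {Q : W.toAffine.Point // n • Q = 0} => κ Q = i + 1).card) ≤ m * (2 * T.card) := by
    calc _ ≤ ∑ _i ∈ Finset.range m, 2 * T.card := Finset.sum_le_sum fun i _ => hfib (i + 1)
      _ = m * (2 * T.card) := by rw [Finset.sum_const, Finset.card_range, smul_eq_mul]
  have htot : n ^ 2 ≤ n * T.card := by
    calc n ^ 2 ≤ m * (2 * T.card) + T.card := by rw [hsum]; exact Nat.add_le_add hbound hfib0
      _ = n * T.card := by
        have : (n : ℕ) = 2 * m + 1 := hm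
        nlinarith [this]
  rw [pow_two] at htot
  exact Nat.le_of_mul_le_mul_left htot hnpos

end Count

end Fermat.Agent.S58
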