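/-
S58-L1 (helper6): **inertia fixes the torsion points with nonsingular reduction**, and at a prime of
good reduction every integral point has nonsingular reduction.

* `S58lNs A E Q` : the point `Q` of `E / K` is `O`, or one of the two partial derivatives of the
  Weierstrass equation at `Q` is a unit of the valuation ring `A` ("the reduction of `Q` is a
  nonsingular point of the reduced curve");
* `s58l_disc_eq` : the discriminant lies in the ideal generated by the equation and its partials;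
* `s58l_ns_of_good` : if `Δ` is a unit of `A`, every integral point satisfies `S58lNs`;
* `s58l_inertia_fix` : `σ ∈ I_A`, `Q ∈ W(ℚ̄)[n]` with `S58lNs` and `r ∤ n` ⇒ `σ • Q = Q`
  (from the general close lemma `ET.etgc_close_pt`);
* `s58lT0 W n A` : the set `T₀` of the `n`-torsion points with `S58lNs`; `s58lT0_fixed`,
  `s58lT0_finite`, `s58l_card_of_good`.
-/
import Fermat.Agent.Lib.S58.Defs
import Fermat.Agent.Lib.ET.RedClose
import Fermat.Agent.Lib.S05.QValQbar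
import Fermat.Agent.Lib.LR.E.Count

set_option autoImplicit false
set_option linter.unusedSectionVars false
set_option linter.unusedVariables false

open WeierstrassCurve WeierstrassCurve.Affine
open scoped WeierstrassCurve.Affine

namespace Fermat.Agent.S58

open Fermat.Agent.ET Fermat.Agent.S05Lib

section General

variable {K : Type*} [Field K]

/-- the point is `O`, or one of the partial derivatives of the Weierstrass equation at the point
is a unit of `A` -/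
def S58lNs (A : ValuationSubring K) (E : WeierstrassCurve K) : E.toAffine.Point → Prop
  | .zero => True
  | .some x y _ => A.valuation (2 * y + E.a₁ * x + E.a₃) = 1 ∨
      A.valuation (3 * x ^ 2 + 2 * E.a₂ * x + E.a₄ - E.a₁ * y) = 1

theorem s58lNs_zero (A : ValuationSubring K) (E : WeierstrassCurve K) :
    S58lNs A E (0 : E.toAffine.Point) := trivial

theorem s58lNs_some (A : ValuationSubring K) (E : WeierstrassCurve K) {x y : K}
    (h : E.toAffine.Nonsingular x y) :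
    S58lNs A E (Affine.Point.some x y h) ↔ (A.valuation (2 * y + E.a₁ * x + E.a₃) = 1 ∨
      A.valuation (3 * x ^ 2 + 2 * E.a₂ * x + E.a₄ - E.a₁ * y) = 1) := Iff.rfl

/-- the discriminant is in the ideal generated by the Weierstrass equation and its partial
derivatives (translate the point to the origin) -/
theorem s58l_disc_eq {R : Type*} [CommRing R] (E : WeierstrassCurve R) (x y ψ φ g B a₂' : R)
    (hψ : ψ = 2 * y + E.a₁ * x + E.a₃)
    (hφ : φ = 3 * x ^ 2 + 2 * E.a₂ * x + E.a₄ - E.a₁ * y)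
    (hg : g = x ^ 3 + E.a₂ * x ^ 2 + E.a₄ * x + E.a₆ - (y ^ 2 + E.a₁ * x * y + E.a₃ * y))
    (ha₂' : a₂' = E.a₂ + 3 * x) (hB : B = E.a₁ ^ 2 + 4 * a₂') :
    E.Δ = ψ * (B ^ 2 * E.a₁ * φ - B ^ 2 * a₂' * ψ - 27 * ψ ^ 3 + 9 * B * (2 * φ + E.a₁ * ψ) * ψ
        - 8 * (2 * φ + E.a₁ * ψ) ^ 2 * E.a₁)
      + φ * (B ^ 2 * φ - 16 * (2 * φ + E.a₁ * ψ) ^ 2)
      + g * (-B ^ 3 - 216 * ψ ^ 2 - 432 * g + 36 * B * (2 * φ + E.a₁ * ψ)) := by
  subst hψ hφ hg hB ha₂'
  simp only [WeierstrassCurve.Δ, WeierstrassCurve.b₂, WeierstrassCurve.b₄, WeierstrassCurve.b₆,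
    WeierstrassCurve.b₈]
  ring

section Val

variable {A : ValuationSubring K}

theorem s58l_lt_add {a b : K} (ha : A.valuation a < 1) (hb : A.valuation b < 1) :
    A.valuation (a + b) < 1 := Valuation.map_add_lt _ ha hb

theorem s58l_lt_sub {a b : K} (ha : A.valuation a < 1) (hb : A.valuation b < 1) :
    A.valuation (a - b) < 1 := Valuation.map_sub_lt _ ha hb

theorem s58l_lt_of_mem_of_ne {a : K} (ha : a ∈ A) (h1 : A.valuation a ≠ 1) :
    A.valuation a < 1 :=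
  lt_of_le_of_ne ((A.valuation_le_one_iff a).mpr ha) h1

variable (A) in
theorem s58l_ofNat_mem (n : ℕ) [n.AtLeastTwo] : (OfNat.ofNat n : K) ∈ A := by
  exact natCast_mem A n

end Val

/-- **good reduction**: if the discriminant is a unit, every integral point of the curve has
nonsingular reduction -/
theorem s58l_ns_of_good {A : ValuationSubring K} {E : WeierstrassCurve K} (h₁ : E.a₁ ∈ A)
    (h₂ : E.a₂ ∈ A) (h₃ : E.a₃ ∈ A) (h₄ : E.a₄ ∈ A) (hΔ : A.valuation E.Δ = 1) {x y : K}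
    (h : E.toAffine.Equation x y) (hx : x ∈ A) (hy : y ∈ A) :
    A.valuation (2 * y + E.a₁ * x + E.a₃) = 1 ∨
      A.valuation (3 * x ^ 2 + 2 * E.a₂ * x + E.a₄ - E.a₁ * y) = 1 := by
  by_contra hcon
  push Not at hcon
  obtain ⟨c1, c2⟩ := hcon
  have m2 : (2 : K) ∈ A := s58l_ofNat_mem A 2
  have m3 : (3 : K) ∈ A := s58l_ofNat_mem A 3
  have hψA : 2 * y + E.a₁ * x + E.a₃ ∈ A := add_mem (add_mem (mul_mem m2 hy) (mul_mem h₁ hx)) h₃
  have hφA : 3 * x ^ 2 + 2 * E.a₂ * x + E.a₄ - E.a₁ * y ∈ A :=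
    sub_mem (add_mem (add_mem (mul_mem m3 (pow_mem hx 2)) (mul_mem (mul_mem m2 h₂) hx)) h₄)
      (mul_mem h₁ hy)
  have hψ := s58l_lt_of_mem_of_ne hψA c1
  have hφ := s58l_lt_of_mem_of_ne hφA c2
  have hg : (0 : K) = x ^ 3 + E.a₂ * x ^ 2 + E.a₄ * x + E.a₆ -
      (y ^ 2 + E.a₁ * x * y + E.a₃ * y) := by
    rw [Affine.equation_iff] at h
    linear_combination h
  have ha₂' : E.a₂ + 3 * x ∈ A := add_mem h₂ (mul_mem m3 hx)
  have hB : E.a₁ ^ 2 + 4 * (E.a₂ + 3 * x) ∈ A := by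
    have m4 : (4 : K) ∈ A := s58l_ofNat_mem A 4
    exact add_mem (pow_mem h₁ 2) (mul_mem m4 ha₂')
  have key := s58l_disc_eq E x y _ _ 0 _ _ rfl rfl hg rfl rfl
  rw [zero_mul, add_zero] at key
  have hlt : A.valuation E.Δ < 1 := by
    rw [key]
    refine s58l_lt_add (etg_mul_lt' hψ ?_) (etg_mul_lt' hφ ?_)
    · have m27 : (27 : K) ∈ A := s58l_ofNat_mem A 27
      have m9 : (9 : K) ∈ A := s58l_ofNat_mem A 9
      have m8 : (8 : K) ∈ A := s58l_ofNat_mem A 8
      have hb4 : 2 * (3 * x ^ 2 + 2 * E.a₂ * x + E.a₄ - E.a₁ * y) +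
          E.a₁ * (2 * y + E.a₁ * x + E.a₃) ∈ A := add_mem (mul_mem m2 hφA) (mul_mem h₁ hψA)
      exact sub_mem (add_mem (sub_mem (sub_mem (mul_mem (mul_mem (pow_mem hB 2) h₁) hφA)
        (mul_mem (mul_mem (pow_mem hB 2) ha₂') hψA)) (mul_mem m27 (pow_mem hψA 3)))
        (mul_mem (mul_mem (mul_mem m9 hB) hb4) hψA)) (mul_mem (mul_mem m8 (pow_mem hb4 2)) h₁)
    · have m16 : (16 : K) ∈ A := s58l_ofNat_mem A 16
      have hb4 : 2 * (3 * x ^ 2 + 2 * E.a₂ * x + E.a₄ - E.a₁ * y) +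
          E.a₁ * (2 * y + E.a₁ * x + E.a₃) ∈ A := add_mem (mul_mem m2 hφA) (mul_mem h₁ hψA)
      exact sub_mem (mul_mem (pow_mem hB 2) hφA) (mul_mem m16 (pow_mem hb4 2))
  rw [hΔ] at hlt
  exact lt_irrefl _ hlt

end General

section Qbar

local notation "Qb" => AlgebraicClosure ℚ
local notation "GQ" => (AlgebraicClosure ℚ ≃ₐ[ℚ] AlgebraicClosure ℚ)

/-- the curve over `ℚ̄` is the image of the integral model -/
theorem s58l_curve_eq (W : WeierstrassCurve ℤ) :
    ((s58E W)⁄Qb) = W.map (Int.castRingHom Qb) := by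
  show (W.map (Int.castRingHom ℚ)).map (algebraMap ℚ Qb) = _
  rw [WeierstrassCurve.map_map]
  congr 1

theorem s58l_a_mem (W : WeierstrassCurve ℤ) (A : ValuationSubring Qb) :
    ((s58E W)⁄Qb).a₁ ∈ A ∧ ((s58E W)⁄Qb).a₂ ∈ A ∧ ((s58E W)⁄Qb).a₃ ∈ A ∧
      ((s58E W)⁄Qb).a₄ ∈ A ∧ ((s58E W)⁄Qb).a₆ ∈ A := by
  rw [s58l_curve_eq]
  refine ⟨?_, ?_, ?_, ?_, ?_⟩ <;> simp only [WeierstrassCurve.map_a₁, WeierstrassCurve.map_a₂,
    WeierstrassCurve.map_a₃, WeierstrassCurve.map_a₄, WeierstrassCurve.map_a₆, eq_intCast] <;>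
    exact intCast_mem A _

theorem s58l_Δ_eq (W : WeierstrassCurve ℤ) : ((s58E W)⁄Qb).Δ = ((W.Δ : ℤ) : Qb) := by
  rw [s58l_curve_eq, WeierstrassCurve.map_Δ, eq_intCast]

theorem s58l_c₄_eq (W : WeierstrassCurve ℤ) : ((s58E W)⁄Qb).c₄ = ((W.c₄ : ℤ) : Qb) := by
  rw [s58l_curve_eq, WeierstrassCurve.map_c₄, eq_intCast]

theorem s58l_isElliptic (W : WeierstrassCurve ℤ) (hΔ : W.Δ ≠ 0) :
    ((s58E W)⁄Qb).IsElliptic := by
  refine ⟨?_⟩
  rw [s58l_Δ_eq, isUnit_iff_ne_zero]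
  exact_mod_cast hΔ

/-- **(L1)** an element of the inertia group at `A` fixes every torsion point of order prime to
the residue characteristic whose reduction is a nonsingular point -/
theorem s58l_inertia_fix (W : WeierstrassCurve ℤ) (hΔ : W.Δ ≠ 0) {r n : ℕ} (hr : r.Prime)
    (hrn : ¬ r ∣ n) (A : ValuationSubring Qb) (hA : A.LiesOverPrime r) {σ : GQ}
    (hσ : σ ∈ A.inertiaSubgroupIn ℚ) (Q : ((s58E W)⁄Qb).Point) (hQ : n • Q = 0)
    (hns : S58lNs A ((s58E W)⁄Qb) Q) : σ • Q = Q := by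
  have hell := s58l_isElliptic W hΔ
  obtain ⟨ha₁, ha₂, ha₃, ha₄, ha₆⟩ := s58l_a_mem W A
  have hn : A.valuation ((n : ℕ) : Qb) = 1 := by
    have h := qv_valuation_intCast_eq_one A hr hA (n := (n : ℤ))
      (by intro h; exact hrn (by exact_mod_cast h))
    simpa using h
  obtain ⟨hdec, hclose⟩ := qv_mem_inertiaSubgroupIn A hσ
  rcases Q with _ | ⟨x, y, h⟩
  · rfl
  · have hxy := etg_integral ha₁ ha₂ ha₃ ha₄ ha₆ hn h hQ
    have hdef : (σ • Affine.Point.some x y h : ((s58E W)⁄Qb).Point) =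
        Affine.Point.some (σ x) (σ y)
          (((s58E W).toAffine.baseChange_nonsingular σ.toAlgHom.injective ..).mpr h) := rfl
    have hσQ : n • (σ • Affine.Point.some x y h : ((s58E W)⁄Qb).Point) = 0 := by
      have e : (σ • Affine.Point.some x y h : ((s58E W)⁄Qb).Point) =
          Affine.Point.map (W' := (s58E W).toAffine) σ.toAlgHom (Affine.Point.some x y h) := rfl
      rw [e, ← map_nsmul, hQ, map_zero]
    rw [hdef] at hσQ ⊢
    have hx' : A.valuation (x - σ x) < 1 := by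
      rw [Valuation.map_sub_swap]
      exact hclose x hxy.1
    have hy' : A.valuation (y - σ y) < 1 := by
      rw [Valuation.map_sub_swap]
      exact hclose y hxy.2
    exact (etgc_close_pt ha₁ ha₂ ha₃ ha₄ ha₆ hn h _ hxy.1 (qv_decomp_mem A hdec hxy.1) hx' hy'
      ((s58lNs_some A _ h).mp hns) hQ hσQ).symm

/-- the set `T₀` of the `n`-torsion points whose reduction at `A` is a nonsingular point -/
def s58lT0 (W : WeierstrassCurve ℤ) (n : ℕ) (A : ValuationSubring Qb) : Set (S58Tors W n) :=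
  {Q | S58lNs A ((s58E W)⁄Qb) (Q : ((s58E W)⁄Qb).Point)}

theorem s58l_nsmul_eq_zero (W : WeierstrassCurve ℤ) {n : ℕ} (Q : S58Tors W n) :
    n • (Q : ((s58E W)⁄Qb).Point) = 0 := by
  have h := (Submodule.mem_torsionBy_iff _ _).mp Q.2
  rwa [Nat.cast_smul_eq_nsmul] at h

theorem s58l_mem_tors (W : WeierstrassCurve ℤ) {n : ℕ} {Q : ((s58E W)⁄Qb).Point}
    (hQ : n • Q = 0) : Q ∈ Submodule.torsionBy ℤ ((s58E W)⁄Qb).Point n := by
  rw [Submodule.mem_torsionBy_iff, Nat.cast_smul_eq_nsmul]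
  exact hQ

/-- **(L1)** inertia fixes `T₀` pointwise -/
theorem s58lT0_fixed (W : WeierstrassCurve ℤ) (hΔ : W.Δ ≠ 0) {r n : ℕ} (hr : r.Prime)
    (hrn : ¬ r ∣ n) (A : ValuationSubring Qb) (hA : A.LiesOverPrime r) {σ : GQ}
    (hσ : σ ∈ A.inertiaSubgroupIn ℚ) {Q : S58Tors W n} (hQ : Q ∈ s58lT0 W n A) : σ • Q = Q := by
  apply Subtype.ext
  show σ • (Q : ((s58E W)⁄Qb).Point) = Q
  exact s58l_inertia_fix W hΔ hr hrn A hA hσ _ (s58l_nsmul_eq_zero W Q) hQ

theorem s58l_natCard_tors (W : WeierstrassCurve ℤ) (hΔ : W.Δ ≠ 0) {n : ℕ} (hn : 0 < n) :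
    Nat.card (S58Tors W n) = n ^ 2 := by
  refine Fermat.Agent.LR.lre_natCard_torsionBy (s58E W) ?_ hn
  rw [WeierstrassCurve.map_Δ]
  simpa using hΔ

theorem s58l_finite_tors (W : WeierstrassCurve ℤ) (hΔ : W.Δ ≠ 0) {n : ℕ} (hn : 0 < n) :
    Finite (S58Tors W n) :=
  Nat.finite_of_card_ne_zero (by rw [s58l_natCard_tors W hΔ hn]; positivity)

theorem s58lT0_finite (W : WeierstrassCurve ℤ) (hΔ : W.Δ ≠ 0) {n : ℕ} (hn : 0 < n)
    (A : ValuationSubring Qb) : (s58lT0 W n A).Finite := by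
  have := s58l_finite_tors W hΔ hn
  exact Set.toFinite _

/-- every torsion point of order prime to the residue characteristic is integral -/
theorem s58l_integral (W : WeierstrassCurve ℤ) (hΔ : W.Δ ≠ 0) {r n : ℕ} (hr : r.Prime)
    (hrn : ¬ r ∣ n) (A : ValuationSubring Qb) (hA : A.LiesOverPrime r) {x y : Qb}
    (h : ((s58E W)⁄Qb).Nonsingular x y)
    (hQ : n • (Affine.Point.some x y h : ((s58E W)⁄Qb).Point) = 0) : x ∈ A ∧ y ∈ A := by
  have hell := s58l_isElliptic W hΔ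
  obtain ⟨ha₁, ha₂, ha₃, ha₄, ha₆⟩ := s58l_a_mem W A
  have hn : A.valuation ((n : ℕ) : Qb) = 1 := by
    have h := qv_valuation_intCast_eq_one A hr hA (n := (n : ℤ))
      (by intro h; exact hrn (by exact_mod_cast h))
    simpa using h
  exact etg_integral ha₁ ha₂ ha₃ ha₄ ha₆ hn h hQ

/-- **good reduction**: `T₀` is everything -/
theorem s58l_card_of_good (W : WeierstrassCurve ℤ) (hΔ : W.Δ ≠ 0) {r n : ℕ} (hr : r.Prime)
    (hgood : ¬ (r : ℤ) ∣ W.Δ) (hn : 0 < n) (hrn : ¬ r ∣ n) (A : ValuationSubring Qb)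
    (hA : A.LiesOverPrime r) : n ≤ (s58lT0 W n A).ncard := by
  have hall : s58lT0 W n A = Set.univ := by
    refine Set.eq_univ_of_forall fun Q => ?_
    show S58lNs A ((s58E W)⁄Qb) (Q : ((s58E W)⁄Qb).Point)
    have hQ := s58l_nsmul_eq_zero W Q
    generalize (Q : ((s58E W)⁄Qb).Point) = Q' at hQ ⊢
    rcases Q' with _ | ⟨x, y, h⟩
    · trivial
    · obtain ⟨hx, hy⟩ := s58l_integral W hΔ hr hrn A hA h hQ
      obtain ⟨ha₁, ha₂, ha₃, ha₄, ha₆⟩ := s58l_a_mem W A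
      have hΔ1 : A.valuation ((s58E W)⁄Qb).Δ = 1 := by
        rw [s58l_Δ_eq]
        exact qv_valuation_intCast_eq_one A hr hA hgood
      exact s58l_ns_of_good ha₁ ha₂ ha₃ ha₄ hΔ1 h.1 hx hy
  rw [hall, Set.ncard_univ, s58l_natCard_tors W hΔ hn]
  nlinarith

end Qbar

end Fermat.Agent.S58
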