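/-
S58-L3 (helper6): **the Legendre transfer at a prime of multiplicative reduction**, all residue
characteristics (including `2` and `3`).

`E / K` a Weierstrass curve over a valued field `(K, v)` with `ord 2 ≥ 0`, `2 ≠ 0`, roots
`e₁, e₂, e₃` of the two-torsion polynomial (`LR.LreRoots`), `ord c₄ = 0`, `ord Δ = 2 h > 0`, and
`ord (4 (e₁ - e₂)) > 0`.  Then for `a = -((e₂ - e₁) + (e₃ - e₁))`, `b = (e₂ - e₁) (e₃ - e₁)`
(the Legendre form `η² = X³ + a X² + b X` of `lreVC E e₁ • E`):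

* `s58l_leg_val` : `ord (4 a) = 0` and `ord b = h`;
* `s58l_leg_ns` : at a point `(x, y)` of `E` with integral partial derivatives and
  `ord (x - e₁) ≤ 0`, one of the two partial derivatives is a unit.
-/
import Fermat.Agent.Lib.LR.E.Leg
import Fermat.Agent.Lib.LR.E.Val

set_option autoImplicit false
set_option linter.unusedSectionVars false
set_option linter.unusedVariables false

open WeierstrassCurve WeierstrassCurve.Affine

namespace Fermat.Agent.S58

open Fermat.Agent.S05Lib Fermat.Agent.LR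

variable {K : Type*} [Field K] {v : QVal K}

/-- an integral element which is not a unit lies in the maximal ideal -/
theorem s58l_gt_of_ge_of_not_is {z : K} (hz : v.Ge z 0) (hz' : ¬ v.Is z 0) : v.Gt z 0 := by
  rcases hz with hz | hz
  · exact Or.inl hz
  · by_cases h0 : z = 0
    · exact Or.inl h0
    · right
      rcases lt_or_eq_of_le hz with h | h
      · exact h
      · exact absurd ⟨h0, h.symm⟩ hz'

/-- if a product is in the maximal ideal, so is one of the factors -/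
theorem s58l_gt_of_mul_gt {x y : K} (h : v.Gt (x * y) 0) : v.Gt x 0 ∨ v.Gt y 0 := by
  rcases QVal.le_or_gt (v := v) x 0 with hx | hx
  · rcases QVal.le_or_gt (v := v) y 0 with hy | hy
    · exfalso
      have := hx.mul hy
      exact this.not_gt h (by norm_num)
    · exact Or.inr hy
  · exact Or.inl hx

theorem s58l_is_two (h2 : v.Ge (2 : K) 0) (h20 : (2 : K) ≠ 0) :
    v.Is (2 : K) (v.ord 2) ∧ 0 ≤ v.ord (2 : K) :=
  ⟨QVal.is_ord h20, h2.resolve_left h20⟩

theorem s58l_is_four (h20 : (2 : K) ≠ 0) : v.Is (4 : K) (2 * v.ord 2) := by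
  have h := (QVal.is_ord (v := v) h20).mul (QVal.is_ord (v := v) h20)
  have e : (2 : K) * 2 = 4 := by norm_num
  rw [e] at h
  exact h.congr (by ring)

theorem s58l_is_sixteen (h20 : (2 : K) ≠ 0) : v.Is (16 : K) (4 * v.ord 2) := by
  have h := (s58l_is_four (v := v) h20).mul (s58l_is_four (v := v) h20)
  have e : (4 : K) * 4 = 16 := by norm_num
  rw [e] at h
  exact h.congr (by ring)

theorem s58l_is_256 (h20 : (2 : K) ≠ 0) : v.Is (256 : K) (8 * v.ord 2) := by
  have h := (s58l_is_sixteen (v := v) h20).mul (s58l_is_sixteen (v := v) h20)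
  have e : (16 : K) * 16 = 256 := by norm_num
  rw [e] at h
  exact h.congr (by ring)

/-- **valuations of the Legendre coefficients** -/
theorem s58l_leg_val {E : WeierstrassCurve K} {e₁ e₂ e₃ : K} (hr : LreRoots E e₁ e₂ e₃)
    (hdisc : E.Δ = 16 * ((e₁ - e₂) * (e₁ - e₃) * (e₂ - e₃)) ^ 2)
    (h2 : v.Ge (2 : K) 0) (h20 : (2 : K) ≠ 0) (hc₄ : v.Is E.c₄ 0) {h : ℚ}
    (hΔ : v.Is E.Δ (2 * h)) (hu : v.Gt (4 * (e₁ - e₂)) 0) :
    v.Is (4 * (-((e₂ - e₁) + (e₃ - e₁)))) 0 ∧ v.Is ((e₂ - e₁) * (e₃ - e₁)) h := by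
  obtain ⟨hb₂, hb₄, hb₆⟩ := hr
  have hc₄e : E.c₄ = (4 * (e₁ - e₃)) ^ 2 -
      (4 * (e₁ - e₂)) * (4 * (e₁ - e₃) - 4 * (e₁ - e₂)) := by
    rw [WeierstrassCurve.c₄]
    linear_combination (E.b₂ - 4 * (e₁ + e₂ + e₃)) * hb₂ - 24 * hb₄
  set u := 4 * (e₁ - e₂) with hu_def
  set t := 4 * (e₁ - e₃) with ht_def
  -- `t` is integral
  have ht : v.Ge t 0 := by
    rcases QVal.lt_or_ge (v := v) t 0 with hlt | hge
    · exfalso
      have hτ : v.ord t < 0 := hlt.2
      have i := hlt.is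
      have i2 : v.Is (t ^ 2) (2 * v.ord t) := i.sq
      have i3 : v.Is (t - u) (v.ord t) := i.sub_gt (hu.mono hτ.le)
      have i4 : v.Gt (u * (t - u)) (2 * v.ord t) := by
        have := hu.mul_ge i3.ge
        exact this.mono (by linarith)
      have i5 : v.Is (t ^ 2 - u * (t - u)) (2 * v.ord t) := i2.sub_gt i4
      rw [← hc₄e] at i5
      have := hc₄.unique i5
      linarith
    · exact hge
  -- `t` is a unit
  have hut : v.Gt (u * (t - u)) 0 := by
    have := hu.mul_ge (ht.sub hu.ge)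
    simpa using this
  have ht2 : v.Is (t ^ 2) 0 := by
    have e : t ^ 2 = E.c₄ + u * (t - u) := by rw [hc₄e]; ring
    rw [e]
    exact hc₄.add_gt hut
  have ht0 : t ≠ 0 := fun h0 => ht2.1 (by rw [h0]; ring)
  have hti : v.Is t 0 := by
    refine ⟨ht0, ?_⟩
    have := ht2.2
    rw [v.ord_pow ht0] at this
    push_cast at this
    linarith
  have htu : v.Is (t - u) 0 := hti.sub_gt hu
  -- the discriminant
  have hd : 256 * E.Δ = (u * t * (t - u)) ^ 2 := by
    rw [hdisc, hu_def, ht_def]; ring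
  have hu0 : u ≠ 0 := by
    intro h0
    apply hΔ.1
    have : (256 : K) * E.Δ = 0 := by rw [hd, h0]; ring
    exact (mul_eq_zero.mp this).resolve_left (s58l_is_256 (v := v) h20).1
  have hui := QVal.is_ord (v := v) hu0
  have hprod : v.Is ((u * t * (t - u)) ^ 2) (2 * (v.ord u + 0 + 0)) := ((hui.mul hti).mul htu).sq
  rw [← hd] at hprod
  have h256 := (s58l_is_256 (v := v) h20).mul hΔ
  have hμ := hprod.unique h256
  have hμ' : v.ord u = h + 4 * v.ord 2 := by linarith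
  refine ⟨?_, ?_⟩
  · have e : 4 * (-((e₂ - e₁) + (e₃ - e₁))) = t + u := by rw [hu_def, ht_def]; ring
    rw [e]
    exact hti.add_gt hu
  · have e : (e₂ - e₁) * (e₃ - e₁) = u * t / 16 := by
      have h16 : (16 : K) ≠ 0 := (s58l_is_sixteen (v := v) h20).1
      rw [hu_def, ht_def]
      field_simp
      ring
    rw [e]
    exact ((hui.mul hti).div (s58l_is_sixteen (v := v) h20)).congr (by rw [hμ']; ring)

/-- **nonsingular reduction off the node**: at a point `(x, y)` of `E` whose partial derivatives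
`ψ = 2 y + a₁ x + a₃`, `φ = 3 x² + 2 a₂ x + a₄ - a₁ y` are integral and with `ord (x - e₁) ≤ 0`,
one of `ψ`, `φ` is a unit -/
theorem s58l_leg_ns {E : WeierstrassCurve K} {e₁ e₂ e₃ : K} (hr : LreRoots E e₁ e₂ e₃)
    (h2 : v.Ge (2 : K) 0) (h20 : (2 : K) ≠ 0) (ha₁ : v.Ge E.a₁ 0) {h : ℚ}
    (hc : v.Is (4 * (-((e₂ - e₁) + (e₃ - e₁)))) 0) (hb : v.Is ((e₂ - e₁) * (e₃ - e₁)) h)
    (hh : 0 < h) {x y : K} (hxy : E.toAffine.Equation x y)
    (hψ : v.Ge (2 * y + E.a₁ * x + E.a₃) 0)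
    (hφ : v.Ge (3 * x ^ 2 + 2 * E.a₂ * x + E.a₄ - E.a₁ * y) 0) (hX : v.Le (x - e₁) 0) :
    v.Is (2 * y + E.a₁ * x + E.a₃) 0 ∨
      v.Is (3 * x ^ 2 + 2 * E.a₂ * x + E.a₄ - E.a₁ * y) 0 := by
  by_contra hcon
  push Not at hcon
  obtain ⟨c1, c2⟩ := hcon
  have gψ := s58l_gt_of_ge_of_not_is hψ c1
  have gφ := s58l_gt_of_ge_of_not_is hφ c2
  obtain ⟨hb₂, hb₄, hb₆⟩ := hr
  rw [Affine.equation_iff] at hxy
  simp only [WeierstrassCurve.b₂, WeierstrassCurve.b₄, WeierstrassCurve.b₆] at hb₂ hb₄ hb₆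
  obtain ⟨i2, hκ⟩ := s58l_is_two h2 h20
  have i4 := s58l_is_four (v := v) h20
  have i16 := s58l_is_sixteen (v := v) h20
  set κ := v.ord (2 : K) with hκ_def
  set ψ := 2 * y + E.a₁ * x + E.a₃ with hψ_def
  set φ := 3 * x ^ 2 + 2 * E.a₂ * x + E.a₄ - E.a₁ * y with hφ_def
  set c := 4 * (-((e₂ - e₁) + (e₃ - e₁))) with hc_def
  -- `ξ = 4 (x - e₁)`, `β = 16 b`
  have hξ : v.Le (4 * (x - e₁)) (2 * κ) := by
    have := i4.le.mul hX
    simpa using this
  have hβ : v.Is (16 * ((e₂ - e₁) * (e₃ - e₁))) (h + 4 * κ) := (i16.mul hb).congr (by ring)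
  set ξ := 4 * (x - e₁) with hξ_def
  set β := 16 * ((e₂ - e₁) * (e₃ - e₁)) with hβ_def
  have id1 : 16 * ψ ^ 2 = ξ ^ 3 + c * ξ ^ 2 + β * ξ := by
    rw [hψ_def, hξ_def, hc_def, hβ_def]
    linear_combination 64 * hxy + 16 * x ^ 2 * hb₂ + 32 * x * hb₄ + 16 * hb₆
  have id2 : 3 * ξ ^ 2 + 2 * c * ξ + β = 8 * E.a₁ * ψ + 16 * φ := by
    rw [hψ_def, hφ_def, hξ_def, hc_def, hβ_def]
    linear_combination (-8) * x * hb₂ - 8 * hb₄
  have G1 : v.Gt (16 * ψ ^ 2) (4 * κ) := by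
    have h1 : v.Gt (ψ ^ 2) 0 := by
      have := gψ.mul_ge gψ.ge
      rw [sq]
      simpa using this
    have := i16.ge.mul_gt h1
    simpa using this
  have G2 : v.Gt (8 * E.a₁ * ψ + 16 * φ) 0 := by
    have h8 : v.Ge (8 : K) 0 := by
      have := (i4.mul i2).ge' (s := 0) (by positivity)
      have e : (4 : K) * 2 = 8 := by norm_num
      rwa [e] at this
    have h1 : v.Gt (8 * E.a₁ * ψ) 0 := by
      have := (h8.mul ha₁).mul_gt gψ
      simpa using this
    have h2' : v.Gt (16 * φ) 0 := by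
      have := (i16.ge' (s := 0) (by positivity)).mul_gt gφ
      simpa using this
    exact h1.add h2'
  have hξi := QVal.is_ord (v := v) hξ.1
  have hγ : v.ord ξ ≤ 2 * κ := hξ.2
  set γ := v.ord ξ with hγ_def
  have i3 : v.Is (ξ ^ 3) (3 * γ) := by
    have := hξi.pow 3
    simpa using this
  have ic2 : v.Is (c * ξ ^ 2) (2 * γ) := by
    have := hc.mul hξi.sq
    simpa using this
  have iβ : v.Is (β * ξ) (h + 4 * κ + γ) := hβ.mul hξi
  rcases lt_trichotomy γ 0 with hneg | hzero | hpos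
  · -- `ξ` not integral: `ξ³` dominates
    have s1 : v.Is (ξ ^ 3 + c * ξ ^ 2 + β * ξ) (3 * γ) :=
      (i3.add_gt (ic2.gt (by linarith))).add_gt (iβ.gt (by linarith))
    rw [← id1] at s1
    exact s1.not_gt G1 (by linarith)
  · -- `ξ` a unit
    rw [hzero] at hξi
    have hq : v.Gt (ξ ^ 2 + c * ξ + β) 0 := by
      have e : ξ ^ 2 + c * ξ + β = (16 * ψ ^ 2) / ξ := by
        rw [id1]
        field_simp [hξ.1]
      rw [e]
      have := (G1.mono (by linarith : (0 : ℚ) ≤ 4 * κ)).div_is hξi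
      simpa using this
    have h3 : v.Ge (3 : K) 0 := by
      have : (3 : K) = 2 + 1 := by norm_num
      rw [this]
      exact h2.add QVal.is_one.ge
    have t1 : v.Gt (3 * (ξ ^ 2 + c * ξ + β)) 0 := by
      have := h3.mul_gt hq
      simpa using this
    have t2 : v.Gt (2 * β) 0 := by
      have := h2.mul_gt (hβ.gt (by linarith : (0 : ℚ) < h + 4 * κ))
      simpa using this
    have t3 : v.Is (c * ξ) 0 := by
      have := hc.mul hξi
      simpa using this
    have s1 : v.Is (-(c * ξ) + (3 * (ξ ^ 2 + c * ξ + β) - 2 * β)) 0 := t3.neg.add_gt (t1.sub t2)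
    have e : -(c * ξ) + (3 * (ξ ^ 2 + c * ξ + β) - 2 * β) = 8 * E.a₁ * ψ + 16 * φ := by
      rw [← id2]; ring
    rw [e] at s1
    exact s1.not_gt G2 le_rfl
  · -- `0 < ord ξ ≤ 2 κ`: `c ξ²` dominates
    have s1 : v.Is (c * ξ ^ 2 + ξ ^ 3 + β * ξ) (2 * γ) :=
      (ic2.add_gt (i3.gt (by linarith))).add_gt (iβ.gt (by linarith))
    have e : c * ξ ^ 2 + ξ ^ 3 + β * ξ = 16 * ψ ^ 2 := by rw [id1]; ring
    rw [e] at s1
    exact s1.not_gt G1 (by linarith)

end Fermat.Agent.S58
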