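/-
S58-L (helper6): **the inertia group at a semistable prime `r ∤ n` fixes at least `n` points of
`W[n]`** (`n` odd), all `r` including `2` and `3`.

* `s58l_count_node` : multiplicative reduction (`ord Δ > 0`, `ord c₄ = 0`) over an algebraically
  closed valued field of characteristic zero: at least `n` of the `n`-torsion points have
  nonsingular reduction (`S58lNs`), by the Legendre transfer `LR.lreVC` (`s58l_leg_val`,
  `s58l_leg_ns`) and the node count `s58l_count` of helper8;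
* `s58l_fixed` : the final statement of package L of the S58 brief.
-/
import Fermat.Agent.Lib.S58.LocalFix
import Fermat.Agent.Lib.S58.LocalLeg
import Fermat.Agent.Lib.S58.LocalCount
import Fermat.Agent.Lib.LR.E.Count

set_option autoImplicit false
set_option linter.unusedSectionVars false
set_option linter.unusedVariables false

open WeierstrassCurve WeierstrassCurve.Affine
open scoped WeierstrassCurve.Affine

namespace Fermat.Agent.S58

open Fermat.Agent.S05Lib Fermat.Agent.LR Fermat.Agent.X015 Fermat.Agent.S13Lib.AtTwo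
  Fermat.Agent.ET

section Node

variable {K : Type*} [Field K] [DecidableEq K] [IsAlgClosed K] [CharZero K]
  {A : ValuationSubring K} {v : QVal K}

/-- units for `v` are units for `A` -/
theorem s58l_val_eq_one_of_is (hv : LreVal A v) {z : K} (hz : v.Is z 0) : A.valuation z = 1 := by
  refine le_antisymm ((A.valuation_le_one_iff z).mpr (hv.mem_of_ge hz.ge)) ?_
  by_contra hlt
  push Not at hlt
  exact hz.not_gt ((hv.gt_iff z).mpr hlt) le_rfl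

/-- a point of the identity component of the Legendre form has nonsingular reduction on the
original curve -/
theorem s58l_ns_of_fP (hv : LreVal A v) {E : WeierstrassCurve K}
    (ha₁ : E.a₁ ∈ A) (ha₂ : E.a₂ ∈ A) (ha₃ : E.a₃ ∈ A) (ha₄ : E.a₄ ∈ A)
    {e₁ e₂ e₃ : K} (hr : LreRoots E e₁ e₂ e₃) {h : ℚ}
    (hc : v.Is (4 * (-((e₂ - e₁) + (e₃ - e₁)))) 0) (hb : v.Is ((e₂ - e₁) * (e₃ - e₁)) h)
    (hh : 0 < h) {n : ℕ}
    (hint : ∀ {x y : K} (h : E.toAffine.Nonsingular x y),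
      n • Affine.Point.some x y h = 0 → x ∈ A ∧ y ∈ A)
    (Q : (lreVC E e₁ • E).toAffine.Point) (hQ : n • Q = 0) (hf : fP v h Q = 0) :
    S58lNs A E ((vcPointEquiv (lreVC E e₁) E).symm Q) := by
  have h20 : (2 : K) ≠ 0 := two_ne_zero
  have m2 : (2 : K) ∈ A := s58l_ofNat_mem A 2
  have m3 : (3 : K) ∈ A := s58l_ofNat_mem A 3
  have h2 : v.Ge (2 : K) 0 := hv.ge_of_mem m2
  have htor : n • (vcPointEquiv (lreVC E e₁) E).symm Q = 0 := by
    rw [← map_nsmul, hQ, map_zero]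
  rcases Q with _ | ⟨X, Y, hXY⟩
  · exact s58lNs_zero A E
  · obtain ⟨h', e⟩ := vcPointEquiv_symm_some (lreVC E e₁) E hXY
    rw [e] at htor ⊢
    obtain ⟨hx, hy⟩ := hint h' htor
    have hX : v.Le X 0 := (fP_eq_zero_iff hh hXY).mp hf
    have hxe : vcX (lreVC E e₁) X - e₁ = X := by
      simp [vcX, lreVC]
    set x := vcX (lreVC E e₁) X with hx_def
    set y := vcY (lreVC E e₁) X Y with hy_def
    have hψA : 2 * y + E.a₁ * x + E.a₃ ∈ A :=
      add_mem (add_mem (mul_mem m2 hy) (mul_mem ha₁ hx)) ha₃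
    have hφA : 3 * x ^ 2 + 2 * E.a₂ * x + E.a₄ - E.a₁ * y ∈ A :=
      sub_mem (add_mem (add_mem (mul_mem m3 (pow_mem hx 2)) (mul_mem (mul_mem m2 ha₂) hx)) ha₄)
        (mul_mem ha₁ hy)
    rw [s58lNs_some]
    rcases s58l_leg_ns hr h2 h20 (hv.ge_of_mem ha₁) hc hb hh h'.1 (hv.ge_of_mem hψA)
      (hv.ge_of_mem hφA) (by rw [hxe]; exact hX) with h1 | h1
    · exact Or.inl (s58l_val_eq_one_of_is hv h1)
    · exact Or.inr (s58l_val_eq_one_of_is hv h1)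

/-- the count for a chosen ordering of the roots -/
theorem s58l_count_node_aux (hv : LreVal A v) {E : WeierstrassCurve K}
    (ha₁ : E.a₁ ∈ A) (ha₂ : E.a₂ ∈ A) (ha₃ : E.a₃ ∈ A) (ha₄ : E.a₄ ∈ A)
    {e₁ e₂ e₃ : K} (hr : LreRoots E e₁ e₂ e₃)
    (hdisc : E.Δ = 16 * ((e₁ - e₂) * (e₁ - e₃) * (e₂ - e₃)) ^ 2)
    (hΔ0 : E.Δ ≠ 0) (hΔ : v.Gt E.Δ 0) (hc₄ : v.Is E.c₄ 0)
    (hu : v.Gt (4 * (e₁ - e₂)) 0) {n : ℕ} (hn : Odd n)
    (hint : ∀ {x y : K} (h : E.toAffine.Nonsingular x y),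
      n • Affine.Point.some x y h = 0 → x ∈ A ∧ y ∈ A) :
    n ≤ Nat.card {Q : E.toAffine.Point // n • Q = 0 ∧ S58lNs A E Q} := by
  have h20 : (2 : K) ≠ 0 := two_ne_zero
  have h2 : v.Ge (2 : K) 0 := hv.ge_of_mem (s58l_ofNat_mem A 2)
  have hΔi : v.Is E.Δ (2 * (v.ord E.Δ / 2)) := ⟨hΔ0, by ring⟩
  have hh : 0 < v.ord E.Δ / 2 := by
    have := hΔ.resolve_left hΔ0
    linarith
  obtain ⟨hc, hb⟩ := s58l_leg_val hr hdisc h2 h20 hc₄ hΔi hu
  have hLeg := lre_isLeg h20 hr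
  have hΔL : (lreVC E e₁ • E).Δ ≠ 0 := by
    rw [variableChange_Δ, lreVC_uinv]
    simpa using hΔ0
  have hnpos : 0 < n := hn.pos
  have hcardL := lre_natCard_torsion (lreVC E e₁ • E) hΔL hnpos
  have hcount := s58l_count hLeg hc hb hh h2 h20 hn hcardL
  refine hcount.trans ?_
  have hfin0 : Finite {Q : E.toAffine.Point // n • Q = 0} :=
    Nat.finite_of_card_ne_zero (by rw [lre_natCard_torsion E hΔ0 hnpos]; positivity)
  have hfin : Finite {Q : E.toAffine.Point // n • Q = 0 ∧ S58lNs A E Q} :=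
    Finite.of_injective (fun Q => (⟨Q.1, Q.2.1⟩ : {Q : E.toAffine.Point // n • Q = 0}))
      (fun Q Q' hQQ' => Subtype.ext (by
        have := congrArg Subtype.val hQQ'
        exact this))
  refine Nat.card_le_card_of_injective
    (fun Q => (⟨(vcPointEquiv (lreVC E e₁) E).symm Q.1, ?_, ?_⟩ :
      {Q : E.toAffine.Point // n • Q = 0 ∧ S58lNs A E Q})) ?_
  · rw [← map_nsmul, Q.2.1, map_zero]
  · exact s58l_ns_of_fP hv ha₁ ha₂ ha₃ ha₄ hr hc hb hh hint Q.1 Q.2.1 Q.2.2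
  · intro Q Q' hQQ'
    have := congrArg Subtype.val hQQ'
    exact Subtype.ext ((vcPointEquiv (lreVC E e₁) E).symm.injective this)

/-- **multiplicative reduction**: at least `n` of the `n`-torsion points have nonsingular
reduction -/
theorem s58l_count_node (hv : LreVal A v) {E : WeierstrassCurve K}
    (ha₁ : E.a₁ ∈ A) (ha₂ : E.a₂ ∈ A) (ha₃ : E.a₃ ∈ A) (ha₄ : E.a₄ ∈ A)
    (hΔ0 : E.Δ ≠ 0) (hΔ : v.Gt E.Δ 0) (hc₄ : v.Is E.c₄ 0) {n : ℕ} (hn : Odd n)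
    (hint : ∀ {x y : K} (h : E.toAffine.Nonsingular x y),
      n • Affine.Point.some x y h = 0 → x ∈ A ∧ y ∈ A) :
    n ≤ Nat.card {Q : E.toAffine.Point // n • Q = 0 ∧ S58lNs A E Q} := by
  have h20 : (2 : K) ≠ 0 := two_ne_zero
  have h2 : v.Ge (2 : K) 0 := hv.ge_of_mem (s58l_ofNat_mem A 2)
  obtain ⟨e₁, e₂, e₃, hr, hdisc⟩ := lre_exists_roots h20 E
  have hκ : 0 ≤ v.ord (2 : K) := h2.resolve_left h20
  have g256 : v.Ge (256 : K) 0 := (s58l_is_256 (v := v) h20).ge' (by positivity)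
  have hprod : v.Gt ((4 * (e₁ - e₂) * (4 * (e₁ - e₃) * (4 * (e₂ - e₃)))) *
      (4 * (e₁ - e₂) * (4 * (e₁ - e₃) * (4 * (e₂ - e₃))))) 0 := by
    have e : (4 * (e₁ - e₂) * (4 * (e₁ - e₃) * (4 * (e₂ - e₃)))) *
        (4 * (e₁ - e₂) * (4 * (e₁ - e₃) * (4 * (e₂ - e₃)))) = 256 * E.Δ := by
      rw [hdisc]; ring
    rw [e]
    have := g256.mul_gt hΔ
    simpa using this
  have hprod' : v.Gt (4 * (e₁ - e₂) * (4 * (e₁ - e₃) * (4 * (e₂ - e₃)))) 0 := by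
    rcases s58l_gt_of_mul_gt hprod with h | h <;> exact h
  obtain ⟨hb₂, hb₄, hb₆⟩ := hr
  rcases s58l_gt_of_mul_gt hprod' with h12 | h'
  · exact s58l_count_node_aux hv ha₁ ha₂ ha₃ ha₄ ⟨hb₂, hb₄, hb₆⟩ hdisc hΔ0 hΔ hc₄ h12 hn hint
  · rcases s58l_gt_of_mul_gt h' with h13 | h23
    · refine s58l_count_node_aux hv ha₁ ha₂ ha₃ ha₄ (e₁ := e₁) (e₂ := e₃) (e₃ := e₂)
        ⟨by rw [hb₂]; ring, by rw [hb₄]; ring, by rw [hb₆]; ring⟩ (by rw [hdisc]; ring)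
        hΔ0 hΔ hc₄ h13 hn hint
    · refine s58l_count_node_aux hv ha₁ ha₂ ha₃ ha₄ (e₁ := e₂) (e₂ := e₃) (e₃ := e₁)
        ⟨by rw [hb₂]; ring, by rw [hb₄]; ring, by rw [hb₆]; ring⟩ (by rw [hdisc]; ring)
        hΔ0 hΔ hc₄ h23 hn hint

end Node

section Final

local notation "Qb" => AlgebraicClosure ℚ
local notation "GQ" => (AlgebraicClosure ℚ ≃ₐ[ℚ] AlgebraicClosure ℚ)

/-- **multiplicative reduction**: `T₀` has at least `n` elements -/
theorem s58l_card_of_node (W : WeierstrassCurve ℤ) (hΔ : W.Δ ≠ 0) {r n : ℕ} (hr : r.Prime)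
    (hbad : (r : ℤ) ∣ W.Δ) (hc₄ : ¬ (r : ℤ) ∣ W.c₄) (hn : Odd n) (hrn : ¬ r ∣ n)
    (A : ValuationSubring Qb) (hA : A.LiesOverPrime r) : n ≤ (s58lT0 W n A).ncard := by
  obtain ⟨v, hmem, -⟩ := exists_qval_of_liesOver A hr hA
  have hv : LreVal A v := ⟨fun x => hmem x⟩
  obtain ⟨ha₁, ha₂, ha₃, ha₄, ha₆⟩ := s58l_a_mem W A
  have hΔ0 : ((s58E W)⁄Qb).Δ ≠ 0 := by
    rw [s58l_Δ_eq]
    exact_mod_cast hΔ
  have hΔgt : v.Gt ((s58E W)⁄Qb).Δ 0 := by
    rw [s58l_Δ_eq]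
    exact hv.gt_intCast_of_dvd hA hbad
  have hc₄is : v.Is ((s58E W)⁄Qb).c₄ 0 := by
    rw [s58l_c₄_eq]
    exact hv.is_intCast hr hA hc₄
  have hcount := s58l_count_node hv ha₁ ha₂ ha₃ ha₄ hΔ0 hΔgt hc₄is hn
    (fun h hQ => s58l_integral W hΔ hr hrn A hA h hQ)
  have hfin : Finite ↥(s58lT0 W n A) := (s58lT0_finite W hΔ hn.pos A).to_subtype
  rw [← _root_.Nat.card_coe_set_eq]
  refine hcount.trans (Nat.card_le_card_of_injective
    (fun Q => (⟨⟨Q.1, s58l_mem_tors W Q.2.1⟩, Q.2.2⟩ : ↥(s58lT0 W n A))) ?_)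
  intro Q Q' hQQ'
  have h1 := congrArg (fun T : ↥(s58lT0 W n A) => ((T : S58Tors W n) : ((s58E W)⁄Qb).Point)) hQQ'
  exact Subtype.ext h1

/-- **S58-L, final.**  At a semistable prime `r ∤ n` (`n` odd) the inertia group at any place
over `r` fixes pointwise a set of at least `n` points of `W[n]`. -/
theorem s58l_fixed (W : WeierstrassCurve ℤ) (hΔ : W.Δ ≠ 0) {r n : ℕ} (hr : r.Prime)
    (hss : (r : ℤ) ∣ W.Δ → ¬ (r : ℤ) ∣ W.c₄) (hn : Odd n) (hrn : ¬ r ∣ n)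
    (P : ValuationSubring Qb) (hP : P.LiesOverPrime r) :
    ∃ T₀ : Set (S58Tors W n), T₀.Finite ∧ n ≤ T₀.ncard ∧
      ∀ σ ∈ P.inertiaSubgroupIn ℚ, ∀ Q ∈ T₀, σ • Q = Q := by
  refine ⟨s58lT0 W n P, s58lT0_finite W hΔ hn.pos P, ?_,
    fun σ hσ Q hQ => s58lT0_fixed W hΔ hr hrn P hP hσ hQ⟩
  by_cases hbad : (r : ℤ) ∣ W.Δ
  · exact s58l_card_of_node W hΔ hr hbad (hss hbad) hn hrn P hP
  · exact s58l_card_of_good W hΔ hr hbad hn.pos hrn P hP

end Final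

end Fermat.Agent.S58
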