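/-
S58 (helper4), modular-forms side, file 2: `r`-stabilisation of a weak eigenform and raising the
level by a squarefree number prime to the level.

* `S58Eigen N a` : the four conditions of the Prelude's `CuspForm.IsNormalizedEigenform` for a
  sequence `a : ℕ → ℂ` at level `N`.
* `S58Eigen.stabilise` : `a n - β a (n / r)` is again an eigen-sequence, of level `M r`, if `r ∤ M`
  and `β² - a_r β + r = 0`.
* `s58v_stabilise`, `s58v_raise`.
-/
import Fermat.Agent.Lib.S58.Level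

set_option autoImplicit false
set_option linter.style.haveILetI false

noncomputable section

namespace Fermat.Agent.S58

open CongruenceSubgroup ModularFormClass CuspForm

/-- the conditions of `CuspForm.IsNormalizedEigenform` for a sequence -/
structure S58Eigen (N : ℕ) (a : ℕ → ℂ) : Prop where
  one : a 1 = 1
  mul : ∀ m n : ℕ, m.Coprime n → a (m * n) = a m * a n
  good : ∀ p r : ℕ, p.Prime → ¬ p ∣ N → a (p ^ (r + 2)) = a p * a (p ^ (r + 1)) - p * a (p ^ r)
  bad : ∀ p r : ℕ, p.Prime → p ∣ N → a (p ^ (r + 2)) = a p * a (p ^ (r + 1))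

theorem s58Eigen_iff {N : ℕ} (f : CuspForm (Gamma0 N) 2) :
    f.IsNormalizedEigenform ↔ S58Eigen N (fun n => qCoeff f n) :=
  ⟨fun h => ⟨h.1, h.2, h.3, h.4⟩, fun h => ⟨h.1, h.2, h.3, h.4⟩⟩

/-- an eigen-sequence only depends on the set of primes dividing the level -/
theorem S58Eigen.of_primes {N N' : ℕ} {a : ℕ → ℂ} (h : S58Eigen N a)
    (hNN' : ∀ p : ℕ, p.Prime → (p ∣ N' ↔ p ∣ N)) : S58Eigen N' a :=
  ⟨h.one, h.mul, fun p r hp hpN => h.good p r hp (fun hd => hpN ((hNN' p hp).mpr hd)),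
    fun p r hp hpN => h.bad p r hp ((hNN' p hp).mp hpN)⟩

/-- the stabilised sequence -/
def s58Stab (a : ℕ → ℂ) (r : ℕ) (β : ℂ) : ℕ → ℂ :=
  fun n => a n - β * (if r ∣ n then a (n / r) else 0)

theorem s58Stab_of_not_dvd (a : ℕ → ℂ) {r : ℕ} (β : ℂ) {n : ℕ} (h : ¬ r ∣ n) :
    s58Stab a r β n = a n := by
  simp [s58Stab, h]

theorem s58Stab_of_dvd (a : ℕ → ℂ) {r : ℕ} (β : ℂ) {n : ℕ} (h : r ∣ n) :
    s58Stab a r β n = a n - β * a (n / r) := by
  simp [s58Stab, h]

/-- **stabilisation of an eigen-sequence** -/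
theorem S58Eigen.stabilise {M : ℕ} {a : ℕ → ℂ} (h : S58Eigen M a) {r : ℕ} (hr : r.Prime)
    (hrM : ¬ r ∣ M) {β : ℂ} (hβ : β ^ 2 - a r * β + r = 0) :
    S58Eigen (M * r) (s58Stab a r β) := by
  have hr1 : ¬ r ∣ 1 := fun hd => hr.one_lt.ne' (Nat.dvd_one.mp hd)
  have hpow : ∀ {p : ℕ}, p.Prime → p ≠ r → ∀ j : ℕ, ¬ r ∣ p ^ j := by
    intro p hp hpr j hd
    exact hpr ((Nat.prime_dvd_prime_iff_eq hr hp).mp (hr.dvd_of_dvd_pow hd)).symm
  have hdivpow : ∀ j : ℕ, r ^ (j + 1) / r = r ^ j := by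
    intro j
    rw [pow_succ, Nat.mul_div_cancel _ hr.pos]
  have hstab_r : ∀ j : ℕ, s58Stab a r β (r ^ (j + 1)) = a (r ^ (j + 1)) - β * a (r ^ j) := by
    intro j
    rw [s58Stab_of_dvd a β (dvd_pow_self r (Nat.succ_ne_zero j)), hdivpow]
  refine ⟨?_, ?_, ?_, ?_⟩
  · rw [s58Stab_of_not_dvd a β hr1, h.one]
  · intro m n hmn
    by_cases hm : r ∣ m
    · have hn : ¬ r ∣ n := fun hn => hr.one_lt.ne' (Nat.eq_one_of_dvd_coprimes hmn hm hn)
      obtain ⟨m', rfl⟩ := hm
      have hm'n : m'.Coprime n := Nat.Coprime.coprime_mul_left hmn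
      have e1 : r * m' * n / r = m' * n := by
        rw [mul_assoc, Nat.mul_div_cancel_left _ hr.pos]
      rw [s58Stab_of_dvd a β (Dvd.dvd.mul_right (dvd_mul_right r m') n),
        s58Stab_of_dvd a β (dvd_mul_right r m'), s58Stab_of_not_dvd a β hn,
        Nat.mul_div_cancel_left _ hr.pos, e1, h.mul _ _ hmn, h.mul _ _ hm'n]
      ring
    · by_cases hn : r ∣ n
      · obtain ⟨n', rfl⟩ := hn
        have hmn' : m.Coprime n' := Nat.Coprime.coprime_mul_left_right hmn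
        have e1 : m * (r * n') / r = m * n' := by
          rw [mul_left_comm, Nat.mul_div_cancel_left _ hr.pos]
        rw [s58Stab_of_not_dvd a β hm, s58Stab_of_dvd a β (dvd_mul_right r n'),
          Nat.mul_div_cancel_left _ hr.pos,
          s58Stab_of_dvd a β (Dvd.dvd.mul_left (dvd_mul_right r n') m),
          h.mul _ _ hmn, e1, h.mul _ _ hmn']
        ring
      · have hmn' : ¬ r ∣ m * n := fun hd => (hr.dvd_mul.mp hd).elim hm hn
        rw [s58Stab_of_not_dvd a β hm, s58Stab_of_not_dvd a β hn, s58Stab_of_not_dvd a β hmn',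
          h.mul _ _ hmn]
  · intro p j hp hpN
    have hpr : p ≠ r := fun e => hpN (e ▸ Dvd.intro_left M rfl)
    have hpM : ¬ p ∣ M := fun hd => hpN (Dvd.dvd.mul_right hd r)
    have h1 : ¬ r ∣ p := by simpa using hpow hp hpr 1
    rw [s58Stab_of_not_dvd a β (hpow hp hpr _), s58Stab_of_not_dvd a β (hpow hp hpr _),
      s58Stab_of_not_dvd a β (hpow hp hpr _), s58Stab_of_not_dvd a β h1, h.good p j hp hpM]
  · intro p j hp hpN
    by_cases hpr : p = r
    · subst hpr
      have h1 : s58Stab a p β p = a p - β := by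
        have := hstab_r 0
        simpa [h.one] using this
      rw [hstab_r (j + 1), hstab_r j, h1, h.good p j hp hrM]
      linear_combination (-(a (p ^ j))) * hβ
    · have hpM : p ∣ M := (hp.dvd_mul.mp hpN).resolve_right
        (fun hd => hpr ((Nat.prime_dvd_prime_iff_eq hp hr).mp hd))
      have h1 : ¬ r ∣ p := by simpa using hpow hp hpr 1
      rw [s58Stab_of_not_dvd a β (hpow hp hpr _), s58Stab_of_not_dvd a β (hpow hp hpr _),
        s58Stab_of_not_dvd a β h1, h.bad p j hp hpM]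

/-! ### Cusp forms -/

/-- the level inclusion preserves weak eigenforms if the levels have the same prime divisors -/
theorem s58v_incl_isNormalizedEigenform {M M' : ℕ} [NeZero M] [NeZero M'] (h : M ∣ M')
    (hrad : ∀ p : ℕ, p.Prime → p ∣ M' → p ∣ M) {f : CuspForm (Gamma0 M) 2}
    (hf : f.IsNormalizedEigenform) : (s58vIncl 2 h f).IsNormalizedEigenform :=
  (s58Eigen_iff _).mpr (((s58Eigen_iff f).mp hf).of_primes
    (fun p hp => ⟨hrad p hp, fun hd => hd.trans h⟩))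

/-- **`r`-stabilisation**: `g' = g - β V_r g` with `β` a root of `X² - a_r X + r` -/
theorem s58v_stabilise {M r : ℕ} [NeZero M] (hr : r.Prime) (hrM : ¬ r ∣ M)
    {g : CuspForm (Gamma0 M) 2} (hg : g.IsNormalizedEigenform) :
    ∃ g' : CuspForm (Gamma0 (M * r)) 2, g'.IsNormalizedEigenform ∧
      ∀ n : ℕ, ¬ r ∣ n → qCoeff g' n = qCoeff g n := by
  haveI : NeZero r := ⟨hr.ne_zero⟩
  obtain ⟨β, hβ⟩ : ∃ β : ℂ, β ^ 2 - qCoeff g r * β + r = 0 := by
    obtain ⟨β, hβ⟩ := IsAlgClosed.exists_root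
      (Polynomial.X ^ 2 - Polynomial.C (qCoeff g r) * Polynomial.X + Polynomial.C (r : ℂ))
      (by
        have h1 : (Polynomial.X ^ 2 - Polynomial.C (qCoeff g r) * Polynomial.X +
            Polynomial.C (r : ℂ)).degree = 2 := by
          compute_degree!
        rw [h1]
        decide)
    refine ⟨β, ?_⟩
    simpa using hβ
  have hcoeff : ∀ n : ℕ, qCoeff (⇑(s58vIncl 2 (Dvd.intro r rfl : M ∣ M * r) g - β • s58vV 2 M r g)) n =
      s58Stab (fun n => qCoeff g n) r β n := by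
    intro n
    rw [s58_qCoeff_sub, s58_qCoeff_smul, qCoeff_s58vIncl, qCoeff_s58vV]
    rfl
  refine ⟨s58vIncl 2 (Dvd.intro r rfl : M ∣ M * r) g - β • s58vV 2 M r g, ?_, ?_⟩
  · rw [s58Eigen_iff]
    have := ((s58Eigen_iff g).mp hg).stabilise hr hrM hβ
    convert this using 2
    exact hcoeff _
  · intro n hn
    rw [hcoeff, s58Stab_of_not_dvd _ β hn]

/-- raising the level by a squarefree number prime to the level -/
theorem s58v_raise_aux (d : ℕ) : ∀ (M M' : ℕ), M' = M * d → M ≠ 0 → Squarefree d → d.Coprime M →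
    ∀ g : CuspForm (Gamma0 M) 2, g.IsNormalizedEigenform →
      ∃ g'' : CuspForm (Gamma0 M') 2, g''.IsNormalizedEigenform ∧
        ∀ ℓ : ℕ, ℓ.Prime → ¬ ℓ ∣ d → qCoeff g'' ℓ = qCoeff g ℓ := by
  induction d using induction_on_primes with
  | zero =>
    intro M M' _ _ hsq
    exact absurd hsq not_squarefree_zero
  | one =>
    intro M M' hM' hM _ _ g hg
    rw [mul_one] at hM'
    subst hM'
    exact ⟨g, hg, fun _ _ _ => rfl⟩
  | prime_mul p d hp ih =>
    intro M M' hM' hM hsq hcop g hg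
    haveI : NeZero M := ⟨hM⟩
    have hpd : ¬ p ∣ d := fun hd => by
      have := hsq p (mul_dvd_mul_left p hd)
      exact hp.one_lt.ne' (Nat.isUnit_iff.mp this)
    have hsqd : Squarefree d := hsq.of_mul_right
    have hcopd : d.Coprime M := Nat.Coprime.coprime_mul_left hcop
    have hpM : ¬ p ∣ M := fun hd =>
      hp.one_lt.ne' (Nat.eq_one_of_dvd_coprimes hcop (dvd_mul_right p d) hd)
    obtain ⟨g₁, hg₁, h₁⟩ := ih M (M * d) rfl hM hsqd hcopd g hg
    have hMd : M * d ≠ 0 := mul_ne_zero hM hsqd.ne_zero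
    haveI : NeZero (M * d) := ⟨hMd⟩
    have hpMd : ¬ p ∣ M * d := fun hd => (hp.dvd_mul.mp hd).elim hpM hpd
    obtain ⟨g₂, hg₂, h₂⟩ := s58v_stabilise hp hpMd hg₁
    have hM'' : M' = M * d * p := by rw [hM']; ring
    subst hM''
    refine ⟨g₂, hg₂, fun ℓ hℓ hℓd => ?_⟩
    have hℓp : ¬ p ∣ ℓ := fun hd =>
      hℓd (((Nat.prime_dvd_prime_iff_eq hp hℓ).mp hd) ▸ dvd_mul_right p d)
    have hℓd' : ¬ ℓ ∣ d := fun hd => hℓd (Dvd.dvd.mul_left hd p)
    rw [h₂ ℓ hℓp, h₁ ℓ hℓ hℓd']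

/-- **raising the level** from `M` to `M'`, `M'/M` squarefree and prime to `M` -/
theorem s58v_raise {M M' : ℕ} (hM' : M' ≠ 0) (hMM' : M ∣ M') (hsq : Squarefree (M' / M))
    (hcop : (M' / M).Coprime M) {g : CuspForm (Gamma0 M) 2} (hg : g.IsNormalizedEigenform) :
    ∃ g'' : CuspForm (Gamma0 M') 2, g''.IsNormalizedEigenform ∧
      ∀ ℓ : ℕ, ℓ.Prime → ¬ ℓ ∣ M' / M → qCoeff g'' ℓ = qCoeff g ℓ :=
  s58v_raise_aux (M' / M) M M' (Nat.mul_div_cancel' hMM').symm
    (fun h0 => hM' (by rw [h0] at hMM'; exact zero_dvd_iff.mp hMM')) hsq hcop g hg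

end Fermat.Agent.S58
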