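/-
S58-L4 (helper8): **rank-two linear algebra over `ZMod (p ^ m)`**.

* `s58l_sq_eq_zero_of_card_ann` : if the annihilator of `δ ∈ ZMod (p ^ m)` has at least
  `√(p ^ m)` elements then `δ ^ 2 = 0`;
* `s58l_smul_eq_zero_of_fixed` : `det (f - 1) • v = 0` for a fixed vector `v` of an endomorphism of
  a free module of rank `2` (Cayley–Hamilton);
* `s58l_det_sq` : an endomorphism `f` of a free `ZMod (p ^ m)`-module of rank `2` with at least
  `p ^ m` fixed vectors has `det (f - 1) ^ 2 = 0`.
-/
import Mathlib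

set_option autoImplicit false
set_option linter.style.haveILetI false

namespace Fermat.Agent.S58

open Polynomial

/-- the annihilator of `δ` in `ZMod q` has at most `gcd (δ.val, q)` elements -/
theorem s58l_card_ann_le {q : ℕ} [NeZero q] (δ : ZMod q) :
    Nat.card {x : ZMod q // δ * x = 0} ≤ Nat.gcd δ.val q := by
  classical
  have hq : 0 < q := Nat.pos_of_ne_zero (NeZero.ne q)
  set D := δ.val with hD
  set g := Nat.gcd D q with hg
  have hgpos : 0 < g := Nat.gcd_pos_of_pos_right D hq
  obtain ⟨q', hq'⟩ : g ∣ q := Nat.gcd_dvd_right D q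
  obtain ⟨D', hD'⟩ : g ∣ D := Nat.gcd_dvd_left D q
  have hq'pos : 0 < q' := by
    rcases Nat.eq_zero_or_pos q' with h | h
    · rw [h, mul_zero] at hq'; omega
    · exact h
  have hcop : Nat.Coprime D' q' := by
    have := Nat.coprime_div_gcd_div_gcd (m := D) (n := q) hgpos
    rwa [← hg, show D / g = D' by rw [hD', Nat.mul_div_cancel_left _ hgpos],
      show q / g = q' by rw [hq', Nat.mul_div_cancel_left _ hgpos]] at this
  have hdvd : ∀ x : ZMod q, δ * x = 0 → q' ∣ x.val := by
    intro x hx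
    have h1 : ((D * x.val : ℕ) : ZMod q) = 0 := by
      rw [Nat.cast_mul, hD, ZMod.natCast_zmod_val, ZMod.natCast_zmod_val, hx]
    rw [ZMod.natCast_eq_zero_iff] at h1
    have hgq : g * q' ∣ q := ⟨1, by rw [mul_one]; exact hq'⟩
    have h1' : g * q' ∣ g * (D' * x.val) := by
      have := hgq.trans h1
      rwa [hD', mul_assoc] at this
    have h2 : q' ∣ D' * x.val := Nat.dvd_of_mul_dvd_mul_left hgpos h1'
    exact (hcop.symm).dvd_of_dvd_mul_left h2
  have hinj : Function.Injective (fun x : {x : ZMod q // δ * x = 0} =>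
      (⟨x.1.val / q', by
        have h1 : x.1.val < q := ZMod.val_lt x.1
        exact Nat.div_lt_of_lt_mul (lt_of_lt_of_eq h1 (hq'.trans (mul_comm g q')))⟩ : Fin g)) := by
    intro x y e
    have e1 : x.1.val / q' = y.1.val / q' := congrArg Fin.val e
    have hx := Nat.div_mul_cancel (hdvd x.1 x.2)
    have hy := Nat.div_mul_cancel (hdvd y.1 y.2)
    have e2 : x.1.val = y.1.val := by rw [← hx, ← hy, e1]
    exact Subtype.ext (ZMod.val_injective q e2)
  have := Nat.card_le_card_of_injective _ hinj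
  rwa [Nat.card_fin] at this

/-- a large annihilator forces `δ ^ 2 = 0` -/
theorem s58l_sq_eq_zero_of_card_ann {p m : ℕ} (hp : p.Prime) (δ : ZMod (p ^ m))
    (h : p ^ m ≤ Nat.card {x : ZMod (p ^ m) // δ * x = 0} ^ 2) : δ ^ 2 = 0 := by
  haveI : NeZero (p ^ m) := ⟨pow_ne_zero m hp.ne_zero⟩
  have h1 := s58l_card_ann_le δ
  set g := Nat.gcd δ.val (p ^ m) with hg
  obtain ⟨c, hc, hgc⟩ := (Nat.dvd_prime_pow hp).1 (Nat.gcd_dvd_right δ.val (p ^ m))
  have h2 : p ^ m ≤ g ^ 2 := le_trans h (Nat.pow_le_pow_left h1 2)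
  rw [hg, hgc, ← pow_mul] at h2
  have h3 : m ≤ c * 2 := (Nat.pow_le_pow_iff_right hp.one_lt).1 h2
  have h4 : p ^ m ∣ δ.val ^ 2 := by
    have h5 : g ^ 2 ∣ δ.val ^ 2 := pow_dvd_pow_of_dvd (Nat.gcd_dvd_left δ.val (p ^ m)) 2
    rw [hg, hgc, ← pow_mul] at h5
    exact dvd_trans (pow_dvd_pow p h3) h5
  have h6 : ((δ.val ^ 2 : ℕ) : ZMod (p ^ m)) = 0 := (ZMod.natCast_eq_zero_iff _ _).2 h4
  rwa [Nat.cast_pow, ZMod.natCast_zmod_val] at h6

section Rank2

variable {R : Type*} [CommRing R] {V : Type*} [AddCommGroup V] [Module R V]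

/-- Cayley–Hamilton in rank `2` -/
theorem s58l_cayley [Module.Free R V] [Module.Finite R V] [Nontrivial R]
    (hV : Module.finrank R V = 2) (N : Module.End R V) (v : V) :
    N (N v) - LinearMap.trace R V N • N v + LinearMap.det N • v = 0 := by
  classical
  let b : Module.Basis (Fin 2) R V := Module.finBasisOfFinrankEq R V hV
  have hcp : LinearMap.charpoly N = X ^ 2 - C (LinearMap.trace R V N) * X +
      C (LinearMap.det N) := by
    rw [← LinearMap.charpoly_toMatrix N b, Matrix.charpoly_fin_two,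
      LinearMap.trace_eq_matrix_trace R b N, ← LinearMap.det_toMatrix b N]
  have h := LinearMap.aeval_self_charpoly N
  rw [hcp] at h
  have h2 := congrArg (fun g : Module.End R V => g v) h
  simp only [map_add, map_sub, map_mul, aeval_X, aeval_C, LinearMap.add_apply,
    LinearMap.sub_apply, LinearMap.zero_apply, Module.End.mul_apply, pow_two,
    Module.algebraMap_end_apply] at h2
  exact h2

/-- the determinant of `f - 1` kills the fixed vectors of `f` -/
theorem s58l_smul_eq_zero_of_fixed [Module.Free R V] [Module.Finite R V] [Nontrivial R]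
    (hV : Module.finrank R V = 2) (f : Module.End R V) {v : V} (hv : f v = v) :
    LinearMap.det (f - 1) • v = 0 := by
  have h := s58l_cayley hV (f - 1) v
  have h0 : (f - 1) v = 0 := by
    rw [LinearMap.sub_apply, Module.End.one_apply, hv, sub_self]
  rwa [h0, map_zero, smul_zero, sub_zero, zero_add] at h

end Rank2

/-- **many fixed vectors force `det (f - 1) ^ 2 = 0`** -/
theorem s58l_det_sq {p m : ℕ} (hp : p.Prime) {V : Type*} [AddCommGroup V]
    [Module (ZMod (p ^ m)) V] [Module.Free (ZMod (p ^ m)) V] [Module.Finite (ZMod (p ^ m)) V]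
    (hV : Module.finrank (ZMod (p ^ m)) V = 2) (f : Module.End (ZMod (p ^ m)) V)
    (hfix : p ^ m ≤ Nat.card {v : V // f v = v}) : LinearMap.det (f - 1) ^ 2 = 0 := by
  classical
  rcases Nat.eq_zero_or_pos m with rfl | hm
  · haveI : Subsingleton (ZMod (p ^ 0)) := by
      rw [pow_zero]; infer_instance
    exact Subsingleton.elim _ _
  haveI : Fact (1 < p ^ m) := ⟨Nat.one_lt_pow hm.ne' hp.one_lt⟩
  haveI : NeZero (p ^ m) := ⟨pow_ne_zero m hp.ne_zero⟩
  set δ := LinearMap.det (f - 1) with hδ
  let b : Module.Basis (Fin 2) (ZMod (p ^ m)) V := Module.finBasisOfFinrankEq _ V hV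
  haveI : Finite V := Module.finite_of_finite (ZMod (p ^ m))
  apply s58l_sq_eq_zero_of_card_ann hp δ
  refine le_trans hfix ?_
  -- fixed vectors are killed by `δ`
  have h1 : Nat.card {v : V // f v = v} ≤ Nat.card {v : V // δ • v = 0} :=
    Nat.card_le_card_of_injective
      (fun v => (⟨v.1, s58l_smul_eq_zero_of_fixed hV f v.2⟩ : {v : V // δ • v = 0}))
      (fun v w e => Subtype.ext (Subtype.mk.injEq _ _ _ _ ▸ e : v.1 = w.1))
  refine le_trans h1 ?_
  -- coordinates
  have h2 : Nat.card {v : V // δ • v = 0} ≤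
      Nat.card (Fin 2 → {x : ZMod (p ^ m) // δ * x = 0}) :=
    Nat.card_le_card_of_injective
      (fun v i => (⟨b.repr v.1 i, by
        have h3 : b.repr (δ • v.1) i = b.repr 0 i := by rw [v.2]
        rwa [map_smul, Finsupp.smul_apply, smul_eq_mul, map_zero, Finsupp.zero_apply] at h3⟩ :
          {x : ZMod (p ^ m) // δ * x = 0}))
      (fun v w e => by
        apply Subtype.ext
        apply b.repr.injective
        ext i
        have := congrFun e i
        exact (Subtype.mk.injEq _ _ _ _ ▸ this))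
  refine le_trans h2 (le_of_eq ?_)
  rw [Nat.card_fun, Nat.card_fin]

end Fermat.Agent.S58
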