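/-
S58 (helper4), modular-forms side, file 3: extraction of a newform (in the Prelude's sense) from a
weak eigenform, and the final wiring of S58 on the modular-forms side.
-/
import Fermat.Agent.Lib.S58.Stabilise
import Fermat.Prelude.Def_CuspForm_Newforms
import Fermat.Prelude.Def_WeierstrassCurve_ConductorLevel

set_option autoImplicit false
set_option linter.style.haveILetI false

noncomputable section

namespace Fermat.Agent.S58

open CongruenceSubgroup ModularFormClass CuspForm

/-- **newform extraction**: the eigensystem of a weak eigenform of level `N` away from `N` occurs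
for a newform of some level `M ∣ N` -/
theorem s58n_exists_newform {N : ℕ} (hN : N ≠ 0) {f : CuspForm (Gamma0 N) 2}
    (hf : f.IsNormalizedEigenform) :
    ∃ (M : ℕ) (g : CuspForm (Gamma0 M) 2), M ∣ N ∧ g.IsNewform ∧
      ∀ ℓ : ℕ, ℓ.Prime → ¬ ℓ ∣ N → qCoeff g ℓ = qCoeff f ℓ := by
  classical
  have hex : ∃ M : ℕ, M ∣ N ∧ GoodEigensystemOccursAt f M :=
    ⟨N, dvd_rfl, GoodEigensystemOccursAt.refl hf⟩
  obtain ⟨hM₀N, g, hg, hgf⟩ := Nat.find_spec hex
  refine ⟨Nat.find hex, g, hM₀N, ⟨hg, fun M' hM' hne hocc => ?_⟩, hgf⟩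
  obtain ⟨g', hg', hg'g⟩ := hocc
  have hM₀ : Nat.find hex ≠ 0 := fun h0 => hN (by rw [h0] at hM₀N; exact zero_dvd_iff.mp hM₀N)
  have hlt : M' < Nat.find hex :=
    lt_of_le_of_ne (Nat.le_of_dvd (Nat.pos_of_ne_zero hM₀) hM') hne
  refine Nat.find_min hex hlt ⟨hM'.trans hM₀N, g', hg', fun ℓ hℓ hℓN => ?_⟩
  rw [hg'g ℓ hℓ (fun hd => hℓN (hd.trans hM₀N)), hgf ℓ hℓ hℓN]

/-- **the final wiring of S58 on the modular-forms side**: a weak eigenform of a level `M`
dividing the conductor level whose `a_ℓ` agree with those of `W` at all good `ℓ ∤ M` makes `W`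
modular of its conductor level -/
theorem s58v_final (W : WeierstrassCurve ℤ) {M : ℕ} (hM : M ∣ W.conductorLevel)
    {g : CuspForm (Gamma0 M) 2} (hg : g.IsNormalizedEigenform)
    (hall : ∀ ℓ : ℕ, ℓ.Prime → W.IsGoodPrimeFor ℓ → ¬ ℓ ∣ M →
      qCoeff g ℓ = (W.apOfModel ℓ : ℂ)) :
    W.IsModularModelOfLevel W.conductorLevel := by
  have hC : W.conductorLevel ≠ 0 := W.conductorLevel_pos.ne'
  have hsqC : Squarefree W.conductorLevel := W.squarefree_conductorLevel
  have hmul : M * (W.conductorLevel / M) = W.conductorLevel := Nat.mul_div_cancel' hM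
  have hsq : Squarefree (W.conductorLevel / M) := by
    rw [← hmul] at hsqC
    exact hsqC.of_mul_right
  have hcop : (W.conductorLevel / M).Coprime M := by
    rw [← hmul] at hsqC
    exact (Nat.coprime_of_squarefree_mul hsqC).symm
  obtain ⟨g'', hg'', h''⟩ := s58v_raise hC hM hsq hcop hg
  refine ⟨g'', hg'', fun p hp hgood hpC => ?_⟩
  have hpd : ¬ p ∣ W.conductorLevel / M := fun hd =>
    hpC (hmul ▸ Dvd.dvd.mul_left hd M)
  have hpM : ¬ p ∣ M := fun hd => hpC (hd.trans hM)
  rw [h'' p hp hpd, hall p hp hgood hpM]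

end Fermat.Agent.S58
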