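/-
S58-R (helper5), closing line: **`s58r_hres`** — the hypothesis `hres` of S36 for a `p`-adic
representation matching `W` (`p` odd, `W[p]` irreducible), with helper7's package D
(`s58d_exists_involution`, `s58d_det_involution`) plugged into `s58r_hres_of_inv`.
-/
import Fermat.Agent.Lib.S58.Residual
import Fermat.Agent.Lib.S58.Det
import Fermat.Agent.Lib.S58.DetInv

set_option autoImplicit false

namespace Fermat.Agent.S58

open IsLocalRing

/-- **`hres` of S36**: a `p`-adic representation matching `W` has absolutely irreducible and odd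
residual representation (`p` odd, `W[p]` irreducible) -/
theorem s58r_hres (W : WeierstrassCurve ℤ) (hΔ : W.Δ ≠ 0) (het : S58ET W) {p : ℕ}
    [hp : Fact p.Prime] (hp2 : p ≠ 2) (hirr : W.ModRepIsIrreducible p) {A : Type} [CommRing A]
    [IsLocalRing A] (hpA : (p : A) ∈ maximalIdeal A) (ρ : GaloisRepAdic A)
    (hm : S58Match W p ρ) : ρ.residual.IsAbsolutelyIrreducible ∧ ρ.residual.IsOdd :=
  s58r_hres_of_inv W hpA ρ hΔ hp2 hirr hm s58d_exists_involution
    (s58d_det_involution W hΔ het hp.out hp2)

end Fermat.Agent.S58
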