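/-
S58-A leaf (helper5): **unipotence on inertia** of a `p`-adic representation matching `W`.

* `s58a_det_sub_one` : `det (f - 1) = det f - tr f + 1` in rank `2`;
* `s58a_intCast_mem` : an integer vanishing in `ZMod n` lies in the ideal `(n)` of any ring;
* **`s58a_unipotent`** : `S58Match W p ρ`, `r ≠ p` prime, and "the inertia groups at `r` fix at least
  `p ^ m` points of `W[p ^ m]` for every `m`" (package L, shape of `s58l_fixed`) give
  `ρ.IsUnipotentOnInertiaAt r`.  [(D) `s58d_det_inertia`: `det (σ | W[p^m]) = 1`; (L4) `s58l_det_sq`: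
  `det (σ - 1)² = (2 - tr σ)² = 0` in `ZMod (p^m)`; Match: `(tr ρ σ - 2)² ∈ (p^m)`,
  `det ρ σ - 1 ∈ (p^m)` for all `m`; Krull `s58m_eq_zero_of_forall_mem`.]
-/
import Mathlib
import Fermat.Agent.Lib.S58.Defs
import Fermat.Agent.Lib.S58.Compare
import Fermat.Agent.Lib.S58.Match
import Fermat.Agent.Lib.S58.Det
import Fermat.Agent.Lib.S58.LocalLin

set_option autoImplicit false
set_option linter.unusedSectionVars false
set_option linter.unusedVariables false
set_option linter.style.haveILetI false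

open Module IsLocalRing Polynomial

namespace Fermat.Agent.S58

local notation "Qb" => AlgebraicClosure ℚ
local notation "GQ" => (AlgebraicClosure ℚ ≃ₐ[ℚ] AlgebraicClosure ℚ)

section Rank2

variable {R : Type*} [CommRing R] {V : Type*} [AddCommGroup V] [Module R V]

/-- `det (f - 1) = det f - tr f + 1` in rank `2` -/
theorem s58a_det_sub_one [Module.Free R V] [Module.Finite R V] [Nontrivial R]
    (hV : finrank R V = 2) (f : Module.End R V) :
    LinearMap.det (f - 1) = LinearMap.det f - LinearMap.trace R V f + 1 := by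
  classical
  let b : Basis (Fin 2) R V := Module.finBasisOfFinrankEq R V hV
  rw [← LinearMap.det_toMatrix b (f - 1), ← LinearMap.det_toMatrix b f,
    LinearMap.trace_eq_matrix_trace R b f, map_sub, LinearMap.toMatrix_one, Matrix.det_fin_two,
    Matrix.det_fin_two, Matrix.trace_fin_two]
  simp only [Matrix.sub_apply, Matrix.one_apply_eq, Matrix.one_apply_ne, ne_eq,
    Fin.isValue, zero_ne_one, one_ne_zero, not_false_eq_true, sub_zero]
  ring

end Rank2

/-- an integer whose class in `ZMod n` vanishes lies in the ideal `(n)` of any ring -/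
theorem s58a_intCast_mem {A : Type*} [CommRing A] {n : ℕ} {x : ℤ} (hx : ((x : ℤ) : ZMod n) = 0) :
    (x : A) ∈ Ideal.span {((n : ℕ) : A)} := by
  obtain ⟨y, rfl⟩ := (ZMod.intCast_zmod_eq_zero_iff_dvd x n).mp hx
  rw [Ideal.mem_span_singleton]
  refine ⟨(y : A), ?_⟩
  push_cast
  ring

/-- **unipotence on inertia at `r ≠ p`** of a `p`-adic representation matching `W`, given that at
every level `p ^ m` the inertia groups at `r` fix at least `p ^ m` points of `W[p ^ m]` (package L,
in the shape of `s58l_fixed`) -/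
theorem s58a_unipotent (W : WeierstrassCurve ℤ) (hΔ : W.Δ ≠ 0) (het : S58ET W) {p : ℕ}
    (hp : p.Prime) {A : Type} [CommRing A] [IsDomain A] [IsDiscreteValuationRing A]
    (hpA : (p : A) ∈ maximalIdeal A) (ρ : GaloisRepAdic A) (hm : S58Match W p ρ) {r : ℕ}
    (hr : r.Prime) (hrp : r ≠ p)
    (hL : ∀ (m : ℕ) (P : ValuationSubring Qb), P.LiesOverPrime r →
      ∃ T₀ : Set (S58Tors W (p ^ m)), T₀.Finite ∧ p ^ m ≤ T₀.ncard ∧
        ∀ σ ∈ P.inertiaSubgroupIn ℚ, ∀ Q ∈ T₀, σ • Q = Q) :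
    ρ.IsUnipotentOnInertiaAt r := by
  intro P hP σ hσ
  have key : ∀ m : ℕ,
      (LinearMap.trace A ρ.V (ρ.ρ σ) - 2) ^ 2 ∈ Ideal.span {((p ^ m : ℕ) : A)} ∧
      LinearMap.det (ρ.ρ σ) - 1 ∈ Ideal.span {((p ^ m : ℕ) : A)} := by
    intro m
    rcases Nat.eq_zero_or_pos m with rfl | hmpos
    · rw [pow_zero, Nat.cast_one, Ideal.span_singleton_one]
      exact ⟨trivial, trivial⟩
    obtain ⟨t, d, ht, hd, htA, hdA⟩ := hm σ m (p ^ m) rfl
    obtain ⟨hfree, hfin, hrank⟩ := s58m_free W hΔ hp (rfl : p ^ m = p ^ m)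
    haveI := hfree
    haveI := hfin
    have hV := hrank hmpos.ne'
    haveI : Fact (1 < p ^ m) := ⟨Nat.one_lt_pow hmpos.ne' hp.one_lt⟩
    have hdet1 := s58d_det_inertia W hΔ het hp (rfl : p ^ m = p ^ m) hr hrp P hP σ hσ
    obtain ⟨T₀, hT₀fin, hT₀card, hT₀fix⟩ := hL m P hP
    haveI : Finite (S58Tors W (p ^ m)) := s58m_finite W hΔ (pow_pos hp.pos m)
    have hfix : p ^ m ≤ Nat.card {Q : S58Tors W (p ^ m) // s58Gal W (p ^ m) σ Q = Q} := by
      refine le_trans hT₀card ?_
      rw [← Nat.card_coe_set_eq]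
      exact Nat.card_le_card_of_injective
        (fun Q : T₀ => (⟨Q.1, hT₀fix σ hσ Q.1 Q.2⟩ :
          {Q : S58Tors W (p ^ m) // s58Gal W (p ^ m) σ Q = Q}))
        (fun a b e => Subtype.ext (congrArg (fun x => x.1) e))
    have hsq := s58l_det_sq hp hV (s58Gal W (p ^ m) σ) hfix
    rw [s58a_det_sub_one hV, hdet1, ht] at hsq
    have h1 : (((2 - t) ^ 2 : ℤ) : ZMod (p ^ m)) = 0 := by
      push_cast
      rw [← hsq]
      ring
    have h2 : (((d - 1 : ℤ)) : ZMod (p ^ m)) = 0 := by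
      push_cast
      rw [← hd, hdet1, sub_self]
    have h1A := s58a_intCast_mem (A := A) h1
    have h2A := s58a_intCast_mem (A := A) h2
    refine ⟨?_, ?_⟩
    · have e : (LinearMap.trace A ρ.V (ρ.ρ σ) - 2) ^ 2 =
          (LinearMap.trace A ρ.V (ρ.ρ σ) - (t : A)) *
            (LinearMap.trace A ρ.V (ρ.ρ σ) - (t : A) + 2 * ((t : A) - 2)) +
          (((2 - t) ^ 2 : ℤ) : A) := by
        push_cast
        ring
      rw [e]
      exact Ideal.add_mem _ (Ideal.mul_mem_right _ _ htA) h1A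
    · have e : LinearMap.det (ρ.ρ σ) - 1 =
          (LinearMap.det (ρ.ρ σ) - (d : A)) + (((d - 1 : ℤ)) : A) := by
        push_cast
        ring
      rw [e]
      exact Ideal.add_mem _ hdA h2A
  have htr : LinearMap.trace A ρ.V (ρ.ρ σ) = 2 := by
    have h0 := s58m_eq_zero_of_forall_mem hpA (fun m => (key m).1)
    exact sub_eq_zero.mp ((pow_eq_zero_iff two_ne_zero).mp h0)
  have hdet : LinearMap.det (ρ.ρ σ) = 1 :=
    sub_eq_zero.mp (s58m_eq_zero_of_forall_mem hpA (fun m => (key m).2))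
  rw [s58c_charpoly_eq ρ.finrank_eq, htr, hdet]
  simp only [map_ofNat, map_one]
  ring

end Fermat.Agent.S58
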