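/-
S58-A (helper8): **assembly of S58** (conductor-level matching) from the packages of `Lib/S58`,
S35 and S36.

`g` is the newform of level `M ∣ N` extracted from the given eigenform (`s58n_exists_newform`),
with `a_ℓ(g) = a_ℓ(W)` for `ℓ ∤ N`.

* `s58a_match_of_charpoly` : a representation with the S35 characteristic polynomials at the
  Frobenius elements matches `W` (`S58Match`);
* `s58a_not_sq_dvd` : no `r ^ 2` divides `M` (S36 + unipotence of inertia);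
* `s58a_bad_of_dvd` : every prime divisor of `M` is a bad prime of `W` (S35, second clause);
* `s58a_coeff_eq` : `a_ℓ(g) = a_ℓ(W)` at every good `ℓ ∤ M` (S35 + coefficient rings);
* `s58a_main` : the statement of S58, given `S58ET W`.
-/
import Fermat.Agent.S35
import Fermat.Agent.S36
import Fermat.Agent.Lib.S58.Match
import Fermat.Agent.Lib.S58.Unipotent
import Fermat.Agent.Lib.S58.LocalFinal
import Fermat.Agent.Lib.S58.ResidualU
import Fermat.Agent.Lib.S58.PointCount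
import Fermat.Agent.Lib.S58.Coeff
import Fermat.Agent.Lib.S58.NewformExtract
import Fermat.Agent.Lib.T1.Asm.Res.EigenChar
import Fermat.Agent.Lib.Helper6.FrobeniusExists

set_option autoImplicit false
set_option linter.style.haveILetI false
set_option linter.unusedSectionVars false
set_option linter.unusedVariables false

namespace Fermat.Agent.S58

open WeierstrassCurve Polynomial IsLocalRing CuspForm ModularFormClass CongruenceSubgroup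
open Fermat.Agent.T1

local notation "Qb" => AlgebraicClosure ℚ
local notation "GQ" => (AlgebraicClosure ℚ ≃ₐ[ℚ] AlgebraicClosure ℚ)

/-! ### Elementary facts -/

theorem s58a_N_ne_zero {N : ℕ} (hN3 : ∀ q : ℕ, q.Prime → ¬ q ^ 3 ∣ N) : N ≠ 0 := by
  rintro rfl
  exact hN3 2 Nat.prime_two (dvd_zero _)

theorem s58a_Δ_ne_zero (W : WeierstrassCurve ℤ) {N : ℕ} (hN0 : N ≠ 0)
    (hbad : ∀ ℓ : ℕ, ℓ.Prime → (ℓ : ℤ) ∣ W.Δ → ℓ ∣ N) : W.Δ ≠ 0 := by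
  intro h0
  obtain ⟨q, hq1, hq2⟩ := Nat.exists_infinite_primes (N + 1)
  have h1 := hbad q hq2 (by rw [h0]; exact dvd_zero _)
  have h2 := Nat.le_of_dvd (Nat.pos_of_ne_zero hN0) h1
  omega

/-- a prime different from a given one -/
theorem s58a_exists_prime_ne (r : ℕ) : ∃ lam : ℕ, lam.Prime ∧ lam ≠ r := by
  by_cases h : r = 2
  · exact ⟨3, Nat.prime_three, by omega⟩
  · exact ⟨2, Nat.prime_two, fun h2 => h h2.symm⟩

/-- a local homomorphism maps the maximal ideal into the maximal ideal -/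
theorem s58a_mem_maximalIdeal_of_isLocalHom {O' O'' : Type*} [CommRing O'] [IsLocalRing O']
    [CommRing O''] [IsLocalRing O''] [Algebra O' O''] [IsLocalHom (algebraMap O' O'')] {lam : ℕ}
    (h : (lam : O') ∈ maximalIdeal O') : (lam : O'') ∈ maximalIdeal O'' := by
  rw [mem_maximalIdeal, mem_nonunits_iff] at h ⊢
  intro hu
  apply h
  have : algebraMap O' O'' (lam : O') = (lam : O'') := map_natCast _ _
  rw [← this] at hu
  exact isUnit_of_map_unit (algebraMap O' O'') _ hu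

/-! ### The context: a newform `g` of level `M ∣ N` with the eigenvalues of `W` away from `N` -/

section Context

variable (W : WeierstrassCurve ℤ) {N M : ℕ} [NeZero M] {g : CuspForm (Gamma0 M) 2}

/-- the image of the eigencharacter at a prime `ℓ ∤ N` is an integer -/
theorem s58a_iota_T (hg : g.IsNewform) (hMN : M ∣ N)
    (hgW : ∀ ℓ : ℕ, ℓ.Prime → ¬ ℓ ∣ N → qCoeff g ℓ = (W.apOfModel ℓ : ℂ))
    (S : Finset ℕ) {O' : Type} [CommRing O']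
    (iota : (terEigenCharC hg.1 (↑S : Set ℕ)).range →+* O')
    {ℓ : ℕ} (hℓ : ℓ.Prime) (hℓN : ¬ ℓ ∣ N) (hℓM : ¬ ℓ ∣ M) (hℓS : ℓ ∉ (↑S : Set ℕ)) :
    (iota.comp (terEigenCharC hg.1 (↑S : Set ℕ)).rangeRestrict)
      (heckeAlgebra.T hℓ hℓM hℓS) = ((W.apOfModel ℓ : ℤ) : O') := by
  have h1 : (terEigenCharC hg.1 (↑S : Set ℕ)).rangeRestrict (heckeAlgebra.T hℓ hℓM hℓS) =
      ((W.apOfModel ℓ : ℤ) : (terEigenCharC hg.1 (↑S : Set ℕ)).range) := by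
    apply Subtype.ext
    rw [RingHom.coe_rangeRestrict, terEigenCharC_T hg.1 (↑S : Set ℕ) hℓ hℓM hℓS, hgW ℓ hℓ hℓN]
    simp
  rw [RingHom.comp_apply, h1, map_intCast]

/-- **matching from the S35 characteristic polynomials** -/
theorem s58a_match_of_charpoly (hΔ : W.Δ ≠ 0) (het : S58ET W) (hg : g.IsNewform) (hMN : M ∣ N)
    (hN0 : N ≠ 0)
    (hgW : ∀ ℓ : ℕ, ℓ.Prime → ¬ ℓ ∣ N → qCoeff g ℓ = (W.apOfModel ℓ : ℂ))
    {lam : ℕ} (hlam : lam.Prime) (S : Finset ℕ) {O' : Type} [CommRing O']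
    (iota : (terEigenCharC hg.1 (↑S : Set ℕ)).range →+* O')
    {O'' : Type} [CommRing O''] [IsDomain O''] [IsDiscreteValuationRing O''] [CharZero O'']
    [Algebra O' O''] (ρ : GaloisRepAdic O'')
    (hρ : ∀ (ℓ : ℕ) (hℓ : ℓ.Prime) (hℓM : ¬ ℓ ∣ M) (hℓS : ℓ ∉ (↑S : Set ℕ)),
      ∀ A : ValuationSubring Qb, A.LiesOverPrime ℓ → ∀ σ : GQ, A.IsFrobeniusAt σ ℓ →
        LinearMap.charpoly (ρ.ρ σ) =
          X ^ 2 - C (algebraMap O' O'' ((iota.comp (terEigenCharC hg.1 (↑S : Set ℕ)).rangeRestrict)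
            (heckeAlgebra.T hℓ hℓM hℓS))) * X + C ((ℓ : O''))) :
    S58Match W lam ρ := by
  refine s58m_match W hΔ het hlam ρ (S ∪ N.primeFactors) ?_
  intro ℓ hℓ hℓT B hB σ hσ
  rw [Finset.mem_union, not_or] at hℓT
  obtain ⟨hℓS, hℓN'⟩ := hℓT
  have hℓN : ¬ ℓ ∣ N := fun h => hℓN' (Nat.mem_primeFactors.2 ⟨hℓ, h, hN0⟩)
  have hℓM : ¬ ℓ ∣ M := fun h => hℓN (dvd_trans h hMN)
  have hℓS' : ℓ ∉ (↑S : Set ℕ) := fun h => hℓS (Finset.mem_coe.1 h)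
  rw [hρ ℓ hℓ hℓM hℓS' B hB σ hσ, s58a_iota_T W hg hMN hgW S iota hℓ hℓN hℓM hℓS', map_intCast]

/-- the coefficient ring and `iota` for a given `lam` and `S` -/
theorem s58a_exists_coeff (hg : g.IsNewform) (lam : ℕ) [Fact lam.Prime] (S : Finset ℕ) :
    ∃ (O' : Type) (_ : CommRing O') (_ : IsDomain O') (_ : IsDiscreteValuationRing O')
      (_ : IsAdicComplete (maximalIdeal O') O') (_ : Finite (ResidueField O')) (_ : CharZero O'),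
      (lam : O') ∈ maximalIdeal O' ∧
        Nonempty ((terEigenCharC hg.1 (↑S : Set ℕ)).range →+* O') := by
  haveI := s58f_finite_range (M := M) 2 (↑S : Set ℕ) (terEigenCharC hg.1 (↑S : Set ℕ))
  exact s58f_exists_dvr (terEigenCharC hg.1 (↑S : Set ℕ)).range lam

/-- **(c1)** no square divides `M` -/
theorem s58a_not_sq_dvd (hΔ : W.Δ ≠ 0) (het : S58ET W) (hss : W.IsSemistableModel)
    (hg : g.IsNewform) (hMN : M ∣ N) (hN0 : N ≠ 0)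
    (hgW : ∀ ℓ : ℕ, ℓ.Prime → ¬ ℓ ∣ N → qCoeff g ℓ = (W.apOfModel ℓ : ℂ))
    {p : ℕ} [Fact p.Prime] (hp2 : p ≠ 2) (hirr : W.ModRepIsIrreducible p) (hp2N : ¬ p ^ 2 ∣ N)
    (hN3 : ∀ q : ℕ, q.Prime → ¬ q ^ 3 ∣ N) {r : ℕ} (hr : r.Prime) : ¬ r ^ 2 ∣ M := by
  intro hrM
  have hp : p.Prime := Fact.out
  have hM0 : M ≠ 0 := NeZero.ne M
  have hrp : r ≠ p := by
    rintro rfl
    exact hp2N (dvd_trans hrM hMN)
  have hfact : M.factorization r = 2 := by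
    have h2 : 2 ≤ M.factorization r := (hr.pow_dvd_iff_le_factorization hM0).1 hrM
    have h3 : ¬ 3 ≤ M.factorization r := fun h =>
      hN3 r hr (dvd_trans ((hr.pow_dvd_iff_le_factorization hM0).2 h) hMN)
    omega
  set S : Finset ℕ := insert p N.primeFactors with hS
  have hpS : p ∈ S := Finset.mem_insert_self _ _
  have hMS : ∀ q : ℕ, q.Prime → q ∣ M → q ∈ S := fun q hq hqM =>
    Finset.mem_insert_of_mem (Nat.mem_primeFactors.2 ⟨hq, dvd_trans hqM hMN, hN0⟩)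
  obtain ⟨O', i1, i2, i3, i4, i5, i6, hpO', ⟨iota⟩⟩ := s58a_exists_coeff hg p S
  have hchig : ∀ (ℓ : ℕ) (hℓ : ℓ.Prime) (hℓM : ¬ ℓ ∣ M) (hℓS : ℓ ∉ (↑S : Set ℕ)),
      terEigenCharC hg.1 (↑S : Set ℕ) (heckeAlgebra.T hℓ hℓM hℓS) = qCoeff g ℓ :=
    fun ℓ hℓ hℓM hℓS => terEigenCharC_T hg.1 (↑S : Set ℕ) hℓ hℓM hℓS
  obtain ⟨O'', j1, j2, j3, j4, j5, j6, j7, j8, j9, hinj, ρ, hρ, hnon⟩ :=
    Fermat.Agent.S36.result hg p S O' hpO' hp2 (terEigenCharC hg.1 (↑S : Set ℕ)) hchig iota hpS hMS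
      (by
        intro O'' k1 k2 k3 k4 k5 k6 k7 k8 k9 _ ρ' hρ'
        have hpO'' : (p : O'') ∈ maximalIdeal O'' := s58a_mem_maximalIdeal_of_isLocalHom hpO'
        have hm' : S58Match W p ρ' :=
          s58a_match_of_charpoly W hΔ het hg hMN hN0 hgW hp S iota ρ'
            (fun ℓ hℓ hℓM hℓS => hρ' ℓ hℓ (fun h => hℓS (h ▸ Finset.mem_coe.2 hpS)) hℓM hℓS)
        exact s58r_hres W hΔ het hp2 hirr hpO'' ρ' hm')
  have hpO'' : (p : O'') ∈ maximalIdeal O'' := s58a_mem_maximalIdeal_of_isLocalHom hpO'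
  have hm : S58Match W p ρ := s58a_match_of_charpoly W hΔ het hg hMN hN0 hgW hp S iota ρ hρ
  have hpodd : Odd p := hp.odd_of_ne_two hp2
  have huni : ρ.IsUnipotentOnInertiaAt r :=
    s58a_unipotent W hΔ het hp hpO'' ρ hm hr hrp (fun m P hP =>
      s58l_fixed W hΔ hr (hss r hr) hpodd.pow
        (fun h => hrp ((Nat.prime_dvd_prime_iff_eq hr hp).1 (hr.dvd_of_dvd_pow h))) P hP)
  exact hnon r hr hrp hfact huni

/-- **(d)** every prime divisor of `M` is a bad prime of `W` -/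
theorem s58a_bad_of_dvd (hΔ : W.Δ ≠ 0) (het : S58ET W) (hg : g.IsNewform) (hMN : M ∣ N)
    (hN0 : N ≠ 0)
    (hgW : ∀ ℓ : ℕ, ℓ.Prime → ¬ ℓ ∣ N → qCoeff g ℓ = (W.apOfModel ℓ : ℂ))
    {r : ℕ} (hr : r.Prime) (hrM : r ∣ M) (hr2 : ¬ r ^ 2 ∣ M) : (r : ℤ) ∣ W.Δ := by
  by_contra hgood
  obtain ⟨lam, hlam, hlamr⟩ := s58a_exists_prime_ne r
  haveI : Fact lam.Prime := ⟨hlam⟩
  set S : Finset ℕ := insert lam N.primeFactors with hS
  have hlamS : lam ∈ S := Finset.mem_insert_self _ _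
  have hMS : ∀ q : ℕ, q.Prime → q ∣ M → q ∈ S := fun q hq hqM =>
    Finset.mem_insert_of_mem (Nat.mem_primeFactors.2 ⟨hq, dvd_trans hqM hMN, hN0⟩)
  obtain ⟨O', i1, i2, i3, i4, i5, i6, hlamO', ⟨iota⟩⟩ := s58a_exists_coeff hg lam S
  have hchig : ∀ (ℓ : ℕ) (hℓ : ℓ.Prime) (hℓM : ¬ ℓ ∣ M) (hℓS : ℓ ∉ (↑S : Set ℕ)),
      terEigenCharC hg.1 (↑S : Set ℕ) (heckeAlgebra.T hℓ hℓM hℓS) = qCoeff g ℓ :=
    fun ℓ hℓ hℓM hℓS => terEigenCharC_T hg.1 (↑S : Set ℕ) hℓ hℓM hℓS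
  obtain ⟨O'', j1, j2, j3, j4, j5, j6, j7, j8, j9, hinj, ρ, hρ, hmult⟩ :=
    Fermat.Agent.S35.result hg lam S O' hlamO' (terEigenCharC hg.1 (↑S : Set ℕ)) hchig iota
      hlamS hMS
  have hlamO'' : (lam : O'') ∈ maximalIdeal O'' := s58a_mem_maximalIdeal_of_isLocalHom hlamO'
  have hm : S58Match W lam ρ := s58a_match_of_charpoly W hΔ het hg hMN hN0 hgW hlam S iota ρ hρ
  obtain ⟨B, σ, hB, hσ⟩ := Fermat.Agent.Lib.Helper6.exists_frobenius r hr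
  have htr := s58m_trace_frob W het hlam hlamO'' ρ hm hr hgood hlamr B hB σ hσ
  obtain ⟨hne1, hne2⟩ := s58p_ap_ne W hr
  rcases hmult r hr (fun h => hlamr h.symm) hrM hr2 B hB σ hσ with hc | hc
  · have h1 := (s58c_trace_det_of_charpoly ρ.finrank_eq (ρ.ρ σ) _ _ hc).1
    rw [htr] at h1
    apply hne1
    have h2 : ((W.apOfModel r : ℤ) : O'') = (((r : ℤ) + 1 : ℤ) : O'') := by
      rw [h1]; push_cast; ring
    exact_mod_cast h2
  · have hc' : LinearMap.charpoly (ρ.ρ σ) =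
        X ^ 2 - C (-((r : O'') + 1)) * X + C ((r : O'')) := by
      rw [hc, C_neg]; ring
    have h1 := (s58c_trace_det_of_charpoly ρ.finrank_eq (ρ.ρ σ) _ _ hc').1
    rw [htr] at h1
    apply hne2
    have h2 : ((W.apOfModel r : ℤ) : O'') = ((-((r : ℤ) + 1) : ℤ) : O'') := by
      rw [h1]; push_cast; ring
    exact_mod_cast h2

/-- **(e)** `a_ℓ(g) = a_ℓ(W)` at every good prime `ℓ ∤ M` -/
theorem s58a_coeff_eq (hΔ : W.Δ ≠ 0) (het : S58ET W) (hg : g.IsNewform) (hMN : M ∣ N)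
    (hN0 : N ≠ 0)
    (hgW : ∀ ℓ : ℕ, ℓ.Prime → ¬ ℓ ∣ N → qCoeff g ℓ = (W.apOfModel ℓ : ℂ))
    {ℓ₀ : ℕ} (hℓ₀ : ℓ₀.Prime) (hgood : ¬ (ℓ₀ : ℤ) ∣ W.Δ) (hℓ₀M : ¬ ℓ₀ ∣ M) :
    qCoeff g ℓ₀ = (W.apOfModel ℓ₀ : ℂ) := by
  by_cases hℓ₀N : ℓ₀ ∣ N
  swap
  · exact hgW ℓ₀ hℓ₀ hℓ₀N
  obtain ⟨lam, hlam, hlamℓ⟩ := s58a_exists_prime_ne ℓ₀
  haveI : Fact lam.Prime := ⟨hlam⟩
  set S : Finset ℕ := (insert lam N.primeFactors).erase ℓ₀ with hS
  have hlamS : lam ∈ S := Finset.mem_erase.2 ⟨hlamℓ, Finset.mem_insert_self _ _⟩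
  have hMS : ∀ q : ℕ, q.Prime → q ∣ M → q ∈ S := fun q hq hqM =>
    Finset.mem_erase.2 ⟨fun h => hℓ₀M (h ▸ hqM),
      Finset.mem_insert_of_mem (Nat.mem_primeFactors.2 ⟨hq, dvd_trans hqM hMN, hN0⟩)⟩
  have hℓ₀S : ℓ₀ ∉ (↑S : Set ℕ) := fun h => (Finset.mem_erase.1 (Finset.mem_coe.1 h)).1 rfl
  obtain ⟨O', i1, i2, i3, i4, i5, i6, hlamO', ⟨iota⟩⟩ := s58a_exists_coeff hg lam S
  have hchig : ∀ (ℓ : ℕ) (hℓ : ℓ.Prime) (hℓM : ¬ ℓ ∣ M) (hℓS : ℓ ∉ (↑S : Set ℕ)),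
      terEigenCharC hg.1 (↑S : Set ℕ) (heckeAlgebra.T hℓ hℓM hℓS) = qCoeff g ℓ :=
    fun ℓ hℓ hℓM hℓS => terEigenCharC_T hg.1 (↑S : Set ℕ) hℓ hℓM hℓS
  obtain ⟨O'', j1, j2, j3, j4, j5, j6, j7, j8, j9, hinj, ρ, hρ, -⟩ :=
    Fermat.Agent.S35.result hg lam S O' hlamO' (terEigenCharC hg.1 (↑S : Set ℕ)) hchig iota
      hlamS hMS
  have hlamO'' : (lam : O'') ∈ maximalIdeal O'' := s58a_mem_maximalIdeal_of_isLocalHom hlamO'
  have hm : S58Match W lam ρ := s58a_match_of_charpoly W hΔ het hg hMN hN0 hgW hlam S iota ρ hρ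
  obtain ⟨B, σ, hB, hσ⟩ := Fermat.Agent.Lib.Helper6.exists_frobenius ℓ₀ hℓ₀
  have htr := s58m_trace_frob W het hlam hlamO'' ρ hm hℓ₀ hgood hlamℓ B hB σ hσ
  have hc := hρ ℓ₀ hℓ₀ hℓ₀M hℓ₀S B hB σ hσ
  have h1 := (s58c_trace_det_of_charpoly ρ.finrank_eq (ρ.ρ σ) _ _ hc).1
  rw [htr] at h1
  set α : (terEigenCharC hg.1 (↑S : Set ℕ)).range :=
    (terEigenCharC hg.1 (↑S : Set ℕ)).rangeRestrict (heckeAlgebra.T hℓ₀ hℓ₀M hℓ₀S) with hα
  have h2 : iota α = ((W.apOfModel ℓ₀ : ℤ) : O') := by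
    apply hinj
    rw [map_intCast, h1]
    rfl
  have hint : IsIntegral ℤ (α : ℂ) :=
    terEigenCharC_isIntegral hg.1 (↑S : Set ℕ) (heckeAlgebra.T hℓ₀ hℓ₀M hℓ₀S)
  have h3 := s58f_eq_intCast iota α hint (W.apOfModel ℓ₀) h2
  rw [← h3, hα, RingHom.coe_rangeRestrict, terEigenCharC_T hg.1 (↑S : Set ℕ) hℓ₀ hℓ₀M hℓ₀S]

end Context

/-! ### The main theorem -/

/-- **S58, given (ET)** -/
theorem s58a_main (W : WeierstrassCurve ℤ) (hss : W.IsSemistableModel) (N : ℕ)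
    (p : ℕ) [Fact p.Prime] (hp2 : p ≠ 2) (hirr : W.ModRepIsIrreducible p)
    (hp2N : ¬ p ^ 2 ∣ N)
    (hN : W.IsModularModelOfLevel N) (hbad : ∀ ℓ : ℕ, ℓ.Prime → (ℓ : ℤ) ∣ W.Δ → ℓ ∣ N)
    (hN3 : ∀ q : ℕ, q.Prime → ¬ q ^ 3 ∣ N) (het : S58ET W) :
    W.IsModularModelOfLevel W.conductorLevel := by
  have hN0 : N ≠ 0 := s58a_N_ne_zero hN3
  have hΔ : W.Δ ≠ 0 := s58a_Δ_ne_zero W hN0 hbad
  obtain ⟨f, hf, hfW⟩ := hN
  obtain ⟨M, g, hMN, hg, hgf⟩ := s58n_exists_newform hN0 hf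
  have hM0 : M ≠ 0 := fun h => hN0 (by rw [h] at hMN; exact zero_dvd_iff.1 hMN)
  haveI : NeZero M := ⟨hM0⟩
  have hgW : ∀ ℓ : ℕ, ℓ.Prime → ¬ ℓ ∣ N → qCoeff g ℓ = (W.apOfModel ℓ : ℂ) := by
    intro ℓ hℓ hℓN
    rw [hgf ℓ hℓ hℓN]
    exact hfW ℓ hℓ (fun h => hℓN (hbad ℓ hℓ h)) hℓN
  have hsq : ∀ r : ℕ, r.Prime → ¬ r ^ 2 ∣ M := fun r hr =>
    s58a_not_sq_dvd W hΔ het hss hg hMN hN0 hgW hp2 hirr hp2N hN3 hr
  have hMsq : Squarefree M := by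
    rw [Nat.squarefree_iff_prime_squarefree]
    intro r hr h
    exact hsq r hr (by rwa [pow_two])
  have hM : M ∣ W.conductorLevel := by
    rw [← Nat.prod_primeFactors_of_squarefree hMsq]
    refine Finset.prod_primes_dvd _ (fun r hr => (Nat.prime_of_mem_primeFactors hr).prime) ?_
    intro r hr
    have hrp := Nat.prime_of_mem_primeFactors hr
    have hrM := Nat.dvd_of_mem_primeFactors hr
    exact (W.prime_dvd_conductorLevel_iff hΔ hrp).2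
      (s58a_bad_of_dvd W hΔ het hg hMN hN0 hgW hrp hrM (hsq r hrp))
  exact s58v_final W hM hg.1 fun ℓ hℓ hgood hℓM =>
    s58a_coeff_eq W hΔ het hg hMN hN0 hgW hℓ hgood hℓM

end Fermat.Agent.S58
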