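/-
S58 (helper4): **elementary point-count bounds** `1 ≤ #W̃(𝔽_r) ≤ 2r + 1`, hence
`-r ≤ a_r(W) ≤ r`, for every prime `r` (any reduction type).
-/
import Mathlib
import Fermat.Prelude.Def_FLTPrelim_Modularity

set_option autoImplicit false
set_option linter.style.haveILetI false

namespace Fermat.Agent.S58

open WeierstrassCurve Polynomial

section Field

variable {F : Type*} [Field F] (W : Affine F)

/-- the quadratic polynomial in `Y` cutting out the points with abscissa `x` -/
noncomputable def s58pQuad (x : F) : F[X] :=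
  X ^ 2 + C (W.a₁ * x + W.a₃) * X - C (x ^ 3 + W.a₂ * x ^ 2 + W.a₄ * x + W.a₆)

theorem s58pQuad_natDegree (x : F) : (s58pQuad W x).natDegree = 2 := by
  rw [s58pQuad]
  compute_degree!

theorem s58pQuad_ne_zero (x : F) : s58pQuad W x ≠ 0 := fun h => by
  have := s58pQuad_natDegree W x
  rw [h, natDegree_zero] at this
  exact absurd this (by norm_num)

theorem s58p_isRoot_iff (x y : F) : (s58pQuad W x).IsRoot y ↔ W.Equation x y := by
  rw [Affine.equation_iff, IsRoot.def, s58pQuad]
  simp only [eval_sub, eval_add, eval_pow, eval_X, eval_mul, eval_C]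
  constructor <;> intro h <;> linear_combination h

/-- at most two points over each abscissa -/
theorem s58p_card_fibre_le (x : F) : Nat.card {y : F // W.Equation x y} ≤ 2 := by
  classical
  have h1 : Nat.card {y : F // W.Equation x y} ≤
      Nat.card ↥((s58pQuad W x).roots.toFinset) := by
    refine Nat.card_le_card_of_injective
      (fun y => ⟨y.1, Multiset.mem_toFinset.mpr
        ((mem_roots (s58pQuad_ne_zero W x)).mpr ((s58p_isRoot_iff W x y.1).mpr y.2))⟩) ?_
    intro y y' h
    have h' : (y : F) = (y' : F) := congrArg (fun z : ↥((s58pQuad W x).roots.toFinset) => (z : F)) h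
    exact Subtype.ext h'
  have h2 : Nat.card ↥((s58pQuad W x).roots.toFinset) = (s58pQuad W x).roots.toFinset.card := by
    rw [Nat.card_eq_fintype_card, Fintype.card_coe]
  rw [h2] at h1
  refine h1.trans ((Multiset.toFinset_card_le _).trans ?_)
  exact (card_roots' _).trans (s58pQuad_natDegree W x).le

/-- **`#W(F) ≤ 2 #F + 1`** -/
theorem s58p_card_le [Finite F] [DecidableEq F] : Nat.card W.Point ≤ 2 * Nat.card F + 1 := by
  classical
  haveI := Fintype.ofFinite F
  let g : W.Point → Option (Σ x : F, {y : F // W.Equation x y}) := fun P =>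
    match P with
    | .zero => none
    | .some x y h => some ⟨x, y, h.1⟩
  have hg : Function.Injective g := by
    rintro (_ | ⟨x, y, h⟩) (_ | ⟨x', y', h'⟩) hPQ
    · rfl
    · simp [g] at hPQ
    · simp [g] at hPQ
    · simp only [g, Option.some.injEq, Sigma.mk.injEq] at hPQ
      obtain ⟨rfl, h2⟩ := hPQ
      have h3 := eq_of_heq h2
      obtain rfl : y = y' := congrArg (fun z : {y : F // W.Equation x y} => (z : F)) h3
      rfl
  refine (Nat.card_le_card_of_injective g hg).trans ?_
  rw [Nat.card_eq_fintype_card, Fintype.card_option, Fintype.card_sigma, Nat.card_eq_fintype_card]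
  refine Nat.succ_le_succ ?_
  calc ∑ x : F, Fintype.card {y : F // W.Equation x y} ≤ ∑ _x : F, 2 :=
        Finset.sum_le_sum fun x _ => by
          rw [← Nat.card_eq_fintype_card]
          exact s58p_card_fibre_le W x
    _ = 2 * Fintype.card F := by
        rw [Finset.sum_const, Finset.card_univ, smul_eq_mul, mul_comm]

end Field

/-- **`-r ≤ a_r(W) ≤ r`** -/
theorem s58p_ap_bounds (W : WeierstrassCurve ℤ) {r : ℕ} (hr : r.Prime) :
    -(r : ℤ) ≤ W.apOfModel r ∧ W.apOfModel r ≤ (r : ℤ) := by
  haveI : Fact r.Prime := ⟨hr⟩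
  haveI : NeZero r := ⟨hr.ne_zero⟩
  have hcardF : Nat.card (ZMod r) = r := by
    rw [Nat.card_eq_fintype_card, ZMod.card]
  have h1 : 1 ≤ (W.reductionMod r).card := by
    haveI : Finite (W.reductionMod r).toAffine.Point := inferInstance
    exact Nat.card_pos
  have h2 : (W.reductionMod r).card ≤ 2 * r + 1 := by
    have := s58p_card_le (W.reductionMod r).toAffine
    rwa [hcardF] at this
  rw [apOfModel, traceOfFrobenius, hcardF]
  constructor <;> omega

theorem s58p_ap_ne (W : WeierstrassCurve ℤ) {r : ℕ} (hr : r.Prime) :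
    W.apOfModel r ≠ (r : ℤ) + 1 ∧ W.apOfModel r ≠ -((r : ℤ) + 1) := by
  obtain ⟨h1, h2⟩ := s58p_ap_bounds W hr
  constructor <;> omega

end Fermat.Agent.S58
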