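/-
S58 (helper4), modular-forms side, file 1: change of level on `S_k(Γ₀(M))`: the inclusion
`S_k(Γ₀(M)) ⊂ S_k(Γ₀(M'))` (`M ∣ M'`) and `V_r : S_k(Γ₀(M)) → S_k(Γ₀(M r))`, `f ↦ f(r τ)`, with
their `q`-coefficients (on top of the `Γ₁`-library `Lib/DS/Hecke`).
-/
import Fermat.Agent.Lib.DS.Hecke.Level
import Fermat.Prelude.Def_FLTPrelim_Modularity

set_option autoImplicit false

noncomputable section

namespace Fermat.Agent.S58

open UpperHalfPlane OnePoint CongruenceSubgroup ModularForm Matrix.SpecialLinearGroup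
open ModularFormClass Fermat.Agent.DS
open scoped MatrixGroups ModularForm Manifold

/-- `Γ₀(N)`-invariance (in weight `k`) of a function on `ℍ`. -/
def S58Inv0 (k : ℤ) (N : ℕ) (h : ℍ → ℂ) : Prop := ∀ γ ∈ Gamma0 N, h ∣[k] γ = h

theorem s58Inv0_of_slashInvariantFormClass {F : Type*} [FunLike F ℍ ℂ] {N : ℕ} {k : ℤ}
    [SlashInvariantFormClass F (Gamma0 N) k] (f : F) : S58Inv0 k N ⇑f := fun _ hγ ↦
  SlashInvariantFormClass.slash_action_eq f _ (Subgroup.mem_map_of_mem (mapGL ℝ) hγ)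

namespace S58Inv0

variable {k : ℤ} {N : ℕ} {h h' : ℍ → ℂ}

/-- `Γ₁(N) ⊆ Γ₀(N)` -/
theorem dshInv (hh : S58Inv0 k N h) : DshInv k N h := fun γ hγ ↦
  hh γ (Gamma1_in_Gamma0 N hγ)

/-- Level inclusion. -/
theorem of_dvd {M : ℕ} (hNM : N ∣ M) (hh : S58Inv0 k N h) : S58Inv0 k M h := fun γ hγ ↦ by
  refine hh γ ?_
  rw [Gamma0_mem] at hγ ⊢
  have cast : ∀ z : ℤ, ZMod.castHom hNM (ZMod N) (z : ZMod M) = (z : ZMod N) := fun z ↦
    map_intCast (ZMod.castHom hNM (ZMod N)) z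
  rw [← cast, hγ, map_zero]

/-- Level raising: `V_p`. -/
theorem slash_heckeDiagMatrix {p : ℕ} (hp : p ≠ 0) (hh : S58Inv0 k N h) :
    S58Inv0 k (N * p) (h ∣[k] heckeDiagMatrix p) := fun g hg ↦ by
  rw [Gamma0_mem] at hg
  obtain ⟨e, he⟩ : ((N * p : ℕ) : ℤ) ∣ g 1 0 := (ZMod.intCast_zmod_eq_zero_iff_dvd _ _).mp hg
  have he' : g 1 0 = p * ((N : ℤ) * e) := by rw [he]; push_cast; ring
  obtain ⟨g', hg'10, -, hmul⟩ := dsh_heckeDiagMatrix_mul_of_eq' hp g ((N : ℤ) * e) he'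
  have hg' : g' ∈ Gamma0 N := by
    rw [Gamma0_mem, hg'10]
    simp
  have h4 : (h ∣[k] heckeDiagMatrix p) ∣[k] g
      = (h ∣[k] heckeDiagMatrix p) ∣[k] (mapGL ℝ g : GL (Fin 2) ℝ) := rfl
  rw [h4, ← SlashAction.slash_mul, hmul, SlashAction.slash_mul]
  congr 1
  exact hh g' hg'

end S58Inv0

variable {k : ℤ}

theorem s58Inv0_coe {N : ℕ} (f : CuspForm (Gamma0 N) k) : S58Inv0 k N ⇑f :=
  s58Inv0_of_slashInvariantFormClass f

theorem s58Cusp_coe {N : ℕ} [NeZero N] (f : CuspForm (Gamma0 N) k) : DshCusp k ⇑f :=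
  dshCusp_of_cuspFormClass f

theorem s58Nice_coe {N : ℕ} [NeZero N] (f : CuspForm (Gamma0 N) k) : DshNice ⇑f :=
  dshNice_of_inv_cusp (s58Inv0_coe f).dshInv (s58Cusp_coe f)

/-- cusp forms on `Γ₀(N)` are determined by their `q`-coefficients -/
theorem s58_ext_qCoeff {N : ℕ} [NeZero N] {f g : CuspForm (Gamma0 N) k}
    (h : ∀ n, qCoeff f n = qCoeff g n) : f = g :=
  DFunLike.coe_injective ((s58Nice_coe f).ext_qCoeff (s58Nice_coe g) h)

theorem s58_qCoeff_zero {N : ℕ} [NeZero N] (f : CuspForm (Gamma0 N) k) : qCoeff f 0 = 0 :=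
  (s58Nice_coe f).qCoeff_zero_of_isZeroAtImInfty (s58Cusp_coe f).isZeroAtImInfty

theorem s58_qCoeff_add {N : ℕ} [NeZero N] (f g : CuspForm (Gamma0 N) k) (n : ℕ) :
    qCoeff (⇑(f + g)) n = qCoeff f n + qCoeff g n := by
  rw [FunLike.coe_add, (s58Nice_coe f).qCoeff_add (s58Nice_coe g)]

theorem s58_qCoeff_smul {N : ℕ} [NeZero N] (c : ℂ) (f : CuspForm (Gamma0 N) k) (n : ℕ) :
    qCoeff (⇑(c • f)) n = c * qCoeff f n := by
  rw [FunLike.coe_smul, (s58Nice_coe f).qCoeff_smul]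

theorem s58_qCoeff_sub {N : ℕ} [NeZero N] (f g : CuspForm (Gamma0 N) k) (n : ℕ) :
    qCoeff (⇑(f - g)) n = qCoeff f n - qCoeff g n := by
  rw [FunLike.coe_sub, (s58Nice_coe f).qCoeff_sub (s58Nice_coe g)]

/-- Level inclusion `S_k(Γ₀(M)) → S_k(Γ₀(M'))` for `M ∣ M'`. -/
def s58vIncl (k : ℤ) {M M' : ℕ} [NeZero M] [NeZero M'] (h : M ∣ M') :
    CuspForm (Gamma0 M) k →ₗ[ℂ] CuspForm (Gamma0 M') k where
  toFun f := dshMkCusp (Gamma0 M') k ⇑f (s58Cusp_coe f) ((s58Inv0_coe f).of_dvd h)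
  map_add' _ _ := rfl
  map_smul' _ _ := rfl

@[simp] theorem coe_s58vIncl {M M' : ℕ} [NeZero M] [NeZero M'] (h : M ∣ M')
    (f : CuspForm (Gamma0 M) k) : ⇑(s58vIncl k h f) = ⇑f := rfl

theorem qCoeff_s58vIncl {M M' : ℕ} [NeZero M] [NeZero M'] (h : M ∣ M')
    (f : CuspForm (Gamma0 M) k) (n : ℕ) : qCoeff (s58vIncl k h f) n = qCoeff f n := rfl

theorem s58vIncl_injective {M M' : ℕ} [NeZero M] [NeZero M'] (h : M ∣ M') :
    Function.Injective (s58vIncl k h) := fun f g hfg ↦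
  DFunLike.coe_injective (by
    have := congrArg (fun x : CuspForm (Gamma0 M') k ↦ (⇑x : ℍ → ℂ)) hfg
    simpa using this)

/-- `f ↦ f∣[r,0;0,1] = r^(k-1) f(r τ)` as a map `S_k(Γ₀(M)) → S_k(Γ₀(M r))`. -/
def s58vSlash (k : ℤ) (M r : ℕ) [NeZero M] [NeZero r] :
    CuspForm (Gamma0 M) k →ₗ[ℂ] CuspForm (Gamma0 (M * r)) k where
  toFun f := dshMkCusp (Gamma0 (M * r)) k ((⇑f) ∣[k] heckeDiagMatrix r)
    ((s58Cusp_coe f).slash_heckeDiagMatrix r)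
    ((s58Inv0_coe f).slash_heckeDiagMatrix (NeZero.ne r))
  map_add' f g := DFunLike.coe_injective <| by
    change (⇑(f + g)) ∣[k] heckeDiagMatrix r =
      (⇑f) ∣[k] heckeDiagMatrix r + (⇑g) ∣[k] heckeDiagMatrix r
    rw [FunLike.coe_add, SlashAction.add_slash]
  map_smul' c f := DFunLike.coe_injective <| by
    change (⇑(c • f)) ∣[k] heckeDiagMatrix r = c • ((⇑f) ∣[k] heckeDiagMatrix r)
    rw [FunLike.coe_smul, ModularForm.smul_slash, σ_heckeDiagMatrix, ContinuousAlgEquiv.refl_apply]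

@[simp] theorem coe_s58vSlash (M r : ℕ) [NeZero M] [NeZero r] (f : CuspForm (Gamma0 M) k) :
    ⇑(s58vSlash k M r f) = (⇑f) ∣[k] heckeDiagMatrix r := rfl

theorem qCoeff_s58vSlash (M r : ℕ) [NeZero M] [NeZero r] (f : CuspForm (Gamma0 M) k) (n : ℕ) :
    qCoeff (s58vSlash k M r f) n =
      if r ∣ n then (r : ℂ) ^ (k - 1) * qCoeff f (n / r) else 0 := by
  rw [coe_s58vSlash, (s58Nice_coe f).qCoeff_slash_heckeDiagMatrix k (NeZero.ne r)]

/-- **`V_r : S_k(Γ₀(M)) → S_k(Γ₀(M r))`**, `f ↦ f(r τ)` -/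
def s58vV (k : ℤ) (M r : ℕ) [NeZero M] [NeZero r] :
    CuspForm (Gamma0 M) k →ₗ[ℂ] CuspForm (Gamma0 (M * r)) k :=
  ((r : ℂ) ^ (k - 1))⁻¹ • s58vSlash k M r

theorem qCoeff_s58vV (M r : ℕ) [NeZero M] [NeZero r] (f : CuspForm (Gamma0 M) k) (n : ℕ) :
    qCoeff (s58vV k M r f) n = if r ∣ n then qCoeff f (n / r) else 0 := by
  have hr : ((r : ℂ) ^ (k - 1)) ≠ 0 := zpow_ne_zero _ (Nat.cast_ne_zero.mpr (NeZero.ne r))
  rw [s58vV, LinearMap.smul_apply, s58_qCoeff_smul, qCoeff_s58vSlash]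
  split_ifs
  · rw [← mul_assoc, inv_mul_cancel₀ hr, one_mul]
  · rw [mul_zero]

end Fermat.Agent.S58
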